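import Fermat.Agent.SmallLevel.KummerUnits

set_option autoImplicit false

namespace FLTAgent.SmallLevel

open NumberField Ideal Finset

/-- Value at `x` of a coefficient list. -/
def evL {R : Type*} [CommSemiring R] (x : R) : List ℕ → R
  | [] => 0
  | c :: cs => c + x * evL x cs

def addL : List ℕ → List ℕ → List ℕ
  | [], b => b
  | a :: as, [] => a :: as
  | a :: as, b :: bs => (a + b) :: addL as bs

def scaleL (c : ℕ) : List ℕ → List ℕ
  | [] => []
  | b :: bs => (c * b) :: scaleL c bs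

def mulL : List ℕ → List ℕ → List ℕ
  | [], _ => []
  | a :: as, b => addL (scaleL a b) (0 :: mulL as b)

def redL (p m : ℕ) (L : List ℕ) : List ℕ := (L.take m).map (· % p)

def powL (p m : ℕ) (L : List ℕ) : ℕ → List ℕ
  | 0 => [1]
  | n + 1 => redL p m (mulL (powL p m L n) L)

def geoL : ℕ → List ℕ
  | 0 => []
  | a + 1 => addL [1] (mulL [1, 1] (geoL a))

/-- Generator `0` is `ζ`, generator `a` is `1 + ζ + ⋯ + ζ ^ (a - 1)`. -/
def genL : ℕ → List ℕ
  | 0 => [1, 1]
  | a + 1 => geoL (a + 1)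

def prodL (p m : ℕ) : List (ℕ × ℕ) → List ℕ
  | [] => [1]
  | (a, e) :: E => redL p m (mulL (powL p m (redL p m (genL a)) e) (prodL p m E))

section sound

variable {R : Type*} [CommSemiring R] (x : R)

lemma evL_addL : ∀ a b : List ℕ, evL x (addL a b) = evL x a + evL x b
  | [], b => by simp [addL, evL]
  | a :: as, [] => by simp [addL, evL]
  | a :: as, b :: bs => by simp [addL, evL, evL_addL as bs]; ring

lemma evL_scaleL (c : ℕ) : ∀ b : List ℕ, evL x (scaleL c b) = c * evL x b
  | [] => by simp [scaleL, evL]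
  | b :: bs => by simp [scaleL, evL, evL_scaleL c bs]; ring

lemma evL_mulL : ∀ a b : List ℕ, evL x (mulL a b) = evL x a * evL x b
  | [], b => by simp [mulL, evL]
  | a :: as, b => by simp [mulL, evL, evL_addL, evL_scaleL, evL_mulL as b]; ring

lemma evL_take_drop : ∀ (m : ℕ) (L : List ℕ),
    evL x L = evL x (L.take m) + x ^ m * evL x (L.drop m)
  | 0, L => by simp [evL]
  | m + 1, [] => by simp [evL]
  | m + 1, a :: L => by
    rw [List.take_succ_cons, List.drop_succ_cons, evL, evL, evL_take_drop m L]; ring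

lemma evL_map_mod (p : ℕ) (hp : (p : R) = 0) :
    ∀ L : List ℕ, evL x (L.map (· % p)) = evL x L
  | [] => rfl
  | a :: L => by
    rw [List.map_cons, evL, evL, evL_map_mod p hp L]
    congr 1
    conv_rhs => rw [← Nat.mod_add_div a p]
    simp [hp]

lemma evL_redL (p m : ℕ) (hp : (p : R) = 0) (hx : x ^ m = 0) (L : List ℕ) :
    evL x (redL p m L) = evL x L := by
  rw [redL, evL_map_mod x p hp, evL_take_drop x m L, hx, zero_mul, add_zero]

lemma evL_powL (p m : ℕ) (hp : (p : R) = 0) (hx : x ^ m = 0) (L : List ℕ) :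
    ∀ n, evL x (powL p m L n) = evL x L ^ n
  | 0 => by simp [powL, evL]
  | n + 1 => by rw [powL, evL_redL x p m hp hx, evL_mulL, evL_powL p m hp hx L n, pow_succ]

end sound

def monL : ℕ → ℕ → List ℕ
  | 0, a => [a]
  | d + 1, a => 0 :: monL d a

lemma evL_monL {R : Type*} [CommSemiring R] (x : R) (a : ℕ) :
    ∀ d, evL x (monL d a) = a * x ^ d
  | 0 => by simp [monL, evL]
  | d + 1 => by rw [monL, evL, evL_monL x a d]; push_cast; ring

variable {p : ℕ} [hp : Fact p.Prime] {K : Type*} [Field K] [NumberField K]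
  [IsCyclotomicExtension {p} ℚ K] {ζ : K} (hζ : IsPrimitiveRoot ζ p)

/-- Value of a generator. -/
noncomputable def genV : ℕ → 𝓞 K
  | 0 => hζ.toInteger
  | a + 1 => ∑ i ∈ range (a + 1), hζ.toInteger ^ i

noncomputable def prodV : List (ℕ × ℕ) → 𝓞 K
  | [] => 1
  | (a, e) :: E => genV hζ a ^ e * prodV E

omit [IsCyclotomicExtension {p} ℚ K] [NumberField K] in
include hζ in
lemma isUnit_prodV : ∀ E : List (ℕ × ℕ), (∀ x ∈ E, x.1 < p) → IsUnit (prodV hζ E)
  | [], _ => isUnit_one
  | (a, e) :: E, h => by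
    refine IsUnit.mul (IsUnit.pow e ?_) (isUnit_prodV E fun x hx => h x (List.mem_cons_of_mem _ hx))
    rcases a with _ | a
    · exact hζ.toInteger_isPrimitiveRoot.isUnit hp.out.ne_zero
    · exact hζ.toInteger_isPrimitiveRoot.geom_sum_isUnit hp.out.two_le
        ((hp.out.coprime_iff_not_dvd.2 (fun hd => by
          have := Nat.le_of_dvd (Nat.succ_pos a) hd
          have := h _ (List.mem_cons_self ..)
          simp only at this
          omega)).symm)

include hζ in
lemma prodV_congr (E : List (ℕ × ℕ)) (d a : ℕ) (hd : 1 ≤ d) (hd' : d + 1 ≤ p - 1)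
    (hcheck : (prodL p (p - 1) E).take (d + 1) = addL [1] (monL d a)) :
    (hζ.toInteger - 1) ^ (d + 1) ∣
      prodV hζ E - (1 + (a : 𝓞 K) * (hζ.toInteger - 1) ^ d) := by
  set l := hζ.toInteger - 1 with hl
  let π := Ideal.Quotient.mk (span {l ^ (p - 1)})
  have hx : π l ^ (p - 1) = 0 := by
    rw [← map_pow]
    exact Ideal.Quotient.eq_zero_iff_mem.2 (mem_span_singleton.2 dvd_rfl)
  have hpQ : ((p : ℕ) : 𝓞 K ⧸ span {l ^ (p - 1)}) = 0 := by
    rw [← map_natCast π]
    exact Ideal.Quotient.eq_zero_iff_mem.2 (mem_span_singleton.2 (lam_pow_associated hζ).dvd)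
  have hgeo : ∀ a, evL (π l) (geoL a) = π (∑ i ∈ range a, hζ.toInteger ^ i) := by
    intro a
    induction a with
    | zero => simp [geoL, evL]
    | succ a ih =>
      rw [geoL, evL_addL, evL_mulL, ih, geom_sum_succ, map_add, map_mul, map_one,
        show hζ.toInteger = 1 + l by ring, map_add, map_one]
      simp [evL, add_comm]
  have hgen : ∀ a, evL (π l) (genL a) = π (genV hζ a) := by
    intro a
    rcases a with _ | a
    · simp [genL, genV, evL, hl]
    · exact hgeo (a + 1)
  have hprod : ∀ E, evL (π l) (prodL p (p - 1) E) = π (prodV hζ E) := by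
    intro E
    induction E with
    | nil => simp [prodL, prodV, evL]
    | cons x E ih =>
      obtain ⟨a, e⟩ := x
      rw [prodL, prodV, evL_redL _ _ _ hpQ hx, evL_mulL, evL_powL _ _ _ hpQ hx,
        evL_redL _ _ _ hpQ hx, hgen, ih, map_mul, map_pow]
  have h := hprod E
  rw [evL_take_drop (π l) (d + 1), hcheck, evL_addL, evL_monL] at h
  obtain ⟨r, hr⟩ := Ideal.Quotient.mk_surjective (evL (π l) ((prodL p (p - 1) E).drop (d + 1)))
  rw [← hr] at h
  have h' : π (1 + (a : 𝓞 K) * l ^ d + l ^ (d + 1) * r) = π (prodV hζ E) := by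
    rw [← h]; simp [evL, π]
  rw [Ideal.Quotient.eq, mem_span_singleton] at h'
  have h2 := dvd_sub (dvd_mul_right (l ^ (d + 1)) r) ((pow_dvd_pow l hd').trans h')
  convert h2 using 1
  ring

include hζ in
theorem kummerUnits_of_cert (hodd : p ≠ 2) (n : ℕ) (hn : n = (p - 1) / 2)
    (E : Fin n → List (ℕ × ℕ)) (d a : Fin n → ℕ)
    (hd : StrictMono d) (hd1 : ∀ k, 1 ≤ d k) (hdp : ∀ k, d k + 1 ≤ p - 1)
    (hE : ∀ k, ∀ x ∈ E k, x.1 < p)
    (ha : ∀ k, 0 < a k ∧ a k < p)
    (hcheck : ∀ k, (prodL p (p - 1) (E k)).take (d k + 1) = addL [1] (monL (d k) (a k))) :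
    KummerUnits p K := by
  have hp3 : 2 < p := by have := hp.out.two_le; omega
  have : NeZero p := ⟨hp.out.ne_zero⟩
  have hrank : Units.rank K + 1 = n := by
    have h0 : InfinitePlace.nrRealPlaces K = 0 :=
      IsCyclotomicExtension.Rat.nrRealPlaces_eq_zero K hp3
    have h1 : InfinitePlace.nrComplexPlaces K = p.totient / 2 :=
      IsCyclotomicExtension.Rat.nrComplexPlaces_eq_totient_div_two p K
    rw [Units.rank, InfinitePlace.card_eq_nrRealPlaces_add_nrComplexPlaces, h0, h1,
      Nat.totient_prime hp.out, hn]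
    omega
  subst hrank
  let w : Fin (Units.rank K + 1) → (𝓞 K)ˣ := fun k => (isUnit_prodV hζ (E k) (hE k)).unit
  refine kummerUnits_of_independent hζ hodd w fun e ⟨m, hm⟩ => ?_
  refine units_independent hζ w d hd hd1 hdp (fun k => ⟨(a k : ℤ), ?_, ?_⟩) e m hm
  · intro h
    have := Nat.le_of_dvd (ha k).1 (Int.natCast_dvd_natCast.1 h)
    have := (ha k).2
    omega
  · simpa [w] using prodV_congr hζ (E k) (d k) (a k) (hd1 k) (hdp k) (hcheck k)

end FLTAgent.SmallLevel
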