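import Mathlib

set_option autoImplicit false

namespace FLTAgent.SmallLevel

open Finset

/-- Auxiliary prime conditions of Sophie Germain. -/
structure GermainAux (p q : ℕ) : Prop where
  no_consec : ∀ x y z : ZMod q, x ^ p + y ^ p + z ^ p = 0 → x = 0 ∨ y = 0 ∨ z = 0
  not_pow : ∀ x : ZMod q, x ^ p ≠ (p : ZMod q)

/-- The cofactor in `b ^ p + c ^ p = (b + c) * S`. -/
def sgCofactor (p : ℕ) (b c : ℤ) : ℤ := ∑ i ∈ range p, b ^ i * (-c) ^ (p - 1 - i)

lemma sgCofactor_mul (p : ℕ) (hodd : Odd p) (b c : ℤ) :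
    (b + c) * sgCofactor p b c = b ^ p + c ^ p := by
  have := geom_sum₂_mul b (-c) p
  rw [hodd.neg_pow, sub_neg_eq_add, sub_neg_eq_add] at this
  rw [mul_comm]; exact this

lemma sgCofactor_cast {R : Type*} [CommRing R] (p : ℕ) (b c : ℤ)
    (h : (b : R) + c = 0) : (sgCofactor p b c : R) = p * (b : R) ^ (p - 1) := by
  have hc : -(c : R) = b := by linear_combination -h
  unfold sgCofactor
  push_cast
  rw [hc]
  rw [sum_congr rfl (g := fun _ => (b : R) ^ (p - 1))]
  · simp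
  · intro i hi
    rw [mem_range] at hi
    rw [← pow_add]
    congr 1
    omega

/-- If `a ^ p + b ^ p + c ^ p = 0` and `p ∤ a`, `b + c` and its cofactor are `p`-th powers. -/
lemma sg_factor (p : ℕ) (hp : p.Prime) (hodd : Odd p) (a b c : ℤ)
    (h : a ^ p + b ^ p + c ^ p = 0) (hbc : IsCoprime b c) (hpa : ¬ (p : ℤ) ∣ a) :
    ∃ A T : ℤ, b + c = A ^ p ∧ sgCofactor p b c = T ^ p ∧ a = -(A * T) := by
  have hmul : (b + c) * sgCofactor p b c = (-a) ^ p := by
    rw [sgCofactor_mul p hodd, hodd.neg_pow]; linarith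
  have hcop : IsCoprime (b + c) (sgCofactor p b c) := by
    rw [Int.isCoprime_iff_gcd_eq_one]
    by_contra hne
    obtain ⟨r, hr, hrd⟩ := Nat.exists_prime_and_dvd hne
    have h1 : (r : ℤ) ∣ b + c :=
      (Int.natCast_dvd_natCast.2 hrd).trans (Int.gcd_dvd_left _ _)
    have h2 : (r : ℤ) ∣ sgCofactor p b c :=
      (Int.natCast_dvd_natCast.2 hrd).trans (Int.gcd_dvd_right _ _)
    have : Fact r.Prime := ⟨hr⟩
    have e1 : (b : ZMod r) + c = 0 := by
      have := (ZMod.intCast_zmod_eq_zero_iff_dvd _ _).2 h1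
      push_cast at this; exact this
    have e2 : (sgCofactor p b c : ZMod r) = 0 := (ZMod.intCast_zmod_eq_zero_iff_dvd _ _).2 h2
    rw [sgCofactor_cast p b c e1] at e2
    rcases mul_eq_zero.1 e2 with e | e
    · have hrp : r = p := ((hp.eq_one_or_self_of_dvd r
        ((ZMod.natCast_eq_zero_iff p r).1 e)).resolve_left hr.one_lt.ne')
      subst hrp
      have : (r : ℤ) ∣ (-a) ^ r := hmul ▸ h1.mul_right _
      exact hpa (dvd_neg.1 ((Nat.prime_iff_prime_int.1 hr).dvd_of_dvd_pow this))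
    · have hb : (b : ZMod r) = 0 := eq_zero_of_pow_eq_zero e
      have hc : (c : ZMod r) = 0 := by simpa [hb] using e1
      have hu := hbc.isUnit_of_dvd' ((ZMod.intCast_zmod_eq_zero_iff_dvd _ _).1 hb)
        ((ZMod.intCast_zmod_eq_zero_iff_dvd _ _).1 hc)
      exact (Nat.prime_iff_prime_int.1 hr).not_isUnit hu
  obtain ⟨A, hA⟩ := Int.eq_pow_of_mul_eq_pow_odd hcop hodd hmul |>.1
  obtain ⟨T, hT⟩ := Int.eq_pow_of_mul_eq_pow_odd hcop hodd hmul |>.2
  refine ⟨A, T, hA, hT, ?_⟩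
  rw [hA, hT, ← mul_pow] at hmul
  have := hodd.pow_injective hmul
  linarith

lemma sg_core (p q : ℕ) [Fact q.Prime] (hp : p.Prime) (hodd : Odd p) (hq : GermainAux p q)
    (a b c : ℤ) (h : a ^ p + b ^ p + c ^ p = 0)
    (hab : IsCoprime a b) (hbc : IsCoprime b c) (hac : IsCoprime a c)
    (hpa : ¬ (p : ℤ) ∣ a) (hpb : ¬ (p : ℤ) ∣ b) (hpc : ¬ (p : ℤ) ∣ c)
    (ha : (a : ZMod q) = 0) : False := by
  obtain ⟨A, T, hA, hT, haAT⟩ := sg_factor p hp hodd a b c h hbc hpa
  obtain ⟨B, -, hB, -, hbB⟩ := sg_factor p hp hodd b a c (by linarith) hac hpb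
  obtain ⟨C, -, hC, -, hcC⟩ := sg_factor p hp hodd c a b (by linarith) hab hpc
  have nob : (b : ZMod q) ≠ 0 := fun e => (Nat.prime_iff_prime_int.1 (Fact.out : q.Prime)).not_isUnit
    (hab.isUnit_of_dvd' ((ZMod.intCast_zmod_eq_zero_iff_dvd _ _).1 ha)
      ((ZMod.intCast_zmod_eq_zero_iff_dvd _ _).1 e))
  have noc : (c : ZMod q) ≠ 0 := fun e => (Nat.prime_iff_prime_int.1 (Fact.out : q.Prime)).not_isUnit
    (hac.isUnit_of_dvd' ((ZMod.intCast_zmod_eq_zero_iff_dvd _ _).1 ha)
      ((ZMod.intCast_zmod_eq_zero_iff_dvd _ _).1 e))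
  have eA : (b : ZMod q) + c = (A : ZMod q) ^ p := by exact_mod_cast congrArg (Int.cast : ℤ → ZMod q) hA
  have eB : (a : ZMod q) + c = (B : ZMod q) ^ p := by exact_mod_cast congrArg (Int.cast : ℤ → ZMod q) hB
  have eC : (a : ZMod q) + b = (C : ZMod q) ^ p := by exact_mod_cast congrArg (Int.cast : ℤ → ZMod q) hC
  rw [ha, zero_add] at eB eC
  have hA0 : (A : ZMod q) = 0 := by
    rcases hq.no_consec (-(A : ZMod q)) B C
      (by rw [hodd.neg_pow, ← eA, ← eB, ← eC]; ring) with e | e | e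
    · exact neg_eq_zero.1 e
    · exact absurd (by rw [eB, e, zero_pow hp.ne_zero]) noc
    · exact absurd (by rw [eC, e, zero_pow hp.ne_zero]) nob
  rw [hA0, zero_pow hp.ne_zero] at eA
  have hTq := sgCofactor_cast (R := ZMod q) p b c eA
  rw [hT] at hTq
  push_cast at hTq
  rw [eC, ← pow_mul, mul_comm p (p - 1), pow_mul] at hTq
  have hC0 : (C : ZMod q) ≠ 0 := fun e => nob (by rw [eC, e, zero_pow hp.ne_zero])
  refine hq.not_pow ((T : ZMod q) / (C : ZMod q) ^ (p - 1)) ?_
  rw [div_pow, div_eq_iff (pow_ne_zero _ (pow_ne_zero _ hC0))]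
  exact hTq

/-- Sophie Germain's theorem: first case of FLT. -/
theorem sophieGermain (p q : ℕ) [Fact q.Prime] (hp : p.Prime) (hodd : Odd p) (hq : GermainAux p q)
    (a b c : ℤ) (h : a ^ p + b ^ p + c ^ p = 0)
    (hab : IsCoprime a b) (hbc : IsCoprime b c) (hac : IsCoprime a c)
    (hpa : ¬ (p : ℤ) ∣ a) (hpb : ¬ (p : ℤ) ∣ b) (hpc : ¬ (p : ℤ) ∣ c) : False := by
  have hh : (a : ZMod q) ^ p + (b : ZMod q) ^ p + (c : ZMod q) ^ p = 0 := by
    exact_mod_cast congrArg (Int.cast : ℤ → ZMod q) h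
  rcases hq.no_consec _ _ _ hh with e | e | e
  · exact sg_core p q hp hodd hq a b c h hab hbc hac hpa hpb hpc e
  · exact sg_core p q hp hodd hq b a c (by linarith) hab.symm hac hbc hpb hpa hpc e
  · exact sg_core p q hp hodd hq c a b (by linarith) hac.symm hab hbc.symm hpc hpa hpb e

/-- Decidable form of the auxiliary conditions. -/
theorem germainAux_of_check (p q : ℕ) [Fact q.Prime] (hp : p ≠ 0)
    (h1 : ∀ u : ZMod q, u = 0 ∨ 1 + u ^ p = 0 ∨ (1 + u ^ p) ^ ((q - 1) / p) ≠ 1)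
    (hdvd : p ∣ q - 1) (h2 : (p : ZMod q) ^ ((q - 1) / p) ≠ 1) (h3 : (p : ZMod q) ≠ 0)
    (hodd : Odd p) :
    GermainAux p q := by
  have key : ∀ x : ZMod q, x ≠ 0 → (x ^ p) ^ ((q - 1) / p) = 1 := by
    intro x hx
    rw [← pow_mul, Nat.mul_div_cancel' hdvd]
    exact ZMod.pow_card_sub_one_eq_one hx
  constructor
  · intro x y z hxyz
    by_contra hne
    simp only [not_or] at hne
    obtain ⟨hx, hy, hz⟩ := hne
    rcases h1 (y / x) with e | e | e
    · exact div_ne_zero hy hx e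
    · have : x ^ p + y ^ p = 0 := by
        rw [div_pow] at e; field_simp at e; linear_combination e
      rw [this, zero_add] at hxyz
      exact hz (eq_zero_of_pow_eq_zero hxyz)
    · apply e
      have : 1 + (y / x) ^ p = (-z / x) ^ p := by
        rw [div_pow, div_pow, hodd.neg_pow]; field_simp; linear_combination hxyz
      rw [this]
      exact key _ (div_ne_zero (neg_ne_zero.2 hz) hx)
  · intro x hx
    apply h2
    rw [← hx]
    apply key
    rintro rfl
    exact h3 (by rw [← hx, zero_pow hp])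

theorem germainAux_5 : GermainAux 5 11 := by
  exact @germainAux_of_check 5 11 ⟨by norm_num⟩ (by norm_num) (by decide) (by norm_num) (by decide) (by decide)
    (by decide)

theorem germainAux_7 : GermainAux 7 29 := by
  exact @germainAux_of_check 7 29 ⟨by norm_num⟩ (by norm_num) (by decide) (by norm_num) (by decide) (by decide)
    (by decide)

theorem germainAux_11 : GermainAux 11 23 := by
  exact @germainAux_of_check 11 23 ⟨by norm_num⟩ (by norm_num) (by decide) (by norm_num) (by decide) (by decide)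
    (by decide)

theorem germainAux_13 : GermainAux 13 53 := by
  exact @germainAux_of_check 13 53 ⟨by norm_num⟩ (by norm_num) (by decide) (by norm_num) (by decide) (by decide)
    (by decide)

end FLTAgent.SmallLevel
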