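import Fermat.Agent.SmallLevel.CyclotomicPID
import Fermat.Agent.SmallLevel.KummerUnitsCert
import Fermat.Agent.SmallLevel.SophieGermain

set_option autoImplicit false

namespace FLTAgent.SmallLevel

open NumberField Ideal Polynomial

instance : Fact (Nat.Prime 5) := ⟨by norm_num⟩
instance : Fact (Nat.Prime 7) := ⟨by norm_num⟩
instance : Fact (Nat.Prime 11) := ⟨by norm_num⟩
instance : Fact (Nat.Prime 13) := ⟨by norm_num⟩
instance : Fact (Nat.Prime 23) := ⟨by norm_num⟩
instance : Fact (Nat.Prime 53) := ⟨by norm_num⟩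
instance : Fact (Nat.Prime 79) := ⟨by norm_num⟩
instance : Fact (Nat.Prime 131) := ⟨by norm_num⟩
instance : Fact (Nat.Prime 157) := ⟨by norm_num⟩
instance : Fact (Nat.Prime 3) := ⟨Nat.prime_three⟩

instance (priority := high) cyclotomicFieldRat_isCyclotomicExtension (p : ℕ) [NeZero p] :
    IsCyclotomicExtension {p} ℚ (CyclotomicField p ℚ) := by
  have h := CyclotomicField.isCyclotomicExtension p ℚ
  have e : (CyclotomicField.algebra p ℚ : Algebra ℚ (CyclotomicField p ℚ)) =
      DivisionRing.toRatAlgebra := Subsingleton.elim _ _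
  exact e ▸ h

lemma geom_relation {p : ℕ} [Fact p.Prime] {K : Type*} [Field K] [NumberField K]
    {ζ : K} (hζ : IsPrimitiveRoot ζ p) : ∑ i ∈ Finset.range p, hζ.toInteger ^ i = 0 :=
  hζ.toInteger_isPrimitiveRoot.geom_sum_eq_zero (Fact.out : p.Prime).one_lt

lemma orderOf_pos_of_prime {n q : ℕ} [Fact n.Prime] (h : (q : ZMod n) ≠ 0) :
    1 ≤ orderOf (q : ZMod n) :=
  orderOf_pos_iff.2 (isOfFinOrder_iff_pow_eq_one.2
    ⟨n - 1, by have := (Fact.out : n.Prime).two_le; omega, ZMod.pow_card_sub_one_eq_one h⟩)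

lemma three_le_orderOf : 3 ≤ orderOf ((3 : ℕ) : ZMod 13) := by
  have h : orderOf ((3 : ℕ) : ZMod 13) = 3 :=
    orderOf_eq_prime (by decide) (by decide)
  exact h.ge

lemma special_11_23 {ζ : CyclotomicField 11 ℚ} (hζ : IsPrimitiveRoot ζ 11) :
    ∃ P ∈ primesOver (span {((23 : ℕ) : ℤ)}) (𝓞 (CyclotomicField 11 ℚ)), Submodule.IsPrincipal P := by
  have hΦ := geom_relation hζ
  simp only [Finset.sum_range_succ, Finset.sum_range_zero] at hΦ
  set z := hζ.toInteger with hz
  exact exists_principal_primeOver (n := 11) hζ 23 1 (by norm_num) (orderOf_pos_of_prime (by decide))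
    (aeval z ((1 : ℤ[X]) + (1 : ℤ[X]) * X + (1 : ℤ[X]) * X^3)) ((-2) + (-14)*z + (-17)*z^2 + (-12)*z^3 + (-5)*z^4 + (-9)*z^5 + (-10)*z^6 + (-16)*z^7 + (-6)*z^8 + (-15)*z^9)
    (by
      simp only [map_sub, map_add, map_mul, map_pow, aeval_X, aeval_C, map_neg, map_one, map_ofNat, algebraMap_int_eq, eq_intCast]
      push_cast
      linear_combination ((-25) + (9)*z + (-15)*z^2) * hΦ)
    (X - Polynomial.C (4 : ℤ)) (monic_X_sub_C _) (natDegree_X_sub_C _)
    (by
      refine ⟨(1) + (3)*z + (3)*z^2 + (2)*z^3 + (1)*z^4 + (2)*z^5 + (2)*z^6 + (3)*z^7 + (1)*z^8 + (3)*z^9, ?_⟩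
      simp only [map_sub, map_add, map_mul, map_pow, aeval_X, aeval_C, map_ofNat, map_one, map_neg, map_one, map_ofNat, algebraMap_int_eq, eq_intCast]
      push_cast
      linear_combination -((5) + (-2)*z + (3)*z^2) * hΦ)
    (not_isUnit_of_root hζ (4 : ZMod 23) (by decide) ((1 : ℤ[X]) + (1 : ℤ[X]) * X + (1 : ℤ[X]) * X^3)
      (by simp only [map_sub, map_add, map_mul, map_pow, aeval_X, aeval_C, map_neg, map_one, map_ofNat, algebraMap_int_eq, eq_intCast]; decide))

lemma special_13_53 {ζ : CyclotomicField 13 ℚ} (hζ : IsPrimitiveRoot ζ 13) :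
    ∃ P ∈ primesOver (span {((53 : ℕ) : ℤ)}) (𝓞 (CyclotomicField 13 ℚ)), Submodule.IsPrincipal P := by
  have hΦ := geom_relation hζ
  simp only [Finset.sum_range_succ, Finset.sum_range_zero] at hΦ
  set z := hζ.toInteger with hz
  exact exists_principal_primeOver (n := 13) hζ 53 1 (by norm_num) (orderOf_pos_of_prime (by decide))
    (aeval z ((1 : ℤ[X]) + (1 : ℤ[X]) * X + (1 : ℤ[X]) * X^3)) ((1) + (-24)*z + (-35)*z^2 + (-25)*z^3 + (-10)*z^4 + (-14)*z^5 + (-20)*z^6 + (-29)*z^7 + (-16)*z^8 + (-23)*z^9 + (-7)*z^10 + (-36)*z^11)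
    (by
      simp only [map_sub, map_add, map_mul, map_pow, aeval_X, aeval_C, map_neg, map_one, map_ofNat, algebraMap_int_eq, eq_intCast]
      push_cast
      linear_combination ((-52) + (29)*z + (-36)*z^2) * hΦ)
    (X - Polynomial.C (36 : ℤ)) (monic_X_sub_C _) (natDegree_X_sub_C _)
    (by
      refine ⟨(17)*z + (24)*z^2 + (17)*z^3 + (7)*z^4 + (10)*z^5 + (14)*z^6 + (20)*z^7 + (11)*z^8 + (16)*z^9 + (5)*z^10 + (25)*z^11, ?_⟩
      simp only [map_sub, map_add, map_mul, map_pow, aeval_X, aeval_C, map_ofNat, map_one, map_neg, map_one, map_ofNat, algebraMap_int_eq, eq_intCast]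
      push_cast
      linear_combination -((36) + (-20)*z + (25)*z^2) * hΦ)
    (not_isUnit_of_root hζ (36 : ZMod 53) (by decide) ((1 : ℤ[X]) + (1 : ℤ[X]) * X + (1 : ℤ[X]) * X^3)
      (by simp only [map_sub, map_add, map_mul, map_pow, aeval_X, aeval_C, map_neg, map_one, map_ofNat, algebraMap_int_eq, eq_intCast]; decide))

lemma special_13_3 {ζ : CyclotomicField 13 ℚ} (hζ : IsPrimitiveRoot ζ 13) :
    ∃ P ∈ primesOver (span {((3 : ℕ) : ℤ)}) (𝓞 (CyclotomicField 13 ℚ)), Submodule.IsPrincipal P := by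
  have hΦ := geom_relation hζ
  simp only [Finset.sum_range_succ, Finset.sum_range_zero] at hΦ
  set z := hζ.toInteger with hz
  exact exists_principal_primeOver (n := 13) hζ 3 3 (by norm_num) three_le_orderOf
    (aeval z ((1 : ℤ[X]) + (1 : ℤ[X]) * X + (-1 : ℤ[X]) * X^3)) ((-1) + (-1)*z^2 + (-1)*z^3 + (-2)*z^5 + (-1)*z^7 + (-2)*z^8 + (1)*z^9 + (-3)*z^10)
    (by
      simp only [map_sub, map_add, map_mul, map_pow, aeval_X, aeval_C, map_neg, map_one, map_ofNat, algebraMap_int_eq, eq_intCast]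
      push_cast
      linear_combination ((-4) + (3)*z) * hΦ)
    (X ^ 3 - X - 1) (by monicity!) (by compute_degree!)
    (by
      refine ⟨-1, ?_⟩
      simp only [map_sub, map_add, map_mul, map_pow, aeval_X, aeval_C, map_ofNat, map_one, map_neg, map_one, map_ofNat, algebraMap_int_eq, eq_intCast]
      push_cast
      ring)
    (by
      let g3 : (ZMod 3)[X] := X ^ 3 - X - 1
      have hd : g3.degree = 3 := by simp only [g3]; compute_degree!
      have : Nontrivial (AdjoinRoot g3) := AdjoinRoot.nontrivial g3 (by rw [hd]; norm_num)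
      have hg : (AdjoinRoot.root g3) ^ 3 - AdjoinRoot.root g3 - 1 = 0 := by
        have := AdjoinRoot.eval₂_root g3
        simpa [g3] using this
      have h3 : (3 : AdjoinRoot g3) = 0 := by
        have h : (3 : ZMod 3) = 0 := by decide
        have := congrArg (AdjoinRoot.of g3) h
        rwa [map_ofNat, map_zero] at this
      refine not_isUnit_of_root hζ (AdjoinRoot.root g3) ?_ ((1 : ℤ[X]) + (1 : ℤ[X]) * X + (-1 : ℤ[X]) * X^3) ?_
      · simp only [Finset.sum_range_succ, Finset.sum_range_zero]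
        linear_combination ((20) + (15)*(AdjoinRoot.root g3) + (11)*(AdjoinRoot.root g3)^2 + (8)*(AdjoinRoot.root g3)^3 + (6)*(AdjoinRoot.root g3)^4 + (4)*(AdjoinRoot.root g3)^5 + (3)*(AdjoinRoot.root g3)^6 + (2)*(AdjoinRoot.root g3)^7 + (1)*(AdjoinRoot.root g3)^8 + (1)*(AdjoinRoot.root g3)^9) * hg + ((7) + (12)*(AdjoinRoot.root g3) + (9)*(AdjoinRoot.root g3)^2) * h3
      · simp only [map_sub, map_add, map_mul, map_pow, aeval_X, aeval_C, map_neg, map_one, map_ofNat, algebraMap_int_eq, eq_intCast]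
        push_cast
        linear_combination -1 * hg)

lemma special_13_131 {ζ : CyclotomicField 13 ℚ} (hζ : IsPrimitiveRoot ζ 13) :
    ∃ P ∈ primesOver (span {((131 : ℕ) : ℤ)}) (𝓞 (CyclotomicField 13 ℚ)), Submodule.IsPrincipal P := by
  have hΦ := geom_relation hζ
  simp only [Finset.sum_range_succ, Finset.sum_range_zero] at hΦ
  set z := hζ.toInteger with hz
  exact exists_principal_primeOver (n := 13) hζ 131 1 (by norm_num) (orderOf_pos_of_prime (by decide))
    (aeval z ((1 : ℤ[X]) + (-1 : ℤ[X]) * X + (-1 : ℤ[X]) * X^3)) ((111) + (78)*z + (17)*z^2 + (67)*z^3 + (84)*z^4 + (40)*z^5 + (46)*z^6 + (69)*z^7 + (48)*z^8 + (33)*z^9 + (41)*z^10 + (28)*z^11)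
    (by
      simp only [map_sub, map_add, map_mul, map_pow, aeval_X, aeval_C, map_neg, map_one, map_ofNat, algebraMap_int_eq, eq_intCast]
      push_cast
      linear_combination ((-20) + (-13)*z + (-28)*z^2) * hΦ)
    (X - Polynomial.C (80 : ℤ)) (monic_X_sub_C _) (natDegree_X_sub_C _)
    (by
      refine ⟨(-68) + (-47)*z + (-10)*z^2 + (-41)*z^3 + (-51)*z^4 + (-24)*z^5 + (-28)*z^6 + (-42)*z^7 + (-29)*z^8 + (-20)*z^9 + (-25)*z^10 + (-17)*z^11, ?_⟩
      simp only [map_sub, map_add, map_mul, map_pow, aeval_X, aeval_C, map_ofNat, map_one, map_neg, map_one, map_ofNat, algebraMap_int_eq, eq_intCast]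
      push_cast
      linear_combination -((12) + (8)*z + (17)*z^2) * hΦ)
    (not_isUnit_of_root hζ (80 : ZMod 131) (by decide) ((1 : ℤ[X]) + (-1 : ℤ[X]) * X + (-1 : ℤ[X]) * X^3)
      (by simp only [map_sub, map_add, map_mul, map_pow, aeval_X, aeval_C, map_neg, map_one, map_ofNat, algebraMap_int_eq, eq_intCast]; decide))

lemma special_13_79 {ζ : CyclotomicField 13 ℚ} (hζ : IsPrimitiveRoot ζ 13) :
    ∃ P ∈ primesOver (span {((79 : ℕ) : ℤ)}) (𝓞 (CyclotomicField 13 ℚ)), Submodule.IsPrincipal P := by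
  have hΦ := geom_relation hζ
  simp only [Finset.sum_range_succ, Finset.sum_range_zero] at hΦ
  set z := hζ.toInteger with hz
  exact exists_principal_primeOver (n := 13) hζ 79 1 (by norm_num) (orderOf_pos_of_prime (by decide))
    (aeval z ((1 : ℤ[X]) + (1 : ℤ[X]) * X + (-1 : ℤ[X]) * X^4)) ((24) + (-25)*z + (-27)*z^2 + (10)*z^3 + (-3)*z^4 + (-39)*z^5 + (-5)*z^6 + (-2)*z^7 + (-18)*z^8 + (-38)*z^9 + (16)*z^10 + (-35)*z^11)
    (by
      simp only [map_sub, map_add, map_mul, map_pow, aeval_X, aeval_C, map_neg, map_one, map_ofNat, algebraMap_int_eq, eq_intCast]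
      push_cast
      linear_combination ((-55) + (54)*z + (-51)*z^2 + (35)*z^3) * hΦ)
    (X - Polynomial.C (64 : ℤ)) (monic_X_sub_C _) (natDegree_X_sub_C _)
    (by
      refine ⟨(-19) + (21)*z + (22)*z^2 + (-8)*z^3 + (3)*z^4 + (32)*z^5 + (4)*z^6 + (2)*z^7 + (15)*z^8 + (31)*z^9 + (-13)*z^10 + (29)*z^11, ?_⟩
      simp only [map_sub, map_add, map_mul, map_pow, aeval_X, aeval_C, map_ofNat, map_one, map_neg, map_one, map_ofNat, algebraMap_int_eq, eq_intCast]
      push_cast
      linear_combination -((45) + (-44)*z + (42)*z^2 + (-29)*z^3) * hΦ)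
    (not_isUnit_of_root hζ (64 : ZMod 79) (by decide) ((1 : ℤ[X]) + (1 : ℤ[X]) * X + (-1 : ℤ[X]) * X^4)
      (by simp only [map_sub, map_add, map_mul, map_pow, aeval_X, aeval_C, map_neg, map_one, map_ofNat, algebraMap_int_eq, eq_intCast]; decide))

lemma special_13_157 {ζ : CyclotomicField 13 ℚ} (hζ : IsPrimitiveRoot ζ 13) :
    ∃ P ∈ primesOver (span {((157 : ℕ) : ℤ)}) (𝓞 (CyclotomicField 13 ℚ)), Submodule.IsPrincipal P := by
  have hΦ := geom_relation hζ
  simp only [Finset.sum_range_succ, Finset.sum_range_zero] at hΦ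
  set z := hζ.toInteger with hz
  exact exists_principal_primeOver (n := 13) hζ 157 1 (by norm_num) (orderOf_pos_of_prime (by decide))
    (aeval z ((1 : ℤ[X]) + (-1 : ℤ[X]) * X + (1 : ℤ[X]) * X^2 + (1 : ℤ[X]) * X^4)) ((89) + (86)*z + (42)*z^2 + (77)*z^3 + (67)*z^4 + (25)*z^5 + (37)*z^6 + (56)*z^7 + (73)*z^8 + (113)*z^9 + (124)*z^10 + (76)*z^11)
    (by
      simp only [map_sub, map_add, map_mul, map_pow, aeval_X, aeval_C, map_neg, map_one, map_ofNat, algebraMap_int_eq, eq_intCast]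
      push_cast
      linear_combination ((-68) + (65)*z + (48)*z^2 + (76)*z^3) * hΦ)
    (X - Polynomial.C (75 : ℤ)) (monic_X_sub_C _) (natDegree_X_sub_C _)
    (by
      refine ⟨(-43) + (-41)*z + (-20)*z^2 + (-37)*z^3 + (-32)*z^4 + (-12)*z^5 + (-18)*z^6 + (-27)*z^7 + (-35)*z^8 + (-54)*z^9 + (-59)*z^10 + (-36)*z^11, ?_⟩
      simp only [map_sub, map_add, map_mul, map_pow, aeval_X, aeval_C, map_ofNat, map_one, map_neg, map_one, map_ofNat, algebraMap_int_eq, eq_intCast]
      push_cast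
      linear_combination -((32) + (-31)*z + (-23)*z^2 + (-36)*z^3) * hΦ)
    (not_isUnit_of_root hζ (75 : ZMod 157) (by decide) ((1 : ℤ[X]) + (-1 : ℤ[X]) * X + (1 : ℤ[X]) * X^2 + (1 : ℤ[X]) * X^4)
      (by simp only [map_sub, map_add, map_mul, map_pow, aeval_X, aeval_C, map_neg, map_one, map_ofNat, algebraMap_int_eq, eq_intCast]; decide))

theorem kummerUnits_5 : KummerUnits 5 (CyclotomicField 5 ℚ) :=
  kummerUnits_of_cert (IsCyclotomicExtension.zeta_spec 5 ℚ (CyclotomicField 5 ℚ)) (by norm_num)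
    2 rfl
    ![[(0, 1)], [(0, 3), (2, 4)]]
    ![1, 2] ![1, 3]
    (Fin.strictMono_iff_lt_succ.2 (by decide)) (by decide) (by decide) (by decide) (by decide)
    (by decide +kernel)

theorem kummerUnits_7 : KummerUnits 7 (CyclotomicField 7 ℚ) :=
  kummerUnits_of_cert (IsCyclotomicExtension.zeta_spec 7 ℚ (CyclotomicField 7 ℚ)) (by norm_num)
    3 rfl
    ![[(0, 1)], [(0, 4), (2, 6)], [(0, 2), (2, 12), (3, 6)]]
    ![1, 2, 4] ![1, 6, 4]
    (Fin.strictMono_iff_lt_succ.2 (by decide)) (by decide) (by decide) (by decide) (by decide)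
    (by decide +kernel)

theorem kummerUnits_11 : KummerUnits 11 (CyclotomicField 11 ℚ) :=
  kummerUnits_of_cert (IsCyclotomicExtension.zeta_spec 11 ℚ (CyclotomicField 11 ℚ)) (by norm_num)
    5 rfl
    ![[(0, 1)], [(0, 6), (2, 10)], [(0, 7), (2, 10), (3, 10)], [(0, 6), (2, 70), (3, 10), (4, 10)], [(0, 10), (2, 50), (3, 30), (4, 90), (5, 10)]]
    ![1, 2, 4, 6, 8] ![1, 4, 2, 10, 9]
    (Fin.strictMono_iff_lt_succ.2 (by decide)) (by decide) (by decide) (by decide) (by decide)
    (by decide +kernel)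

theorem kummerUnits_13 : KummerUnits 13 (CyclotomicField 13 ℚ) :=
  kummerUnits_of_cert (IsCyclotomicExtension.zeta_spec 13 ℚ (CyclotomicField 13 ℚ)) (by norm_num)
    6 rfl
    ![[(0, 1)], [(0, 7), (2, 12)], [(0, 4), (2, 72), (3, 12)], [(0, 7), (2, 84), (3, 24), (4, 12)], [(0, 12), (2, 144), (3, 132), (4, 48), (5, 12)], [(0, 11), (2, 36), (3, 120), (4, 144), (5, 108), (6, 12)]]
    ![1, 2, 4, 6, 8, 10] ![1, 8, 2, 12, 12, 11]
    (Fin.strictMono_iff_lt_succ.2 (by decide)) (by decide) (by decide) (by decide) (by decide)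
    (by decide +kernel)

theorem pid_5 : IsPrincipalIdealRing (𝓞 (CyclotomicField 5 ℚ)) :=
  IsCyclotomicExtension.Rat.five_pid _

theorem pid_7 : IsPrincipalIdealRing (𝓞 (CyclotomicField 7 ℚ)) := by
  refine pid_of_bound (IsCyclotomicExtension.zeta_spec 7 ℚ (CyclotomicField 7 ℚ)) 4 ?_ []
    (by decide +kernel) (by simp)
  rw [IsCyclotomicExtension.Rat.discr_prime 7, IsCyclotomicExtension.finrank (n := 7)
    (CyclotomicField 7 ℚ) (cyclotomic.irreducible_rat (by norm_num)),
    IsCyclotomicExtension.Rat.nrComplexPlaces_eq_totient_div_two 7,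
    Nat.totient_prime (by norm_num)]
  have hs : Real.sqrt 16807 < 130 := by rw [Real.sqrt_lt' (by norm_num)]; norm_num
  have hpi : (4 / Real.pi) < 4 / 3.14 := by gcongr; exact Real.pi_gt_d2
  have h0 : 0 < 4 / Real.pi := by positivity
  norm_num [Nat.factorial]
  calc _ ≤ ((4 : ℝ) / 3.14) ^ 3 * (5 / 324 * 130) := by gcongr
    _ < _ := by norm_num

theorem pid_11 : IsPrincipalIdealRing (𝓞 (CyclotomicField 11 ℚ)) := by
  refine pid_of_bound (IsCyclotomicExtension.zeta_spec 11 ℚ (CyclotomicField 11 ℚ)) 59 ?_ [23]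
    (by decide +kernel) ?_
  · rw [IsCyclotomicExtension.Rat.discr_prime 11, IsCyclotomicExtension.finrank (n := 11)
      (CyclotomicField 11 ℚ) (cyclotomic.irreducible_rat (by norm_num)),
      IsCyclotomicExtension.Rat.nrComplexPlaces_eq_totient_div_two 11,
      Nat.totient_prime (by norm_num)]
    have hs : Real.sqrt 2357947691 < 48559 := by rw [Real.sqrt_lt' (by norm_num)]; norm_num
    have hpi : (4 / Real.pi) < 4 / 3.14 := by gcongr; exact Real.pi_gt_d2
    have h0 : 0 < 4 / Real.pi := by positivity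
    norm_num [Nat.factorial]
    calc _ ≤ ((4 : ℝ) / 3.14) ^ 5 * (567 / 1562500 * 48559) := by gcongr
      _ < _ := by norm_num
  · intro q hq _
    simp only [List.mem_singleton] at hq
    subst hq
    exact special_11_23 (IsCyclotomicExtension.zeta_spec 11 ℚ (CyclotomicField 11 ℚ))

theorem pid_13 : IsPrincipalIdealRing (𝓞 (CyclotomicField 13 ℚ)) := by
  refine pid_of_bound (IsCyclotomicExtension.zeta_spec 13 ℚ (CyclotomicField 13 ℚ)) 309 ?_
    [53, 79, 131, 157, 3] (by decide +kernel) ?_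
  · rw [IsCyclotomicExtension.Rat.discr_prime 13, IsCyclotomicExtension.finrank (n := 13)
      (CyclotomicField 13 ℚ) (cyclotomic.irreducible_rat (by norm_num)),
      IsCyclotomicExtension.Rat.nrComplexPlaces_eq_totient_div_two 13,
      Nat.totient_prime (by norm_num)]
    have hs : Real.sqrt 1792160394037 < 1338716 := by rw [Real.sqrt_lt' (by norm_num)]; norm_num
    have hpi : (4 / Real.pi) < 4 / 3.14 := by gcongr; exact Real.pi_gt_d2
    have h0 : 0 < 4 / Real.pi := by positivity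
    norm_num [Nat.factorial]
    calc _ ≤ ((4 : ℝ) / 3.14) ^ 6 * (1925 / 35831808 * 1338716) := by gcongr
      _ < _ := by norm_num
  · intro q hq _
    have hζ := IsCyclotomicExtension.zeta_spec 13 ℚ (CyclotomicField 13 ℚ)
    simp only [List.mem_cons, List.not_mem_nil, or_false] at hq
    rcases hq with rfl | rfl | rfl | rfl | rfl
    · exact special_13_53 hζ
    · exact special_13_79 hζ
    · exact special_13_131 hζ
    · exact special_13_157 hζ
    · exact special_13_3 hζ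

theorem flt_prime (p q : ℕ) [Fact p.Prime] [Fact q.Prime] (hodd : p ≠ 2) (hg : GermainAux p q)
    [IsPrincipalIdealRing (𝓞 (CyclotomicField p ℚ))]
    (hU : KummerUnits p (CyclotomicField p ℚ))
    (a b c : ℤ) (ha : a ≠ 0) (hb : b ≠ 0) (hc : c ≠ 0) (hab : IsCoprime a b) :
    a ^ p + b ^ p ≠ c ^ p := by
  intro h
  have hp : p.Prime := Fact.out
  have hpo : Odd p := hp.odd_of_ne_two hodd
  have hζ := IsCyclotomicExtension.zeta_spec p ℚ (CyclotomicField p ℚ)
  have hac : IsCoprime a c := by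
    refine (IsCoprime.pow_iff (m := p) (n := p) hp.pos hp.pos).1 ?_
    rw [← h, show a ^ p + b ^ p = b ^ p + 1 * a ^ p by ring]
    exact IsCoprime.add_mul_right_right hab.pow 1
  have hbc : IsCoprime b c := by
    refine (IsCoprime.pow_iff (m := p) (n := p) hp.pos hp.pos).1 ?_
    rw [← h, show a ^ p + b ^ p = a ^ p + 1 * b ^ p by ring]
    exact IsCoprime.add_mul_right_right hab.symm.pow 1
  by_cases h3 : (p : ℤ) ∣ c
  · exact flt_second_case hζ hodd hU a b c hab hc h3 h
  by_cases h1 : (p : ℤ) ∣ a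
  · refine flt_second_case hζ hodd hU (-c) b (-a) hbc.symm.neg_left (neg_ne_zero.2 ha)
      (dvd_neg.2 h1) ?_
    rw [hpo.neg_pow, hpo.neg_pow]; linarith
  by_cases h2 : (p : ℤ) ∣ b
  · refine flt_second_case hζ hodd hU a (-c) (-b) hac.neg_right (neg_ne_zero.2 hb)
      (dvd_neg.2 h2) ?_
    rw [hpo.neg_pow, hpo.neg_pow]; linarith
  exact sophieGermain p q hp hpo hg a b (-c) (by rw [hpo.neg_pow]; linarith)
    hab hbc.neg_right hac.neg_right h1 h2 (fun h => h3 (dvd_neg.1 h))

/-- FLT in coprime integers for the exponents `5, 7, 11, 13`. -/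
theorem flt_small_primes (p : ℕ) (hp : p = 5 ∨ p = 7 ∨ p = 11 ∨ p = 13)
    (a b c : ℤ) (ha : a ≠ 0) (hb : b ≠ 0) (hc : c ≠ 0) (hab : IsCoprime a b) :
    a ^ p + b ^ p ≠ c ^ p := by
  rcases hp with rfl | rfl | rfl | rfl
  · have := pid_5
    have : Fact (Nat.Prime 11) := inferInstance
    exact flt_prime 5 11 (by norm_num) germainAux_5 kummerUnits_5 a b c ha hb hc hab
  · have := pid_7
    have : Fact (Nat.Prime 29) := ⟨by norm_num⟩
    exact flt_prime 7 29 (by norm_num) germainAux_7 kummerUnits_7 a b c ha hb hc hab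
  · have := pid_11
    have : Fact (Nat.Prime 23) := ⟨by norm_num⟩
    exact flt_prime 11 23 (by norm_num) germainAux_11 kummerUnits_11 a b c ha hb hc hab
  · have := pid_13
    have : Fact (Nat.Prime 53) := ⟨by norm_num⟩
    exact flt_prime 13 53 (by norm_num) germainAux_13 kummerUnits_13 a b c ha hb hc hab

end FLTAgent.SmallLevel
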