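import Fermat.Prelude.Def_FLTPrelim_FreyPackage
import Fermat.Agent.SmallLevel.FLTSmall

set_option autoImplicit false

namespace FLTAgent.SmallLevel

/-- There is no Frey package with exponent `5`, `7`, `11` or `13`. -/
theorem no_freyPackage_small (P : FreyPackage) (hp : P.p = 5 ∨ P.p = 7 ∨ P.p = 11 ∨ P.p = 13) :
    False :=
  flt_small_primes P.p hp P.a P.b P.c P.ha0 P.hb0 P.hc0
    (by rw [← gcd_isUnit_iff, P.hgcdab]; exact isUnit_one) P.hFLT

end FLTAgent.SmallLevel
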