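import Mathlib

set_option autoImplicit false

/-!
Invariants of a point of order `3` or `5`.
-/

namespace FLTAgent.SmallLevel

open WeierstrassCurve WeierstrassCurve.Affine

variable {F : Type*} [Field F] [DecidableEq F] [CharZero F] (W : WeierstrassCurve F)

/-- `b₂` after moving `x` to the origin. -/
def shA (x : F) : F := W.b₂ + 12 * x

/-- `b₄` after moving `x` to the origin. -/
def shB (x : F) : F := W.b₄ + x * W.b₂ + 6 * x ^ 2

/-- `b₆` after moving `x` to the origin. -/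
def shC (x : F) : F := W.b₆ + 2 * x * W.b₄ + x ^ 2 * W.b₂ + 4 * x ^ 3

omit [DecidableEq F] [CharZero F] in
lemma shift_c₄ (x : F) : W.c₄ = shA W x ^ 2 - 24 * shB W x := by
  simp only [shA, shB, WeierstrassCurve.c₄]; ring

omit [DecidableEq F] [CharZero F] in
lemma shift_Δ (x : F) : 4 * W.Δ = -(shA W x) ^ 2 * (shA W x * shC W x - shB W x ^ 2)
    - 32 * shB W x ^ 3 - 108 * shC W x ^ 2 + 36 * (shA W x * shB W x * shC W x) := by
  simp only [shA, shB, shC, WeierstrassCurve.Δ, WeierstrassCurve.b₂, WeierstrassCurve.b₄,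
    WeierstrassCurve.b₆, WeierstrassCurve.b₈]
  ring

omit [CharZero F] in
/-- The data attached to a point `P = (x, y)` with `2 P ≠ 0`: `2 P` and the shifted invariants. -/
lemma double_data {x y : F} (h : W.toAffine.Nonsingular x y)
    (h2 : Affine.Point.some x y h + Affine.Point.some x y h ≠ 0) :
    ∃ (x' y' : F) (h' : W.toAffine.Nonsingular x' y') (ℓ c : F), c ≠ 0 ∧
      Affine.Point.some x y h + Affine.Point.some x y h = Affine.Point.some x' y' h' ∧
      x' = ℓ ^ 2 + W.a₁ * ℓ - W.a₂ - 2 * x ∧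
      y' - y = -ℓ * (x' - x) - c - W.a₁ * (x' - x) ∧
      shA W x = (W.a₁ + 2 * ℓ) ^ 2 + 4 * (x - x') ∧ shB W x = (W.a₁ + 2 * ℓ) * c ∧
      shC W x = c ^ 2 := by
  have hy : y ≠ W.toAffine.negY x y := fun e => h2 (Affine.Point.add_self_of_Y_eq e)
  obtain ⟨c, hc⟩ : ∃ c, c = y - W.toAffine.negY x y := ⟨_, rfl⟩
  have hc0 : c ≠ 0 := hc ▸ sub_ne_zero.2 hy
  have hc' : c = 2 * y + W.a₁ * x + W.a₃ := by rw [hc, Affine.negY]; ring
  obtain ⟨ℓ, hℓ⟩ : ∃ ℓ, ℓ = W.toAffine.slope x x y y := ⟨_, rfl⟩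
  have hℓc : ℓ * c = 3 * x ^ 2 + 2 * W.a₂ * x + W.a₄ - W.a₁ * y := by
    rw [hℓ, Affine.slope_of_Y_ne rfl hy, ← hc, div_mul_cancel₀ _ hc0]
  have heq := h.left
  rw [Affine.equation_iff] at heq
  refine ⟨_, _, _, ℓ, c, hc0, Affine.Point.add_self_of_Y_ne hy, ?_, ?_, ?_, ?_, ?_⟩
  · rw [← hℓ, Affine.addX]; ring
  · rw [← hℓ, Affine.addY, Affine.negAddY, Affine.negY, hc']; ring
  · rw [← hℓ, Affine.addX, shA, WeierstrassCurve.b₂]; ring
  · rw [shB, WeierstrassCurve.b₂, WeierstrassCurve.b₄]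
    linear_combination -2 * hℓc - W.a₁ * hc'
  · rw [shC, hc', WeierstrassCurve.b₂, WeierstrassCurve.b₄, WeierstrassCurve.b₆]
    linear_combination -4 * heq

/-- A point of order `3`. -/
lemma three_torsion_invariants (P : W.toAffine.Point) (hP : P ≠ 0) (h3 : (3 : ℕ) • P = 0) :
    ∃ (x y : F) (h : W.toAffine.Nonsingular x y), P = Affine.Point.some x y h ∧
      shC W x ≠ 0 ∧ shB W x ^ 2 = shA W x * shC W x ∧
      W.Δ = shB W x ^ 3 - 27 * shC W x ^ 2 := by
  rcases P with _ | ⟨x, y, h⟩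
  · exact absurd rfl hP
  have h2 : Affine.Point.some x y h + Affine.Point.some x y h ≠ 0 := fun e => hP (by
    rw [succ_nsmul, two_nsmul, e, zero_add] at h3; exact h3)
  obtain ⟨x', y', h', ℓ, c, hc, hadd, -, -, hA, hB, hC⟩ := double_data W h h2
  have hx : x' = x := by
    have : Affine.Point.some x' y' h' = -Affine.Point.some x y h := by
      rw [← hadd, eq_neg_iff_add_eq_zero, ← h3, succ_nsmul, two_nsmul]
    rw [Affine.Point.neg_some, Affine.Point.some.injEq] at this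
    exact this.1
  rw [hx, sub_self, mul_zero, add_zero] at hA
  refine ⟨x, y, h, rfl, by rw [hC]; exact pow_ne_zero 2 hc, by rw [hA, hB, hC]; ring, ?_⟩
  have e : shB W x ^ 2 = shA W x * shC W x := by rw [hA, hB, hC]; ring
  have := shift_Δ W x
  linear_combination this / 4 + (shA W x ^ 2 - 36 * shB W x) * e / 4

/-- The rational invariant of a stable subgroup of order `5`. -/
def fiveD (x x' : F) : F := (x' - x) ^ 2

/-- The Hauptmodul of level `5`. -/
def fiveS (x x' : F) : F :=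
  ((W.b₂ + 6 * (x + x')) ^ 2 / fiveD x x' + 12 - W.c₄ / fiveD x x') / 12 - 11

/-- A point of order `5`. -/
lemma five_torsion_invariants (P : W.toAffine.Point) (hP : P ≠ 0) (h5 : (5 : ℕ) • P = 0) :
    ∃ (x y x' y' : F) (h : W.toAffine.Nonsingular x y) (h' : W.toAffine.Nonsingular x' y'),
      P = Affine.Point.some x y h ∧ P + P = Affine.Point.some x' y' h' ∧ x' ≠ x ∧
      W.c₄ = fiveD x x' * (fiveS W x x' ^ 2 + 10 * fiveS W x x' + 5) ∧
      W.Δ = fiveD x x' ^ 3 * fiveS W x x' := by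
  rcases P with _ | ⟨x, y, h⟩
  · exact absurd rfl hP
  set P₀ := Affine.Point.some x y h with hP₀
  have h5' : P₀ + P₀ + (P₀ + P₀) + P₀ = 0 := by
    rw [← h5, succ_nsmul, succ_nsmul, succ_nsmul, two_nsmul]; abel
  have h2 : P₀ + P₀ ≠ 0 := fun e => hP (by rw [e] at h5'; simpa using h5')
  obtain ⟨x', y', h', ℓ, c, hc, hadd, hx', hy', hA, hB, hC⟩ := double_data W h h2
  have hne : x' ≠ x := by
    intro e
    rcases Affine.Y_eq_of_X_eq h'.1 h.1 e with e' | e'
    · have : P₀ + P₀ = P₀ := by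
        rw [hadd, hP₀, Affine.Point.some.injEq]; exact ⟨e, e'⟩
      exact hP (add_eq_left.1 this)
    · have : P₀ + P₀ = -P₀ := by
        rw [hadd, hP₀, Affine.Point.neg_some, Affine.Point.some.injEq]; exact ⟨e, e'⟩
      rw [this] at h5'
      exact hP (neg_eq_zero.1 (by simpa using h5'))
  have hd : x' - x ≠ 0 := sub_ne_zero.2 hne
  -- `x(3P) = x(2P)`
  have h3eq : Affine.Point.some x' y' h' + Affine.Point.some x y h =
      -Affine.Point.some x' y' h' := by
    rw [← hP₀, ← hadd, eq_neg_iff_add_eq_zero, ← h5']; abel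
  rw [Affine.Point.add_of_X_ne hne, Affine.Point.neg_some, Affine.Point.some.injEq] at h3eq
  have hx3 := h3eq.1
  rw [Affine.slope_of_X_ne hne, Affine.addX, div_pow] at hx3
  have key : c ^ 2 - (W.a₁ + 2 * ℓ) * (x - x') * c + (x - x') ^ 3 = 0 := by
    field_simp at hx3
    rw [hy'] at hx3
    linear_combination hx3 + (x' - x) ^ 2 * hx'
  obtain ⟨a, ha⟩ : ∃ a, a = x - x' := ⟨_, rfl⟩
  rw [← ha] at hA key
  have ha0 : a ≠ 0 := by rw [ha]; exact sub_ne_zero.2 (Ne.symm hne)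
  have hα : W.a₁ + 2 * ℓ = (c ^ 2 + a ^ 3) / (a * c) := by
    rw [eq_div_iff (mul_ne_zero ha0 hc)]; linear_combination -key
  rw [hα] at hA hB
  have hD : fiveD x x' = a ^ 2 := by rw [fiveD, ha]; ring
  have hk : W.b₂ + 6 * (x + x') = shA W x - 6 * a := by rw [shA, ha]; ring
  have hc4 := shift_c₄ W x
  have hS : fiveS W x x' = c ^ 2 / a ^ 3 - a ^ 3 / c ^ 2 - 11 := by
    rw [fiveS, hD, hk, hc4, hA, hB]
    field_simp
    ring
  refine ⟨x, y, x', y', h, h', rfl, hadd, hne, ?_, ?_⟩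
  · rw [hS, hD, hc4, hA, hB]
    field_simp
    ring
  · have hΔ : W.Δ = (-(shA W x) ^ 2 * (shA W x * shC W x - shB W x ^ 2)
        - 32 * shB W x ^ 3 - 108 * shC W x ^ 2 + 36 * (shA W x * shB W x * shC W x)) / 4 := by
      rw [← shift_Δ W x]; ring
    rw [hS, hD, hΔ, hA, hB, hC]
    field_simp
    ring

end FLTAgent.SmallLevel
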