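import Fermat.Agent.SmallLevel.X15Descent

set_option autoImplicit false

/-!
Rational points of the plane model `(w³ - s)(s² + 10 s + 5) = 3 w (w³ + 8 s)` of `X₀(15)`.
-/

namespace FLTAgent.SmallLevel

lemma x15_cubic_points {U V : ℚ} (hU : U ≠ 0)
    (h : 9 * U - V + 5 * U * V + U * V ^ 2 + U ^ 2 * V = 0) :
    (U = 2 ∨ U = -1/2) ∧ (V = -2 ∨ V = -9/2) := by
  have hd : (U ^ 2 - U - 1) * (U ^ 2 + 11 * U - 1) = (2 * U * V + U ^ 2 + 5 * U - 1) ^ 2 := by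
    linear_combination -4 * U * h
  set p := U.num with hp
  set q : ℤ := (U.den : ℤ) with hq
  have hq0 : q ≠ 0 := by rw [hq]; exact_mod_cast U.den_ne_zero
  have hp0 : p ≠ 0 := Rat.num_ne_zero.2 hU
  have hqQ : (q : ℚ) ≠ 0 := by exact_mod_cast hq0
  have hpU : (p : ℚ) = U * (q : ℚ) := by rw [hp, hq]; exact_mod_cast (Rat.mul_den_eq_num U).symm
  obtain ⟨E, hE⟩ : IsSquare ((p ^ 2 - p * q - q ^ 2) * (p ^ 2 + 11 * p * q - q ^ 2)) := by
    rw [← Rat.isSquare_intCast_iff]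
    refine ⟨(2 * U * V + U ^ 2 + 5 * U - 1) * (q : ℚ) ^ 2, ?_⟩
    push_cast
    rw [hpU]
    linear_combination (q : ℚ) ^ 4 * hd
  rw [← pow_two] at hE
  have hpq : IsCoprime p q := by
    rw [Int.isCoprime_iff_gcd_eq_one]
    exact U.reduced
  have hcopf := coprime_forms hpq
  obtain ⟨u, hu⟩ := Int.sq_of_gcd_eq_one (Int.isCoprime_iff_gcd_eq_one.1 hcopf) hE
  obtain ⟨w, hw⟩ := Int.sq_of_gcd_eq_one (Int.isCoprime_iff_gcd_eq_one.1 hcopf.symm)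
    (by rw [mul_comm]; exact hE)
  obtain ⟨P', Q', u', w', hX, hcop, hP, hQ, hu', hw', -⟩ :=
    orient (X := p ^ 2 - q ^ 2) (y := p * q) rfl rfl hpq hp0 hq0 hu hw hE
  have h32 : 2 * (p ^ 2 - q ^ 2) = 3 * (p * q) := by
    rcases descent15 hcop hP hQ hu' hw' with ⟨rfl, rfl⟩ | ⟨rfl, rfl⟩ <;>
      rcases hX with ⟨e1, e2⟩ | ⟨e1, e2⟩ <;> rw [e1, e2] <;> norm_num
  have h32' : 2 * ((p : ℚ) ^ 2 - (q : ℚ) ^ 2) = 3 * ((p : ℚ) * q) := by exact_mod_cast h32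
  have hUe : (U - 2) * (2 * U + 1) = 0 := by
    rw [hpU] at h32'
    refine (mul_eq_zero.1 (?_ : (q : ℚ) ^ 2 * ((U - 2) * (2 * U + 1)) = 0)).resolve_left
      (pow_ne_zero 2 hqQ)
    linear_combination h32'
  have hUv : U = 2 ∨ U = -1/2 := by
    rcases mul_eq_zero.1 hUe with e | e
    · left; linarith
    · right; linarith
  refine ⟨hUv, ?_⟩
  have hV : (V + 2) * (2 * V + 9) = 0 := by
    rcases hUv with rfl | rfl
    · linear_combination h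
    · linear_combination -4 * h
  rcases mul_eq_zero.1 hV with e | e
  · left; linarith
  · right; linarith

lemma no_roots_mod_three : ∀ a b : ZMod 3,
    -16*b^8 - 32*a*b^7 + 64*a^2*b^6 + 64*a^3*b^5 - 124*a^4*b^4 + 32*a^5*b^3 + 16*a^6*b^2
      - 4*a^7*b - a^8 = 0 → a = 0 ∧ b = 0 := by decide

lemma rest_ne_zero (w : ℚ) : -16 - 32*w + 64*w^2 + 64*w^3 - 124*w^4 + 32*w^5 + 16*w^6 - 4*w^7
    - w^8 ≠ 0 := by
  intro h
  set a := w.num
  set b : ℤ := (w.den : ℤ) with hb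
  have hab : (a : ℚ) = w * (b : ℚ) := by exact_mod_cast (Rat.mul_den_eq_num w).symm
  have h0 : -16*b^8 - 32*a*b^7 + 64*a^2*b^6 + 64*a^3*b^5 - 124*a^4*b^4 + 32*a^5*b^3 + 16*a^6*b^2
      - 4*a^7*b - a^8 = 0 := by
    have : ((-16*b^8 - 32*a*b^7 + 64*a^2*b^6 + 64*a^3*b^5 - 124*a^4*b^4 + 32*a^5*b^3 + 16*a^6*b^2
      - 4*a^7*b - a^8 : ℤ) : ℚ) = 0 := by
      push_cast
      rw [hab]
      linear_combination (b : ℚ) ^ 8 * h
    exact_mod_cast this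
  have h3 : ((-16*b^8 - 32*a*b^7 + 64*a^2*b^6 + 64*a^3*b^5 - 124*a^4*b^4 + 32*a^5*b^3 + 16*a^6*b^2
      - 4*a^7*b - a^8 : ℤ) : ZMod 3) = 0 := by rw [h0]; simp
  push_cast at h3
  obtain ⟨ha, hb'⟩ := no_roots_mod_three _ _ h3
  exact coprime_of_prime_dvd_false ((Int.isCoprime_iff_gcd_eq_one.2 (show Int.gcd a b = 1 from w.reduced))) Nat.prime_three
    ((ZMod.intCast_zmod_eq_zero_iff_dvd _ _).1 ha) ((ZMod.intCast_zmod_eq_zero_iff_dvd _ _).1 hb')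

theorem x15_points {s w : ℚ} (hs : s ≠ 0) (hw : w ≠ 0)
    (hF : (w ^ 3 - s) * (s ^ 2 + 10 * s + 5) = 3 * w * (w ^ 3 + 8 * s)) :
    s = -10 ∨ s = -40 ∨ s = -25/2 ∨ s = -25/8 := by
  by_cases hd : (-2)*w + (1)*w^2 + (-4)*s + (2)*s*w + (1)*s*w^2 = 0
  · have hR : w * (3*w + 10) *
        (-16 - 32*w + 64*w^2 + 64*w^3 - 124*w^4 + 32*w^5 + 16*w^6 - 4*w^7 - w^8) = 0 := by
      have hD : w^2 + 2*w - 4 ≠ 0 := by
        intro e
        have hsq : IsSquare (((5 : ℤ) : ℚ)) := ⟨w + 1, by push_cast; linear_combination -e⟩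
        rw [Rat.isSquare_intCast_iff] at hsq
        revert hsq; decide +kernel
      have e1 : s * (w^2 + 2*w - 4) = (2*w - w^2) := by linear_combination hd
      have e2 : -(s * (w^2 + 2*w - 4))^3 + (w^3 - 10)*(s * (w^2 + 2*w - 4))^2*(w^2 + 2*w - 4)
          + (10*w^3 - 5 - 24*w)*(s * (w^2 + 2*w - 4))*(w^2 + 2*w - 4)^2 + (5*w^3 - 3*w^4)*(w^2 + 2*w - 4)^3 = 0 := by
        linear_combination ((w^2 + 2*w - 4)^3) * hF
      rw [e1] at e2
      linear_combination e2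
    rcases mul_eq_zero.1 hR with e | e
    · rcases mul_eq_zero.1 e with e | e
      · exact absurd e hw
      · have hw' : w = -10/3 := by linarith
        subst hw'
        ring_nf at hd
        right; left; linarith
    · exact absurd e (rest_ne_zero w)
  by_cases he : (-5) + (-7)*w + (6)*w^2 + (1)*s + (-3)*s*w + (1)*s*w^2 = 0
  · have hR : (w - 5) * (3*w - 5) *
        (-16 - 32*w + 64*w^2 + 64*w^3 - 124*w^4 + 32*w^5 + 16*w^6 - 4*w^7 - w^8) = 0 := by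
      have hD : w^2 - 3*w + 1 ≠ 0 := by
        intro e
        have hsq : IsSquare (((5 : ℤ) : ℚ)) := ⟨2*w - 3, by push_cast; linear_combination -4*e⟩
        rw [Rat.isSquare_intCast_iff] at hsq
        revert hsq; decide +kernel
      have e1 : s * (w^2 - 3*w + 1) = (5 + 7*w - 6*w^2) := by linear_combination he
      have e2 : -(s * (w^2 - 3*w + 1))^3 + (w^3 - 10)*(s * (w^2 - 3*w + 1))^2*(w^2 - 3*w + 1)
          + (10*w^3 - 5 - 24*w)*(s * (w^2 - 3*w + 1))*(w^2 - 3*w + 1)^2 + (5*w^3 - 3*w^4)*(w^2 - 3*w + 1)^3 = 0 := by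
        linear_combination ((w^2 - 3*w + 1)^3) * hF
      rw [e1] at e2
      linear_combination e2
    rcases mul_eq_zero.1 hR with e | e
    · rcases mul_eq_zero.1 e with e | e
      · have hw' : w = 5 := by linarith
        subst hw'
        ring_nf at he
        left; linarith
      · have hw' : w = 5/3 := by linarith
        subst hw'
        ring_nf at he
        exact absurd (by linarith : s = 0) hs
    · exact absurd e (rest_ne_zero w)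
  obtain ⟨U, hU⟩ : ∃ U : ℚ, U * ((-2)*w + (1)*w^2 + (-4)*s + (2)*s*w + (1)*s*w^2) = (10) + (19)*w + (-10)*w^2 + (-3)*w^3 + (2)*s + (1)*s*w := ⟨_, div_mul_cancel₀ _ hd⟩
  obtain ⟨V, hV⟩ : ∃ V : ℚ, V * ((-5) + (-7)*w + (6)*w^2 + (1)*s + (-3)*s*w + (1)*s*w^2) = (-9)*w + (3)*w^3 + (-12)*s + (9)*s*w := ⟨_, div_mul_cancel₀ _ he⟩
  have hF0 : -s^3 + (w^3 - 10)*s^2 + (10*w^3 - 5 - 24*w)*s + 5*w^3 - 3*w^4 = 0 := by
    linear_combination hF
  set n := (10) + (19)*w + (-10)*w^2 + (-3)*w^3 + (2)*s + (1)*s*w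
  set d := (-2)*w + (1)*w^2 + (-4)*s + (2)*s*w + (1)*s*w^2
  set m := (-9)*w + (3)*w^3 + (-12)*s + (9)*s*w
  set e := (-5) + (-7)*w + (6)*w^2 + (1)*s + (-3)*s*w + (1)*s*w^2
  have i1 : 9*n*d*e^2 - m*e*d^2 + 5*n*m*d*e + n*m^2*d + n^2*m*e
      = ((600) + (1980)*w + (-840)*w^2 + (-4050)*w^3 + (2460)*w^4 + (435)*w^5 + (-270)*w^6 + (-45)*w^7 + (600)*s + (420)*s*w + (-1800)*s*w^2 + (630)*s*w^3 + (360)*s*w^4 + (-105)*s*w^5 + (-30)*s*w^6) * (-s^3 + (w^3 - 10)*s^2 + (10*w^3 - 5 - 24*w)*s + 5*w^3 - 3*w^4) := by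
    simp only [n, d, m, e]; ring
  have i2 : -225*d*e^2 - 125*m*d*e - 25*n*m*e + s*m^2*d + s*n*m*e + 18*s*n*e^2 - 2*s*m*d*e
      = ((-2400) + (-2100)*w + (5025)*w^2 + (-975)*w^3 + (-450)*w^4 + (660)*s + (-1440)*s*w + (825)*s*w^2 + (-45)*s*w^3 + (-60)*s*w^4) * (-s^3 + (w^3 - 10)*s^2 + (10*w^3 - 5 - 24*w)*s + 5*w^3 - 3*w^4) := by
    simp only [n, d, m, e]; ring
  have i3 : 2250*d^2*e^2 + 1125*m*e*d^2 + 250*n*m*d*e + 16*s*m*e*d^2 - 9*s*m^2*d^2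
        - 144*s*n*d*e^2 + 9*s*n^2*e^2
      = ((-4500) + (-52500)*w + (-8625)*w^2 + (120750)*w^3 + (-72375)*w^4 + (1500)*w^5 + (4500)*w^6 + (-79800)*s + (-19440)*s*w + (190830)*s*w^2 + (-70080)*s*w^3 + (-50070)*s*w^4 + (15450)*s*w^5 + (4305)*s*w^6 + (22620)*s^2 + (-59340)*s^2*w + (46035)*s^2*w^2 + (-3870)*s^2*w^3 + (-7875)*s^2*w^4 + (1470)*s^2*w^5 + (480)*s^2*w^6) * (-s^3 + (w^3 - 10)*s^2 + (10*w^3 - 5 - 24*w)*s + 5*w^3 - 3*w^4) := by
    simp only [n, d, m, e]; ring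
  rw [hF0, mul_zero] at i1 i2 i3
  rw [← hU, ← hV] at i1 i2 i3
  have hcub : 9 * U - V + 5 * U * V + U * V ^ 2 + U ^ 2 * V = 0 :=
    (mul_eq_zero.1 (by linear_combination i1 :
      (d ^ 2 * e ^ 2) * (9 * U - V + 5 * U * V + U * V ^ 2 + U ^ 2 * V) = 0)).resolve_left
      (mul_ne_zero (pow_ne_zero 2 hd) (pow_ne_zero 2 he))
  have hs1 : -225 - 125*V - 25*U*V + s*(V^2 + U*V + 18*U - 2*V) = 0 :=
    (mul_eq_zero.1 (by linear_combination i2 :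
      (d * e ^ 2) * (-225 - 125*V - 25*U*V + s*(V^2 + U*V + 18*U - 2*V)) = 0)).resolve_left
      (mul_ne_zero hd (pow_ne_zero 2 he))
  have hs2 : 2250 + 1125*V + 250*U*V + s*(16*V - 9*V^2 - 144*U + 9*U^2) = 0 :=
    (mul_eq_zero.1 (by linear_combination i3 :
      (d ^ 2 * e ^ 2) * (2250 + 1125*V + 250*U*V + s*(16*V - 9*V^2 - 144*U + 9*U^2)) = 0)).resolve_left
      (mul_ne_zero (pow_ne_zero 2 hd) (pow_ne_zero 2 he))
  have hU0 : U ≠ 0 := by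
    intro e0
    rw [e0] at hcub hs1
    have hV0 : V = 0 := by linarith
    rw [hV0] at hs1
    linarith
  obtain ⟨hUv, hVv⟩ := x15_cubic_points hU0 hcub
  rcases hUv with rfl | rfl <;> rcases hVv with rfl | rfl
  · right; right; right; linarith
  · left; linarith
  · right; left; linarith
  · right; right; left; linarith

end FLTAgent.SmallLevel
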