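import Fermat.Prelude.Def_FLTPrelim_ModularRep
import Fermat.Agent.Torsion.Count
import Fermat.Agent.SmallLevel.Invariants35
import Fermat.Agent.SmallLevel.X15Points

set_option autoImplicit false

/-!
At least one of the mod `3` and mod `5` representations of a semistable curve is irreducible.
-/

noncomputable section

namespace FLTAgent.SmallLevel

open WeierstrassCurve WeierstrassCurve.Affine.Point
open scoped WeierstrassCurve.Affine

/-- The curve over `ℚ̄`. -/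
abbrev curveK (W : WeierstrassCurve ℤ) : WeierstrassCurve (AlgebraicClosure ℚ) :=
  (W.map (Int.castRingHom ℚ))⁄(AlgebraicClosure ℚ)

lemma curveK_eq (W : WeierstrassCurve ℤ) :
    curveK W = W.map (Int.castRingHom (AlgebraicClosure ℚ)) := by
  simp only [curveK, WeierstrassCurve.baseChange, WeierstrassCurve.map_map]
  congr 1

lemma curveK_isElliptic {W : WeierstrassCurve ℤ} (hΔ : W.Δ ≠ 0) : (curveK W).IsElliptic := by
  constructor
  rw [isUnit_iff_ne_zero]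
  simp [WeierstrassCurve.baseChange, WeierstrassCurve.map_Δ, hΔ]

/-- The `p`-torsion over `ℚ̄`. -/
abbrev TorsK (W : WeierstrassCurve ℤ) (p : ℕ) : Type :=
  Submodule.torsionBy ℤ
    ((W.map (Int.castRingHom ℚ))⁄(AlgebraicClosure ℚ)).Point (p : ℤ)

/-- A reducible representation provides a point spanning a stable line. -/
lemma exists_stable_point {W : WeierstrassCurve ℤ} (hΔ : W.Δ ≠ 0) (p : ℕ) [Fact p.Prime]
    (hred : ¬ W.ModRepIsIrreducible p) :
    ∃ P : (curveK W).toAffine.Point, P ≠ 0 ∧ p • P = 0 ∧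
      ∀ σ : AlgebraicClosure ℚ ≃ₐ[ℚ] AlgebraicClosure ℚ,
        ∃ m : ℕ, m < p ∧ Affine.Point.map σ.toAlgHom P = m • P := by
  classical
  have := curveK_isElliptic hΔ
  have hp : p.Prime := Fact.out
  have hp0 : p ≠ 0 := hp.ne_zero
  have : NeZero p := ⟨hp0⟩
  have hfinT : Finite (TorsK W p) := FLTAgent.Torsion.finite_torsionBy (curveK W) p hp0
  have : Module.Finite (ZMod p) (TorsK W p) := Module.Finite.of_finite
  have hrank : Module.finrank (ZMod p) (TorsK W p) = 2 := by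
    have h := Module.natCard_eq_pow_finrank (K := ZMod p) (V := TorsK W p)
    rw [show Nat.card (TorsK W p) = p ^ 2 from
      FLTAgent.Torsion.natCard_torsionBy (curveK W) p hp0, Nat.card_zmod] at h
    exact ((Nat.pow_right_injective hp.two_le h)).symm
  have hnontriv : Nontrivial (TorsK W p) :=
    Module.nontrivial_of_finrank_pos (R := ZMod p) (by rw [hrank]; norm_num)
  obtain ⟨N, hN, hNb, hNt⟩ : ∃ N : Submodule (ZMod p) (TorsK W p),
      IsGaloisStable ℚ N ∧ N ≠ ⊥ ∧ N ≠ ⊤ := by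
    by_contra hcon
    push Not at hcon
    exact hred ⟨hnontriv, fun N hN => (em (N = ⊥)).imp id (hcon N hN)⟩
  have hN1 : Module.finrank (ZMod p) N = 1 := by
    have h1 : 0 < Module.finrank (ZMod p) N := by
      rw [Module.finrank_pos_iff]
      exact Submodule.nontrivial_iff_ne_bot.mpr hNb
    have h2 : Module.finrank (ZMod p) N < 2 := hrank ▸ Submodule.finrank_lt hNt
    omega
  obtain ⟨P₀, hP₀N, hP₀⟩ := N.exists_mem_ne_zero_of_ne_bot hNb
  refine ⟨(P₀ : (curveK W).toAffine.Point), fun e => hP₀ (Subtype.ext e), ?_, fun σ => ?_⟩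
  · have := (Submodule.mem_torsionBy_iff _ _).mp P₀.2
    rwa [natCast_zsmul] at this
  · obtain ⟨c, hc⟩ := exists_smul_eq_of_finrank_eq_one hN1
      (show (⟨P₀, hP₀N⟩ : N) ≠ 0 from fun e => hP₀ (congrArg Subtype.val e))
      ⟨σ • P₀, hN σ _ hP₀N⟩
    have hc' : c • P₀ = σ • P₀ := congrArg Subtype.val hc
    rw [← ZMod.natCast_zmod_val c, Nat.cast_smul_eq_nsmul] at hc'
    exact ⟨c.val, ZMod.val_lt c, (congrArg Subtype.val hc').symm⟩

lemma fixed_rational {x : AlgebraicClosure ℚ}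
    (h : ∀ σ : AlgebraicClosure ℚ ≃ₐ[ℚ] AlgebraicClosure ℚ, σ x = x) :
    ∃ r : ℚ, (r : AlgebraicClosure ℚ) = x := by
  have halg : Algebra.IsAlgebraic ℚ (AlgebraicClosure ℚ) := AlgebraicClosure.isAlgebraic ℚ
  have hcl : IsAlgClosure ℚ (AlgebraicClosure ℚ) := ⟨inferInstance, halg⟩
  have : IsGalois ℚ (AlgebraicClosure ℚ) := IsAlgClosure.isGalois ℚ _
  obtain ⟨r, hr⟩ := (InfiniteGalois.mem_range_algebraMap_iff_fixed x).2 h
  exact ⟨r, by rw [← hr, eq_ratCast (algebraMap ℚ (AlgebraicClosure ℚ)) r]⟩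

lemma mapped_x_eq {W : WeierstrassCurve ℤ} (σ : AlgebraicClosure ℚ ≃ₐ[ℚ] AlgebraicClosure ℚ)
    {x y x' y' : AlgebraicClosure ℚ} (h : (curveK W).toAffine.Nonsingular x y)
    (h' : (curveK W).toAffine.Nonsingular x' y')
    (e : Affine.Point.map σ.toAlgHom (Affine.Point.some x y h) = Affine.Point.some x' y' h') :
    σ x = x' := by
  rw [Affine.Point.map_some, Affine.Point.some.injEq] at e
  exact e.1

lemma mapped_x_eq_neg {W : WeierstrassCurve ℤ} (σ : AlgebraicClosure ℚ ≃ₐ[ℚ] AlgebraicClosure ℚ)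
    {x y x' y' : AlgebraicClosure ℚ} (h : (curveK W).toAffine.Nonsingular x y)
    (h' : (curveK W).toAffine.Nonsingular x' y')
    (e : Affine.Point.map σ.toAlgHom (Affine.Point.some x y h) = -Affine.Point.some x' y' h') :
    σ x = x' := by
  rw [Affine.Point.neg_some] at e
  exact mapped_x_eq σ h _ e

/-- The rational invariants of a rational subgroup of order `3`. -/
lemma exists_three_data {W : WeierstrassCurve ℤ} (hΔ : W.Δ ≠ 0)
    (hred : ¬ W.ModRepIsIrreducible 3) :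
    ∃ A B C : ℚ, C ≠ 0 ∧ B ^ 2 = A * C ∧ (W.c₄ : ℚ) = A ^ 2 - 24 * B ∧
      (W.Δ : ℚ) = B ^ 3 - 27 * C ^ 2 := by
  have : Fact (Nat.Prime 3) := ⟨Nat.prime_three⟩
  obtain ⟨P, hP, h3, hσ⟩ := exists_stable_point hΔ 3 hred
  obtain ⟨x, y, h, rfl, hC, hB, hD⟩ := three_torsion_invariants (curveK W) P hP h3
  obtain ⟨r, hr⟩ := fixed_rational (x := x) (fun σ => by
    obtain ⟨m, hm, e⟩ := hσ σ
    interval_cases m
    · exact absurd ((map_eq_zero_iff _ (Affine.Point.map_injective σ.toAlgHom)).1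
        (e.trans (zero_nsmul _))) hP
    · rw [one_nsmul] at e; exact mapped_x_eq σ h h e
    · refine mapped_x_eq_neg σ h h (e.trans (eq_neg_iff_add_eq_zero.2 ?_))
      rw [← h3, succ_nsmul _ 2])
  subst hr
  have hc4 := shift_c₄ (curveK W) (r : AlgebraicClosure ℚ)
  rw [curveK_eq] at hC hB hD hc4
  simp only [shA, shB, shC, WeierstrassCurve.map_c₄, WeierstrassCurve.map_Δ,
    WeierstrassCurve.map_b₂, WeierstrassCurve.map_b₄, WeierstrassCurve.map_b₆,
    eq_intCast] at hC hB hD hc4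
  refine ⟨(W.b₂ : ℚ) + 12 * r, (W.b₄ : ℚ) + r * W.b₂ + 6 * r ^ 2,
    (W.b₆ : ℚ) + 2 * r * W.b₄ + r ^ 2 * W.b₂ + 4 * r ^ 3, ?_, ?_, ?_, ?_⟩
  · intro e
    apply hC
    have := congrArg (Rat.cast : ℚ → AlgebraicClosure ℚ) e
    push_cast at this
    exact this
  · apply Rat.cast_injective (α := AlgebraicClosure ℚ); push_cast; exact hB
  · apply Rat.cast_injective (α := AlgebraicClosure ℚ); push_cast; exact hc4
  · apply Rat.cast_injective (α := AlgebraicClosure ℚ); push_cast; exact hD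

/-- The rational invariants of a rational subgroup of order `5`. -/
lemma exists_five_data {W : WeierstrassCurve ℤ} (hΔ : W.Δ ≠ 0)
    (hred : ¬ W.ModRepIsIrreducible 5) :
    ∃ D s : ℚ, D ≠ 0 ∧ s ≠ 0 ∧ (W.c₄ : ℚ) = D * (s ^ 2 + 10 * s + 5) ∧
      (W.Δ : ℚ) = D ^ 3 * s := by
  have : Fact (Nat.Prime 5) := ⟨Nat.prime_five⟩
  obtain ⟨P, hP, h5, hσ⟩ := exists_stable_point hΔ 5 hred
  obtain ⟨x, y, x', y', h, h', rfl, hadd, hne, hc4, hD⟩ :=
    five_torsion_invariants (curveK W) P hP h5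
  have hswap : ∀ σ : AlgebraicClosure ℚ ≃ₐ[ℚ] AlgebraicClosure ℚ,
      σ x = x ∧ σ x' = x' ∨ σ x = x' ∧ σ x' = x := by
    intro σ
    obtain ⟨m, hm, e⟩ := hσ σ
    set P₀ := Affine.Point.some x y h with hP₀
    have e2 : Affine.Point.map σ.toAlgHom (Affine.Point.some x' y' h') = (2 * m) • P₀ := by
      rw [← hadd, map_add, e, ← add_nsmul, two_mul]
    have hP2 : (2 : ℕ) • P₀ = Affine.Point.some x' y' h' := by rw [two_nsmul, hadd]
    have hP3 : (3 : ℕ) • P₀ = -Affine.Point.some x' y' h' := by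
      rw [← hP2, eq_neg_iff_add_eq_zero, ← add_nsmul, h5]
    have hP4 : (4 : ℕ) • P₀ = -P₀ := by
      rw [eq_neg_iff_add_eq_zero, ← h5, succ_nsmul _ 4]
    interval_cases m
    · exact absurd ((map_eq_zero_iff _ (Affine.Point.map_injective σ.toAlgHom)).1
        (e.trans (zero_nsmul _))) hP
    · rw [one_nsmul] at e
      exact Or.inl ⟨mapped_x_eq σ h h e, mapped_x_eq σ h' h' (e2.trans hP2)⟩
    · exact Or.inr ⟨mapped_x_eq σ h h' (e.trans hP2), mapped_x_eq_neg σ h' h (e2.trans hP4)⟩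
    · refine Or.inr ⟨mapped_x_eq_neg σ h h' (e.trans hP3), mapped_x_eq σ h' h (e2.trans ?_)⟩
      show (6 : ℕ) • P₀ = P₀
      rw [succ_nsmul _ 5, h5, zero_add]
    · refine Or.inl ⟨mapped_x_eq_neg σ h h (e.trans hP4), mapped_x_eq_neg σ h' h' (e2.trans ?_)⟩
      show (8 : ℕ) • P₀ = _
      rw [show 8 = 5 + 3 from rfl, add_nsmul, h5, zero_add, hP3]
  rw [curveK_eq] at hc4 hD
  simp only [fiveS, WeierstrassCurve.map_c₄, WeierstrassCurve.map_Δ, WeierstrassCurve.map_b₂,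
    eq_intCast] at hc4 hD
  set K := ((W.b₂ : AlgebraicClosure ℚ) + 6 * (x + x')) ^ 2 / fiveD x x' with hKdef
  obtain ⟨D, hDr⟩ := fixed_rational (x := fiveD x x') (fun σ => by
    rcases hswap σ with ⟨a, b⟩ | ⟨a, b⟩ <;>
      simp only [fiveD, map_pow, map_sub, a, b]
    ring)
  obtain ⟨k, hk⟩ := fixed_rational (x := K) (fun σ => by
    rcases hswap σ with ⟨a, b⟩ | ⟨a, b⟩ <;>
      simp only [hKdef, fiveD, map_div₀, map_pow, map_sub, map_add, map_mul, map_intCast,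
        map_ofNat, a, b]
    ring)
  have hD0 : D ≠ 0 := by
    intro e
    rw [e, Rat.cast_zero, fiveD] at hDr
    exact hne (sub_eq_zero.1 (eq_zero_of_pow_eq_zero hDr.symm))
  rw [← hDr, ← hk] at hc4 hD
  refine ⟨D, (k + 12 - (W.c₄ : ℚ) / D) / 12 - 11, hD0, ?_, ?_, ?_⟩
  · intro e
    have e' := congrArg (Rat.cast : ℚ → AlgebraicClosure ℚ) e
    push_cast at e'
    rw [e', mul_zero, Int.cast_eq_zero] at hD
    exact hΔ hD
  · apply Rat.cast_injective (α := AlgebraicClosure ℚ); push_cast; exact hc4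
  · apply Rat.cast_injective (α := AlgebraicClosure ℚ); push_cast; exact hD

/-- Semistable models have no prime dividing both `c₄` and `Δ`. -/
lemma not_five_dvd_c₄_and_Δ {W : WeierstrassCurve ℤ} (hW : W.IsSemistableModel)
    (h4 : (5 : ℤ) ∣ W.c₄) (hd : (5 : ℤ) ∣ W.Δ) : False :=
  hW 5 Nat.prime_five hd h4

theorem modThree_or_modFive_irreducible (W : WeierstrassCurve ℤ) (hΔ : W.Δ ≠ 0)
    (hW : W.IsSemistableModel) : W.ModRepIsIrreducible 3 ∨ W.ModRepIsIrreducible 5 := by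
  by_contra hcon
  simp only [not_or] at hcon
  obtain ⟨A, B, C, hC, hBAC, h4, hΔ3⟩ := exists_three_data hΔ hcon.1
  obtain ⟨D, s, hD, hs, h4', hΔ5⟩ := exists_five_data hΔ hcon.2
  have hc40 : W.c₄ ≠ 0 := by
    intro e
    have hunit : W.Δ.natAbs = 1 := by
      by_contra h1
      obtain ⟨q, hq, hqd⟩ := Nat.exists_prime_and_dvd h1
      exact hW q hq (Int.natCast_dvd.2 hqd) (by rw [e]; exact dvd_zero _)
    have hrel := W.c_relation
    rw [e] at hrel
    have : W.c₆ ^ 2 = 1728 := by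
      rcases Int.natAbs_eq W.Δ with h | h <;> rw [hunit] at h <;> rw [h] at hrel <;>
        have := sq_nonneg W.c₆ <;> push_cast at hrel <;> linarith
    have hsq : IsSquare (1728 : ℤ) := ⟨W.c₆, by rw [← this, pow_two]⟩
    revert hsq
    decide +kernel
  have hB : B ≠ 0 := by
    intro e
    rw [e] at hBAC h4
    have : A = 0 := by
      rcases mul_eq_zero.1 (show A * C = 0 by linarith) with h | h
      · exact h
      · exact absurd h hC
    rw [this] at h4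
    exact hc40 (by exact_mod_cast (by linarith : (W.c₄ : ℚ) = 0))
  have hw : B / D ≠ 0 := div_ne_zero hB hD
  have e5 : D * (s ^ 2 + 10 * s + 5) = A ^ 2 - 24 * B := by rw [← h4', h4]
  have e3 : D ^ 3 * s = B ^ 3 - 27 * C ^ 2 := by rw [← hΔ5, hΔ3]
  have hC2 : 27 * C ^ 2 = B ^ 3 - D ^ 3 * s := by linarith
  have hA2 : A ^ 2 * (B ^ 3 - D ^ 3 * s) = 27 * B ^ 4 := by
    rw [← hC2]; linear_combination (-27 * (B ^ 2 + A * C)) * hBAC
  have hF : ((B / D) ^ 3 - s) * (s ^ 2 + 10 * s + 5) = 3 * (B / D) * ((B / D) ^ 3 + 8 * s) := by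
    field_simp
    linear_combination (B ^ 3 - D ^ 3 * s) * e5 + hA2
  have hfin : ∀ N n : ℤ, n ≠ 0 → s = (N : ℚ) / n →
      (N : ℚ) * n ^ 5 * (W.c₄ : ℚ) ^ 3 =
        ((N : ℚ) ^ 2 + 10 * N * n + 5 * n ^ 2) ^ 3 * W.Δ := by
    intro N n hn e
    have hn' : (n : ℚ) ≠ 0 := Int.cast_ne_zero.2 hn
    rw [h4', hΔ5, e]
    field_simp
  have h5prime : Prime (5 : ℤ) := by norm_num
  rcases x15_points hs hw hF with h | h | h | h
  · have := hfin (-10) 1 one_ne_zero (by rw [h]; norm_num)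
    have e : (2 : ℤ) * W.c₄ ^ 3 = -25 * W.Δ := by
      have : ((2 * W.c₄ ^ 3 : ℤ) : ℚ) = ((-25 * W.Δ : ℤ) : ℚ) := by
        push_cast; norm_num at this; linarith
      exact_mod_cast this
    obtain ⟨k, hk⟩ : (5 : ℤ) ∣ W.c₄ :=
      h5prime.dvd_of_dvd_pow (n := 3) ((IsCoprime.dvd_of_dvd_mul_left
        (Int.isCoprime_iff_gcd_eq_one.2 (by norm_num)) (⟨-5 * W.Δ, by rw [e]; ring⟩ :
          (5 : ℤ) ∣ 2 * W.c₄ ^ 3)))
    refine not_five_dvd_c₄_and_Δ hW ⟨k, hk⟩ ⟨-2 * k ^ 3, ?_⟩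
    rw [hk] at e; linarith
  · have := hfin (-40) 1 one_ne_zero (by rw [h]; norm_num)
    have e : (8 : ℤ) * W.c₄ ^ 3 = -349938025 * W.Δ := by
      have : ((8 * W.c₄ ^ 3 : ℤ) : ℚ) = ((-349938025 * W.Δ : ℤ) : ℚ) := by
        push_cast; norm_num at this; linarith
      exact_mod_cast this
    obtain ⟨k, hk⟩ : (5 : ℤ) ∣ W.c₄ :=
      h5prime.dvd_of_dvd_pow (n := 3) ((IsCoprime.dvd_of_dvd_mul_left
        (Int.isCoprime_iff_gcd_eq_one.2 (by norm_num)) (⟨-69987605 * W.Δ, by rw [e]; ring⟩ :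
          (5 : ℤ) ∣ 8 * W.c₄ ^ 3)))
    refine not_five_dvd_c₄_and_Δ hW ⟨k, hk⟩ ?_
    refine IsCoprime.dvd_of_dvd_mul_left (x := 5) (y := 13997521)
      (Int.isCoprime_iff_gcd_eq_one.2 (by norm_num)) ⟨-8 * k ^ 3, ?_⟩
    rw [hk] at e; linarith
  · have := hfin (-25) 2 two_ne_zero (by rw [h]; norm_num)
    have e : (32 : ℤ) * W.c₄ ^ 3 = -121945 * W.Δ := by
      have : ((32 * W.c₄ ^ 3 : ℤ) : ℚ) = ((-121945 * W.Δ : ℤ) : ℚ) := by
        push_cast; norm_num at this; linarith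
      exact_mod_cast this
    obtain ⟨k, hk⟩ : (5 : ℤ) ∣ W.c₄ :=
      h5prime.dvd_of_dvd_pow (n := 3) ((IsCoprime.dvd_of_dvd_mul_left
        (Int.isCoprime_iff_gcd_eq_one.2 (by norm_num)) (⟨-24389 * W.Δ, by rw [e]; ring⟩ :
          (5 : ℤ) ∣ 32 * W.c₄ ^ 3)))
    refine not_five_dvd_c₄_and_Δ hW ⟨k, hk⟩ ?_
    refine IsCoprime.dvd_of_dvd_mul_left (x := 5) (y := 24389)
      (Int.isCoprime_iff_gcd_eq_one.2 (by norm_num)) ⟨-160 * k ^ 3, ?_⟩
    rw [hk] at e; linarith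
  · have := hfin (-25) 8 (by norm_num) (by rw [h]; norm_num)
    have e : (32768 : ℤ) * W.c₄ ^ 3 = 46969655 * W.Δ := by
      have : ((32768 * W.c₄ ^ 3 : ℤ) : ℚ) = ((46969655 * W.Δ : ℤ) : ℚ) := by
        push_cast; norm_num at this; linarith
      exact_mod_cast this
    obtain ⟨k, hk⟩ : (5 : ℤ) ∣ W.c₄ :=
      h5prime.dvd_of_dvd_pow (n := 3) ((IsCoprime.dvd_of_dvd_mul_left
        (Int.isCoprime_iff_gcd_eq_one.2 (by norm_num)) (⟨9393931 * W.Δ, by rw [e]; ring⟩ :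
          (5 : ℤ) ∣ 32768 * W.c₄ ^ 3)))
    refine not_five_dvd_c₄_and_Δ hW ⟨k, hk⟩ ?_
    refine IsCoprime.dvd_of_dvd_mul_left (x := 5) (y := 9393931)
      (Int.isCoprime_iff_gcd_eq_one.2 (by norm_num)) ⟨32768 * 5 * k ^ 3, ?_⟩
    rw [hk] at e; linarith

end FLTAgent.SmallLevel

end
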