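import Fermat.Agent.SmallLevel.KummerDescent

set_option autoImplicit false

namespace FLTAgent.SmallLevel

open NumberField Ideal Polynomial Finset

variable {n : ℕ} [hn : Fact n.Prime] {K : Type*} [Field K] [NumberField K]
  [IsCyclotomicExtension {n} ℚ K] {ζ : K} (hζ : IsPrimitiveRoot ζ n)

include hζ in
lemma exists_principal_primeOver (q f : ℕ) [hq : Fact q.Prime] (hqn : ¬ q ∣ n)
    (hf : f ≤ orderOf (q : ZMod n))
    (θ φ : 𝓞 K) (hθφ : θ * φ = q)
    (g : ℤ[X]) (hg : g.Monic) (hgd : g.natDegree = f) (hgθ : θ ∣ aeval hζ.toInteger g)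
    (hnu : ¬ IsUnit θ) :
    ∃ P ∈ primesOver (span {(q : ℤ)}) (𝓞 K), Submodule.IsPrincipal P := by
  have hθ0 : θ ≠ 0 := by
    rintro rfl
    rw [zero_mul] at hθφ
    exact hq.out.ne_zero (by exact_mod_cast hθφ.symm)
  obtain ⟨P, hP, hle⟩ := Ideal.exists_le_maximal (span {θ}) (by
    rwa [Ne, Ideal.span_singleton_eq_top])
  have hqP : (q : 𝓞 K) ∈ P := hle (mem_span_singleton.2 ⟨φ, hθφ.symm⟩)
  have hlies : P.LiesOver (span {(q : ℤ)}) := by
    rw [liesOver_iff]
    refine IsMaximal.eq_of_le (Int.ideal_span_isMaximal_of_prime q) IsPrime.ne_top' ?_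
    rw [span_singleton_le_iff_mem, mem_comap, algebraMap_int_eq, map_natCast]
    exact hqP
  have hnormP : q ^ f ≤ absNorm P := by
    rw [← Ideal.pow_inertiaDeg q P,
      IsCyclotomicExtension.Rat.inertiaDeg_eq_of_not_dvd (m := n) q K P hqn]
    exact Nat.pow_le_pow_right hq.out.pos hf
  have hne : span {θ} ≠ ⊥ := by simpa [Ideal.span_singleton_eq_bot] using hθ0
  have hnormθ : absNorm (span {θ}) ≤ q ^ f := by
    rw [absNorm_apply, Submodule.cardQuot_apply]
    let F : (Fin f → ZMod q) → 𝓞 K ⧸ span {θ} := fun c =>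
      Ideal.Quotient.mk _ (∑ i, ((c i).val : 𝓞 K) * hζ.toInteger ^ (i : ℕ))
    have hF : Function.Surjective F := by
      intro x
      obtain ⟨y, rfl⟩ := Ideal.Quotient.mk_surjective x
      have hy : y ∈ Algebra.adjoin ℤ {hζ.toInteger} := by
        rw [IsCyclotomicExtension.Rat.adjoin_singleton_eq_top hζ]; trivial
      rw [Algebra.adjoin_singleton_eq_range_aeval] at hy
      obtain ⟨G, rfl⟩ := hy
      refine ⟨fun i => ((G %ₘ g).coeff i : ZMod q), ?_⟩
      rw [Ideal.Quotient.eq, mem_span_singleton]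
      change θ ∣ _ - aeval hζ.toInteger G
      conv_rhs => arg 2; rw [← Polynomial.modByMonic_add_div G g]
      rw [map_add, map_mul, sub_add_eq_sub_sub]
      refine dvd_sub ?_ (hgθ.mul_right _)
      rcases Nat.eq_zero_or_pos f with hf0 | hf0
      · subst hf0
        exfalso
        rw [hg.natDegree_eq_zero] at hgd
        rw [hgd, map_one] at hgθ
        exact hnu (isUnit_of_dvd_one hgθ)
      have hdeg : (G %ₘ g).natDegree < f := by
        rw [← hgd]
        exact Polynomial.natDegree_modByMonic_lt _ hg (fun h => by simp [h] at hgd; omega)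
      rw [aeval_eq_sum_range' hdeg, Finset.sum_range, ← Finset.sum_sub_distrib]
      refine Finset.dvd_sum fun i _ => ?_
      rw [Algebra.smul_def, algebraMap_int_eq, eq_intCast, ← sub_mul]
      refine Dvd.dvd.mul_right ((Dvd.intro φ hθφ).trans ?_) _
      have : (q : ℤ) ∣ (((G %ₘ g).coeff i : ZMod q).val : ℤ) - (G %ₘ g).coeff i := by
        rw [← ZMod.intCast_eq_intCast_iff_dvd_sub]
        simp
      obtain ⟨t, ht⟩ := this
      exact ⟨(t : 𝓞 K), by exact_mod_cast congrArg (Int.cast : ℤ → 𝓞 K) ht⟩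
    calc Nat.card (𝓞 K ⧸ span {θ}) ≤ Nat.card (Fin f → ZMod q) :=
          Nat.card_le_card_of_surjective F hF
      _ = q ^ f := by simp
  obtain ⟨J, hJ⟩ := Ideal.dvd_iff_le.2 hle
  have hJn : absNorm (span {θ}) = absNorm P * absNorm J := by rw [hJ, map_mul]
  have hpos : 0 < absNorm (span {θ}) := Nat.pos_of_ne_zero (absNorm_eq_zero_iff.not.2 hne)
  have hJ1 : absNorm J = 1 := by
    have h1 : absNorm P * absNorm J ≤ absNorm P * 1 := by rw [mul_one, ← hJn]; omega
    have h2 : absNorm J ≠ 0 := fun h => by rw [h, mul_zero] at hJn; omega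
    have := Nat.le_of_mul_le_mul_left h1 (lt_of_lt_of_le (pow_pos hq.out.pos f) hnormP)
    omega
  refine ⟨P, ⟨hP.isPrime, hlies⟩, ⟨⟨θ, ?_⟩⟩⟩
  rw [absNorm_eq_one_iff.1 hJ1, Ideal.mul_top] at hJ
  exact hJ.symm

include hζ in
lemma not_isUnit_of_root {S : Type*} [CommRing S] [Nontrivial S] (y : S)
    (hy : ∑ i ∈ range n, y ^ i = 0) (G : ℤ[X]) (hG : aeval y G = 0) :
    ¬ IsUnit (aeval hζ.toInteger G) := by
  have hmin : minpoly ℤ hζ.integralPowerBasis.gen = cyclotomic n ℤ := by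
    rw [IsPrimitiveRoot.integralPowerBasis_gen,
      cyclotomic_eq_minpoly hζ hn.out.pos, ← RingOfIntegers.minpoly_coe]
    rfl
  have h0 : aeval y (minpoly ℤ hζ.integralPowerBasis.gen) = 0 := by
    rw [hmin, cyclotomic_prime, map_sum]
    simpa using hy
  intro hu
  have := hu.map (hζ.integralPowerBasis.lift y h0)
  rw [← aeval_algHom_apply, ← IsPrimitiveRoot.integralPowerBasis_gen hζ, PowerBasis.lift_gen,
    hG] at this
  exact not_isUnit_zero this

include hζ in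
lemma pid_of_bound (B : ℕ) (hB : (4 / Real.pi) ^ InfinitePlace.nrComplexPlaces K *
      ((Module.finrank ℚ K).factorial / (Module.finrank ℚ K) ^ (Module.finrank ℚ K) *
        Real.sqrt |discr K|) < (B : ℝ) + 1)
    (special : List ℕ)
    (hcheck : ∀ q ∈ Finset.range (B + 1), ∀ j ∈ Finset.range (Nat.log 2 B + 1),
      2 ≤ q → 1 ≤ j → q ^ j % n = 1 → q ^ j ≤ B →
        q ∈ special ∨ (∃ d ∈ [2, 3, 5, 7, 11, 13, 17], q % d = 0 ∧ q ≠ d))
    (hspecial : ∀ q ∈ special, ∀ [Fact (Nat.Prime q)],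
      ∃ P ∈ primesOver (span {(q : ℤ)}) (𝓞 K), Submodule.IsPrincipal P) :
    IsPrincipalIdealRing (𝓞 K) := by
  have : IsGalois ℚ K := IsCyclotomicExtension.isGalois {n} ℚ K
  refine RingOfIntegers.isPrincipalIdealRing_of_isPrincipal_of_lt_or_isPrincipal_of_mem_primesOver_of_mem_Icc
    fun q hqmem hq => ?_
  have : Fact q.Prime := ⟨hq⟩
  by_cases hs : q ∈ special
  · obtain ⟨P, hP, hP'⟩ := hspecial q hs
    exact ⟨P, hP, Or.inr hP'⟩
  by_cases hqn : q = n
  · subst hqn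
    obtain ⟨⟨P, hP, hP'⟩⟩ := (span {(q : ℤ)}).nonempty_primesOver (S := 𝓞 K)
    refine ⟨P, ⟨hP, hP'⟩, Or.inr ?_⟩
    rw [IsCyclotomicExtension.Rat.eq_span_zeta_sub_one_of_liesOver' q K hζ P]
    exact ⟨⟨_, rfl⟩⟩
  obtain ⟨⟨P, hP, hP'⟩⟩ := (span {(q : ℤ)}).nonempty_primesOver (S := 𝓞 K)
  refine ⟨P, ⟨hP, hP'⟩, Or.inl ?_⟩
  have hdvd : ¬ q ∣ n := fun h => hqn ((hn.out.eq_one_or_self_of_dvd q h).resolve_left hq.one_lt.ne')
  rw [IsCyclotomicExtension.Rat.inertiaDeg_eq_of_not_dvd (m := n) q K P hdvd]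
  have hfloor : ∀ x : ℝ, 0 ≤ x → x < (B : ℝ) + 1 → ⌊x⌋₊ ≤ B := fun x hx h =>
    Nat.lt_succ_iff.1 ((Nat.floor_lt hx).2 (by push_cast; exact h))
  refine lt_of_le_of_lt (hfloor _ (by positivity) hB) ?_
  by_contra hle
  push Not at hle
  have hqB : q ≤ B := ((Finset.mem_Icc.1 hqmem).2).trans (hfloor _ (by positivity) hB)
  have hunit : IsUnit (q : ZMod n) := (ZMod.isUnit_iff_coprime q n).2
    ((Nat.coprime_primes hq hn.out).2 hqn)
  have hfin : IsOfFinOrder (q : ZMod n) := by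
    obtain ⟨u, hu⟩ := hunit
    rw [← hu]
    exact (Units.coeHom _).isOfFinOrder (isOfFinOrder_of_finite u)
  have hpos : 1 ≤ orderOf (q : ZMod n) := hfin.orderOf_pos
  have hmod : q ^ orderOf (q : ZMod n) % n = 1 := by
    have h1 : ((q ^ orderOf (q : ZMod n) : ℕ) : ZMod n) = ((1 : ℕ) : ZMod n) := by
      push_cast; exact pow_orderOf_eq_one _
    rw [ZMod.natCast_eq_natCast_iff', Nat.one_mod_eq_one.2 hn.out.one_lt.ne'] at h1
    exact h1
  have hjlog : orderOf (q : ZMod n) ≤ Nat.log 2 B :=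
    Nat.le_log_of_pow_le one_lt_two ((Nat.pow_le_pow_left hq.two_le _).trans hle)
  obtain h | ⟨d, hd, hmodd, hne⟩ := hcheck q (Finset.mem_range.2 (by omega))
    (orderOf (q : ZMod n)) (Finset.mem_range.2 (by omega)) hq.two_le hpos hmod hle
  · exact hs h
  · rcases hq.eq_one_or_self_of_dvd d (Nat.dvd_of_mod_eq_zero hmodd) with h | h
    · subst h; simp at hd
    · exact hne h.symm

end FLTAgent.SmallLevel
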