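import Mathlib

set_option autoImplicit false

namespace FLTAgent.SmallLevel

open NumberField Ideal Polynomial Finset

/-- Units congruent to an integer modulo `p` are `p`-th powers. -/
def KummerUnits (p : ℕ) (K : Type*) [Field K] : Prop :=
  ∀ u : (𝓞 K)ˣ, (∃ n : ℤ, (p : 𝓞 K) ∣ (u : 𝓞 K) - n) → ∃ v : (𝓞 K)ˣ, u = v ^ p

variable {p : ℕ} [hp : Fact p.Prime] {K : Type*} [Field K] [NumberField K]
  [IsCyclotomicExtension {p} ℚ K] {ζ : K} (hζ : IsPrimitiveRoot ζ p)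

include hζ in
lemma exists_int_sub_mem (x : 𝓞 K) : ∃ n : ℤ, hζ.toInteger - 1 ∣ x - n := by
  have hK : IsCyclotomicExtension {p ^ (0 + 1)} ℚ K := by simpa
  have hcard : Nat.card (𝓞 K ⧸ span {hζ.toInteger - 1}) = p := by
    rw [← Submodule.cardQuot_apply, ← absNorm_apply]
    exact IsCyclotomicExtension.Rat.absNorm_span_zeta_sub_one p 0
      (show IsPrimitiveRoot ζ (p ^ (0 + 1)) by simpa using hζ)
  have : Finite (𝓞 K ⧸ span {hζ.toInteger - 1}) :=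
    Nat.finite_of_card_ne_zero (by rw [hcard]; exact hp.out.ne_zero)
  let f : Fin p → 𝓞 K ⧸ span {hζ.toInteger - 1} := fun i => Ideal.Quotient.mk _ ((i : ℕ) : 𝓞 K)
  have hf : Function.Injective f := by
    intro i j hij
    rw [Ideal.Quotient.eq, mem_span_singleton] at hij
    have : hζ.toInteger - 1 ∣ (((i : ℕ) - (j : ℕ) : ℤ) : 𝓞 K) := by push_cast; exact hij
    rw [IsCyclotomicExtension.Rat.zeta_sub_one_dvd_intCast_iff' p hζ] at this
    have h0 : ((i : ℕ) : ℤ) - (j : ℕ) = 0 :=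
      Int.eq_zero_of_abs_lt_dvd this (by rw [abs_lt]; have := i.2; have := j.2; omega)
    exact Fin.ext (by omega)
  have hb : Function.Bijective f :=
    (Nat.bijective_iff_injective_and_card f).2 ⟨hf, by simp [hcard]⟩
  obtain ⟨i, hi⟩ := hb.2 (Ideal.Quotient.mk _ x)
  refine ⟨(i : ℕ), ?_⟩
  rw [← mem_span_singleton]
  push_cast
  exact Ideal.Quotient.eq.1 hi.symm

include hζ in
lemma lam_pow_associated : Associated ((hζ.toInteger - 1) ^ (p - 1)) (p : 𝓞 K) :=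
  IsCyclotomicExtension.Rat.associated_zeta_sub_one_pow_prime p hζ

include hζ in
lemma exists_int_pow_sub (x : 𝓞 K) :
    ∃ n : ℤ, (p : 𝓞 K) ∣ x ^ p - (n : 𝓞 K) ^ p ∧ hζ.toInteger - 1 ∣ x - n := by
  obtain ⟨n, hn⟩ := exists_int_sub_mem hζ x
  refine ⟨n, ?_, hn⟩
  obtain ⟨y, hy⟩ := hn
  obtain ⟨r, hr⟩ := exists_add_pow_prime_eq hp.out (n : 𝓞 K) ((hζ.toInteger - 1) * y)
  rw [← hy, add_sub_cancel, hy, mul_pow] at hr
  rw [hr, add_sub_assoc, add_comm ((n : 𝓞 K) ^ p), add_assoc]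
  have h2 : (p : 𝓞 K) ∣ (hζ.toInteger - 1) ^ p * y ^ p :=
    ((lam_pow_associated hζ).symm.dvd.trans (pow_dvd_pow _ (Nat.sub_le p 1))).mul_right _
  refine ⟨(Classical.choose h2) + (n : 𝓞 K) * ((hζ.toInteger - 1) * y) * r, ?_⟩
  linear_combination Classical.choose_spec h2

variable [IsPrincipalIdealRing (𝓞 K)]

include hζ in
lemma kummer_step_normalized (hodd : p ≠ 2) (hU : KummerUnits p K)
    (α β γ : 𝓞 K) (ε : (𝓞 K)ˣ) (m : ℕ) (hm : 1 ≤ m)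
    (hγ : ¬ hζ.toInteger - 1 ∣ γ) (hco : IsCoprime α β)
    (heq : α ^ p + β ^ p = ε * (hζ.toInteger - 1) ^ (p * m) * γ ^ p)
    (hbase : (hζ.toInteger - 1) ^ 2 ∣ α + β) :
    2 ≤ m ∧ ∃ (α' β' γ' : 𝓞 K) (ε' : (𝓞 K)ˣ), ¬ hζ.toInteger - 1 ∣ γ' ∧ IsCoprime α' β' ∧
      α' ^ p + β' ^ p = ε' * (hζ.toInteger - 1) ^ (p * (m - 1)) * γ' ^ p := by
  classical
  have hp2 : 2 ≤ p := hp.out.two_le
  have hp3 : 3 ≤ p := by omega
  have hpodd : Odd p := hp.out.odd_of_ne_two hodd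
  set z := hζ.toInteger with hzdef
  have hz : IsPrimitiveRoot z p := hζ.toInteger_isPrimitiveRoot
  set l := z - 1 with hl
  have hlp : Prime l := hζ.zeta_sub_one_prime'
  have hl0 : l ≠ 0 := hlp.ne_zero
  set R := nthRootsFinset p (1 : 𝓞 K) with hR
  have hcardR : R.card = p := hz.card_nthRootsFinset
  have hassoc : ∀ μ ∈ R, ∀ ν ∈ R, μ ≠ ν → Associated l (μ - ν) := fun μ hμ ν hν hne =>
    hz.nthRootsFinset_pairwise_associated_sub_one_sub_of_prime hp.out hμ hν hne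
  have h1R : (1 : 𝓞 K) ∈ R := by rw [hR, mem_nthRootsFinset hp.out.pos]; simp
  have hzR : z ∈ R := by rw [hR, mem_nthRootsFinset hp.out.pos]; exact hz.pow_eq_one
  set z' := z ^ (p - 1) with hz'
  have hz'R : z' ∈ R := by
    rw [hR, mem_nthRootsFinset hp.out.pos, hz', ← pow_mul, mul_comm, pow_mul, hz.pow_eq_one,
      one_pow]
  have hzz' : z * z' = 1 := by
    rw [hz', ← pow_succ', Nat.sub_add_cancel hp.out.one_le, hz.pow_eq_one]
  have hne1 : z ≠ 1 := hz.ne_one hp.out.one_lt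
  have hne1' : z' ≠ 1 := fun e => hne1 (by rw [← hzz', e, mul_one])
  have hnezz' : z ≠ z' := fun e => by
    have := (hz.pow_eq_one_iff_dvd 2).1 (by rw [pow_two]; nth_rw 2 [e]; exact hzz')
    have := Nat.le_of_dvd two_pos this
    omega
  have hq : ∀ μ ∈ R, l ∣ α + μ * β := by
    intro μ hμ
    have h1 : l ∣ α + β := (dvd_pow_self l two_ne_zero).trans hbase
    by_cases hμ1 : μ = 1
    · simpa [hμ1] using h1
    · have : α + μ * β = (α + β) + (μ - 1) * β := by ring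
      rw [this]
      exact dvd_add h1 ((hassoc μ hμ 1 h1R hμ1).dvd.mul_right _)
  choose! q hq using hq
  have hqcop : ∀ μ ∈ R, ∀ ν ∈ R, μ ≠ ν → IsCoprime (q μ) (q ν) := by
    intro μ hμ ν hν hne
    obtain ⟨u, hu⟩ := hassoc μ hμ ν hν hne
    obtain ⟨a, b, hab⟩ := hco
    have e1 : q μ - q ν = (u : 𝓞 K) * β := mul_left_cancel₀ hl0 (by
      linear_combination (hq ν hν) - (hq μ hμ) - β * hu)
    have e2 : ν * q μ - μ * q ν = -((u : 𝓞 K) * α) := mul_left_cancel₀ hl0 (by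
      linear_combination μ * (hq ν hν) - ν * (hq μ hμ) + α * hu)
    refine ⟨((u⁻¹ : (𝓞 K)ˣ) : 𝓞 K) * (b - a * ν), ((u⁻¹ : (𝓞 K)ˣ) : 𝓞 K) * (a * μ - b), ?_⟩
    have hinv : ((u⁻¹ : (𝓞 K)ˣ) : 𝓞 K) * (u : 𝓞 K) = 1 := u.inv_mul
    linear_combination ((u⁻¹ : (𝓞 K)ˣ) : 𝓞 K) * b * e1 - ((u⁻¹ : (𝓞 K)ˣ) : 𝓞 K) * a * e2
      + hab + (a * α + b * β) * hinv
  have hprod : l ^ p * ∏ μ ∈ R, q μ = l ^ p * ((ε : 𝓞 K) * l ^ (p * (m - 1)) * γ ^ p) := by
    have e1 : ∏ μ ∈ R, (α + μ * β) = l ^ p * ∏ μ ∈ R, q μ := by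
      rw [Finset.prod_congr rfl hq, Finset.prod_mul_distrib, Finset.prod_const, hcardR]
    rw [← e1, hR, ← hz.pow_add_pow_eq_prod_add_mul α β hpodd, heq]
    have e2 : p * m = p + p * (m - 1) := by
      conv_lhs => rw [← Nat.sub_add_cancel hm]
      ring
    rw [e2, pow_add]; ring
  have hprod' := mul_left_cancel₀ (pow_ne_zero p hl0) hprod
  have hl1 : l ∣ q 1 := by
    have := hq 1 h1R
    rw [one_mul] at this
    rw [this, pow_two] at hbase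
    exact (mul_dvd_mul_iff_left hl0).1 hbase
  have hlne : ∀ μ ∈ R, μ ≠ 1 → ¬ l ∣ q μ := fun μ hμ hne h =>
    hlp.not_isUnit ((hqcop μ hμ 1 h1R hne).isUnit_of_dvd' h hl1)
  rw [← Finset.mul_prod_erase R q h1R] at hprod'
  set rest := ∏ μ ∈ R.erase 1, q μ with hrest
  have hlrest : ¬ l ∣ rest := by
    rw [hrest, Prime.dvd_finsetProd_iff hlp]
    rintro ⟨μ, hμ, h⟩
    rw [Finset.mem_erase] at hμ
    exact hlne μ hμ.2 hμ.1 h
  have hm2 : 2 ≤ m := by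
    by_contra hlt
    have hm1 : m = 1 := by omega
    rw [hm1, Nat.sub_self, mul_zero, pow_zero, mul_one] at hprod'
    have : l ∣ (ε : 𝓞 K) * γ ^ p := hprod' ▸ hl1.mul_right _
    rcases hlp.dvd_or_dvd this with h | h
    · exact hlp.not_isUnit (isUnit_of_dvd_unit h ε.isUnit)
    · exact hγ (hlp.dvd_of_dvd_pow h)
  refine ⟨hm2, ?_⟩
  obtain ⟨S, hS⟩ : l ^ (p * (m - 1)) ∣ q 1 :=
    hlp.pow_dvd_of_dvd_mul_right _ hlrest (Dvd.intro_left _ (by rw [hprod']; ring : γ ^ p * (ε : 𝓞 K) * l ^ (p * (m - 1)) = q 1 * rest))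
  have hSrest : S * rest = (ε : 𝓞 K) * γ ^ p := by
    apply mul_left_cancel₀ (pow_ne_zero (p * (m - 1)) hl0)
    rw [← mul_assoc, ← hS, hprod']; ring
  have hStot : ∀ a b : 𝓞 K, IsCoprime a b → a * b = (ε : 𝓞 K) * γ ^ p →
      ∃ (ρ : 𝓞 K) (e : (𝓞 K)ˣ), a = (e : 𝓞 K) * ρ ^ p ∧ ρ ∣ γ ^ p := by
    intro a b hab habγ
    obtain ⟨ρ, e, he⟩ := exists_associated_pow_of_mul_eq_pow'
      (b := b * ((ε⁻¹ : (𝓞 K)ˣ) : 𝓞 K)) (c := γ) (k := p)
      ((isCoprime_mul_unit_right_right ε⁻¹.isUnit a b).2 hab)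
      (by rw [← mul_assoc, habγ, mul_right_comm, Units.mul_inv, one_mul])
    refine ⟨ρ, e, by rw [← he, mul_comm], ?_⟩
    have h1 : ρ ∣ a := (dvd_pow_self ρ hp.out.ne_zero).trans (he ▸ dvd_mul_right _ _)
    have h2 : ρ ∣ (ε : 𝓞 K) * γ ^ p := habγ ▸ h1.mul_right b
    exact (Units.dvd_mul_left).1 h2
  -- coprimality
  have hcop1 : ∀ μ ∈ R, μ ≠ 1 → IsCoprime (q μ) S := fun μ hμ hne =>
    (hqcop μ hμ 1 h1R hne).of_isCoprime_of_dvd_right (hS ▸ dvd_mul_left S _)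
  obtain ⟨ρ0, e0, hρ0, hρ0γ⟩ := hStot S rest
    (IsCoprime.prod_right fun μ hμ => by
      rw [Finset.mem_erase] at hμ
      exact (hcop1 μ hμ.2 hμ.1).symm) hSrest
  have hside : ∀ μ ∈ R, μ ≠ 1 → ∃ (ρ : 𝓞 K) (e : (𝓞 K)ˣ), q μ = (e : 𝓞 K) * ρ ^ p ∧ ρ ∣ γ ^ p := by
    intro μ hμ hne
    have hmem : μ ∈ R.erase 1 := Finset.mem_erase.2 ⟨hne, hμ⟩
    refine hStot (q μ) (S * ∏ ν ∈ (R.erase 1).erase μ, q ν) ?_ ?_
    · refine IsCoprime.mul_right (hcop1 μ hμ hne) (IsCoprime.prod_right fun ν hν => ?_)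
      rw [Finset.mem_erase, Finset.mem_erase] at hν
      exact hqcop μ hμ ν hν.2.2 hν.1.symm
    · rw [mul_left_comm, Finset.mul_prod_erase _ _ hmem, hSrest]
  obtain ⟨ρ1, e1, hρ1, hρ1γ⟩ := hside z hzR hne1
  obtain ⟨ρ2, e2, hρ2, hρ2γ⟩ := hside z' hz'R hne1'
  have hid : z * q z' + q z = (1 + z) * q 1 := mul_left_cancel₀ hl0 (by
    linear_combination -z * hq z' hz'R - hq z hzR + (1 + z) * hq 1 h1R + β * hzz')
  obtain ⟨w, hw⟩ : IsUnit (1 + z) := by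
    have := hz.geom_sum_isUnit hp2 (j := 2)
      ((Nat.Prime.coprime_iff_not_dvd Nat.prime_two).2
        (fun h => (Nat.not_even_iff_odd.2 hpodd) (even_iff_two_dvd.2 h)))
    simpa [Finset.sum_range_succ] using this
  obtain ⟨uz, huz⟩ := hz.isUnit hp.out.ne_zero
  -- η and δ
  set η : (𝓞 K)ˣ := uz * e2 * e1⁻¹ with hη
  set δ : (𝓞 K)ˣ := w * e0 * e1⁻¹ with hδ
  have hkey : ρ1 ^ p + (η : 𝓞 K) * ρ2 ^ p = (δ : 𝓞 K) * l ^ (p * (m - 1)) * ρ0 ^ p := by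
    have hinv : (e1 : 𝓞 K) * ((e1⁻¹ : (𝓞 K)ˣ) : 𝓞 K) = 1 := e1.mul_inv
    rw [hη, hδ, Units.val_mul, Units.val_mul, Units.val_mul, Units.val_mul, huz, hw]
    rw [hρ1, hρ2, hS, hρ0] at hid
    linear_combination ((e1⁻¹ : (𝓞 K)ˣ) : 𝓞 K) * hid - ρ1 ^ p * hinv
  have hρ2l : ¬ l ∣ ρ2 := fun h => hγ (hlp.dvd_of_dvd_pow (h.trans hρ2γ))
  obtain ⟨n1, hn1, -⟩ := exists_int_pow_sub hζ ρ1
  obtain ⟨n2, hn2, hn2'⟩ := exists_int_pow_sub hζ ρ2
  have hn2p : IsCoprime (n2 ^ p) (p : ℤ) := by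
    refine IsCoprime.pow_left ?_
    rw [isCoprime_comm, (Nat.prime_iff_prime_int.1 hp.out).coprime_iff_not_dvd]
    intro h
    apply hρ2l
    have := (IsCyclotomicExtension.Rat.zeta_sub_one_dvd_intCast_iff' p hζ).2 h
    simpa using dvd_add hn2' this
  obtain ⟨k, j, hkj⟩ := hn2p
  have hpl : (p : 𝓞 K) ∣ (δ : 𝓞 K) * l ^ (p * (m - 1)) * ρ0 ^ p := by
    refine ((lam_pow_associated hζ).symm.dvd.trans (pow_dvd_pow _ ?_) |>.mul_left _).mul_right _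
    calc p - 1 ≤ p * 1 := by omega
      _ ≤ p * (m - 1) := Nat.mul_le_mul_left _ (by omega)
  obtain ⟨η0, hη0⟩ := hU η ⟨-(k * n1 ^ p), by
    obtain ⟨s1, hs1⟩ := hn1
    obtain ⟨s2, hs2⟩ := hn2
    obtain ⟨s3, hs3⟩ := hpl
    have hkj' : (k : 𝓞 K) * (n2 : 𝓞 K) ^ p + (j : 𝓞 K) * (p : 𝓞 K) = 1 := by
      exact_mod_cast congrArg (Int.cast : ℤ → 𝓞 K) hkj
    refine ⟨(k : 𝓞 K) * (s3 - s1 - (η : 𝓞 K) * s2) + (η : 𝓞 K) * j, ?_⟩
    push_cast
    linear_combination (k : 𝓞 K) * hs3 - (k : 𝓞 K) * hs1 - (η : 𝓞 K) * (k : 𝓞 K) * hs2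
      + (k : 𝓞 K) * hkey - (η : 𝓞 K) * hkj'⟩
  refine ⟨ρ1, (η0 : 𝓞 K) * ρ2, ρ0, δ, fun h => hγ (hlp.dvd_of_dvd_pow (h.trans hρ0γ)), ?_, ?_⟩
  · refine (isCoprime_mul_unit_left_right η0.isUnit _ _).2 ?_
    have := hqcop z hzR z' hz'R hnezz'
    rw [hρ1, hρ2, isCoprime_mul_unit_left_left e1.isUnit,
      isCoprime_mul_unit_left_right e2.isUnit] at this
    exact (IsCoprime.pow_iff hp.out.pos hp.out.pos).1 this
  · rw [mul_pow, ← Units.val_pow_eq_pow_val, ← hη0]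
    exact hkey

include hζ in
lemma kummer_step (hodd : p ≠ 2) (hU : KummerUnits p K)
    (α β γ : 𝓞 K) (ε : (𝓞 K)ˣ) (m : ℕ) (hm : 1 ≤ m)
    (hγ : ¬ hζ.toInteger - 1 ∣ γ) (hco : IsCoprime α β)
    (heq : α ^ p + β ^ p = ε * (hζ.toInteger - 1) ^ (p * m) * γ ^ p) :
    2 ≤ m ∧ ∃ (α' β' γ' : 𝓞 K) (ε' : (𝓞 K)ˣ), ¬ hζ.toInteger - 1 ∣ γ' ∧ IsCoprime α' β' ∧
      α' ^ p + β' ^ p = ε' * (hζ.toInteger - 1) ^ (p * (m - 1)) * γ' ^ p := by
  classical
  have hpodd : Odd p := hp.out.odd_of_ne_two hodd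
  set z := hζ.toInteger with hzdef
  have hz : IsPrimitiveRoot z p := hζ.toInteger_isPrimitiveRoot
  set l := z - 1 with hl
  have hlp : Prime l := hζ.zeta_sub_one_prime'
  set R := nthRootsFinset p (1 : 𝓞 K) with hR
  have hcardR : R.card = p := hz.card_nthRootsFinset
  have hassoc : ∀ μ ∈ R, ∀ ν ∈ R, μ ≠ ν → Associated l (μ - ν) := fun μ hμ ν hν hne =>
    hz.nthRootsFinset_pairwise_associated_sub_one_sub_of_prime hp.out hμ hν hne
  obtain ⟨μ1, hμ1, hμ1d⟩ : ∃ μ ∈ R, l ∣ α + μ * β := by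
    rw [← Prime.dvd_finsetProd_iff hlp, hR, ← hz.pow_add_pow_eq_prod_add_mul α β hpodd, heq]
    exact ((dvd_pow_self l (Nat.mul_ne_zero hp.out.ne_zero (by omega))).mul_left _).mul_right _
  have hq : ∀ μ ∈ R, l ∣ α + μ * β := by
    intro μ hμ
    by_cases h : μ = μ1
    · exact h ▸ hμ1d
    · have : α + μ * β = (α + μ1 * β) + (μ - μ1) * β := by ring
      rw [this]
      exact dvd_add hμ1d ((hassoc μ hμ μ1 hμ1 h).dvd.mul_right _)
  choose! q hq using hq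
  have hβ : ¬ l ∣ β := fun h => hlp.not_isUnit (hco.isUnit_of_dvd' (by
    simpa using dvd_sub hμ1d (h.mul_left μ1)) h)
  -- the residues of `q μ` are pairwise distinct, hence one is `0`
  choose res hres using fun x => exists_int_sub_mem hζ x
  let f : R → Fin p := fun μ =>
    ⟨(res (q μ) % (p : ℤ)).toNat, by
      have h1 := Int.emod_lt_of_pos (res (q μ))
        (show (0 : ℤ) < p by exact_mod_cast hp.out.pos)
      have h2 := Int.emod_nonneg (res (q μ))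
        (show (p : ℤ) ≠ 0 by exact_mod_cast hp.out.ne_zero)
      omega⟩
  have hf : Function.Injective f := by
    rintro ⟨μ, hμ⟩ ⟨ν, hν⟩ he
    by_contra hne
    have hne' : μ ≠ ν := fun e => hne (Subtype.ext e)
    have e1 := hres (q μ)
    have e2 := hres (q ν)
    have hab : (res (q μ)) % (p : ℤ) = (res (q ν)) % (p : ℤ) := by
      have h3 := Int.emod_nonneg (res (q μ)) (show (p : ℤ) ≠ 0 by exact_mod_cast hp.out.ne_zero)
      have h4 := Int.emod_nonneg (res (q ν)) (show (p : ℤ) ≠ 0 by exact_mod_cast hp.out.ne_zero)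
      have := congrArg Fin.val he
      simp only [f] at this
      omega
    have h5 := (IsCyclotomicExtension.Rat.zeta_sub_one_dvd_intCast_iff' p hζ).2
      (Int.dvd_of_emod_eq_zero (Int.emod_eq_emod_iff_emod_sub_eq_zero.1 hab))
    push_cast at h5
    have h6 : l ∣ q μ - q ν := by
      have : q μ - q ν = (q μ - (res (q μ))) + (((res (q μ)) : 𝓞 K) - (res (q ν))) - (q ν - (res (q ν))) := by ring
      rw [this]
      exact dvd_sub (dvd_add e1 h5) e2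
    obtain ⟨u, hu⟩ := hassoc μ hμ ν hν hne'
    have e3 : q μ - q ν = (u : 𝓞 K) * β := mul_left_cancel₀ hlp.ne_zero (by
      linear_combination (hq ν hν) - (hq μ hμ) - β * hu)
    rw [e3] at h6
    exact hβ ((Units.dvd_mul_left).1 h6)
  have hbij : Function.Bijective f :=
    (Fintype.bijective_iff_injective_and_card f).2 ⟨hf, by simp [hcardR]⟩
  obtain ⟨⟨μ0, hμ0⟩, h0⟩ := hbij.2 ⟨0, hp.out.pos⟩
  have hdiv : l ∣ q μ0 := by
    have e1 := hres (q μ0)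
    have : (res (q μ0)) % (p : ℤ) = 0 := by
      have h3 := Int.emod_nonneg (res (q μ0)) (show (p : ℤ) ≠ 0 by exact_mod_cast hp.out.ne_zero)
      have := congrArg Fin.val h0
      simp only [f] at this
      omega
    have h5 := (IsCyclotomicExtension.Rat.zeta_sub_one_dvd_intCast_iff' p hζ).2
      (Int.dvd_of_emod_eq_zero this)
    simpa using dvd_add e1 h5
  have hμp : μ0 ^ p = 1 := (mem_nthRootsFinset hp.out.pos 1).1 hμ0
  refine kummer_step_normalized hζ hodd hU α (μ0 * β) γ ε m hm hγ ?_ ?_ ?_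
  · exact (isCoprime_mul_unit_left_right (IsUnit.of_pow_eq_one hμp hp.out.ne_zero) _ _).2 hco
  · rw [mul_pow, hμp, one_mul, heq]
  · rw [hq μ0 hμ0, pow_two]
    exact mul_dvd_mul_left _ hdiv

include hζ in
theorem kummer_descent (hodd : p ≠ 2) (hU : KummerUnits p K) :
    ∀ (m : ℕ) (α β γ : 𝓞 K) (ε : (𝓞 K)ˣ), 1 ≤ m → ¬ hζ.toInteger - 1 ∣ γ → IsCoprime α β →
      α ^ p + β ^ p ≠ ε * (hζ.toInteger - 1) ^ (p * m) * γ ^ p := by
  intro m
  induction m using Nat.strong_induction_on with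
  | _ m IH =>
    intro α β γ ε hm hγ hco heq
    obtain ⟨hm2, α', β', γ', ε', hγ', hco', heq'⟩ :=
      kummer_step hζ hodd hU α β γ ε m hm hγ hco heq
    exact IH (m - 1) (by omega) α' β' γ' ε' (by omega) hγ' hco' heq'

include hζ in
/-- The second case over the integers. -/
theorem flt_second_case (hodd : p ≠ 2) (hU : KummerUnits p K) (a b c : ℤ)
    (hab : IsCoprime a b) (hc0 : c ≠ 0) (hpc : (p : ℤ) ∣ c) : a ^ p + b ^ p ≠ c ^ p := by
  intro h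
  obtain ⟨k, c', hpc', rfl⟩ := WfDvdMonoid.max_power_factor hc0
    (Nat.prime_iff_prime_int.1 hp.out).irreducible
  have hk : 1 ≤ k := by
    rcases k with _ | k
    · simp at hpc; exact absurd hpc hpc'
    · omega
  obtain ⟨v, hv⟩ := lam_pow_associated hζ
  refine kummer_descent hζ hodd hU ((p - 1) * k) (a : 𝓞 K) (b : 𝓞 K) (c' : 𝓞 K) (v ^ (k * p))
    (Nat.one_le_iff_ne_zero.2 (Nat.mul_ne_zero (by have := hp.out.two_le; omega) (by omega)))
    (fun h' => hpc' ((IsCyclotomicExtension.Rat.zeta_sub_one_dvd_intCast_iff' p hζ).1 h'))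
    (by simpa using hab.map (Int.castRingHom (𝓞 K))) ?_
  have := congrArg (Int.cast : ℤ → 𝓞 K) h
  push_cast at this
  rw [this, mul_pow, ← hv, mul_pow, mul_pow, ← pow_mul, ← pow_mul, ← pow_mul,
    Units.val_pow_eq_pow_val, show p * ((p - 1) * k) = (p - 1) * (k * p) by ring]
  ring

end FLTAgent.SmallLevel
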