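import Fermat.Agent.SmallLevel.KummerDescent

set_option autoImplicit false

namespace FLTAgent.SmallLevel

open NumberField Ideal Finset

variable {p : ℕ} [hp : Fact p.Prime] {K : Type*} [Field K] [NumberField K]
  [IsCyclotomicExtension {p} ℚ K] {ζ : K} (hζ : IsPrimitiveRoot ζ p)

lemma one_add_pow_of_sq_zero {Q : Type*} [CommRing Q] (x : Q) (hx : x * x = 0) (e : ℕ) :
    (1 + x) ^ e = 1 + e * x := by
  induction e with
  | zero => simp
  | succ e ih =>
    rw [pow_succ, ih]; push_cast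
    linear_combination (e : Q) * hx

include hζ in
lemma pow_prime_sub_one_dvd (x : 𝓞 K) (hx : hζ.toInteger - 1 ∣ x - 1) :
    (p : 𝓞 K) ∣ x ^ p - 1 := by
  obtain ⟨y, hy⟩ := hx
  obtain ⟨r, hr⟩ := exists_add_pow_prime_eq hp.out (1 : 𝓞 K) ((hζ.toInteger - 1) * y)
  rw [← hy, add_sub_cancel, hy, one_pow, mul_pow] at hr
  obtain ⟨s, hs⟩ := ((lam_pow_associated hζ).symm.dvd.trans
    (pow_dvd_pow (hζ.toInteger - 1) (Nat.sub_le p 1))).mul_right (y ^ p)
  exact ⟨s + (hζ.toInteger - 1) * y * r, by rw [hr]; linear_combination hs⟩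

include hζ in
/-- Triangular units are independent modulo `p`-th powers and integers. -/
lemma units_independent {n : ℕ} (w : Fin n → (𝓞 K)ˣ) (d : Fin n → ℕ) (hd : StrictMono d)
    (hd1 : ∀ k, 1 ≤ d k) (hdp : ∀ k, d k + 1 ≤ p - 1)
    (hw : ∀ k, ∃ a : ℤ, ¬ (p : ℤ) ∣ a ∧
      (hζ.toInteger - 1) ^ (d k + 1) ∣ (w k : 𝓞 K) - (1 + a * (hζ.toInteger - 1) ^ d k))
    (e : Fin n → ℕ) (m : ℤ) (he : (p : 𝓞 K) ∣ ((∏ k, w k ^ e k : (𝓞 K)ˣ) : 𝓞 K) - m) :
    ∀ k, p ∣ e k := by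
  intro k
  induction k using WellFoundedLT.induction with
  | _ k0 IH =>
  set l := hζ.toInteger - 1 with hl
  have hlp : Prime l := hζ.zeta_sub_one_prime'
  obtain ⟨a, ha, haw⟩ := hw k0
  let π := Ideal.Quotient.mk (span {l ^ (d k0 + 1)})
  have hdvd : ∀ x : 𝓞 K, l ^ (d k0 + 1) ∣ x → π x = 0 := fun x hx =>
    Ideal.Quotient.eq_zero_iff_mem.2 (mem_span_singleton.2 hx)
  have hp0 : l ^ (d k0 + 1) ∣ (p : 𝓞 K) :=
    (pow_dvd_pow l (hdp k0)).trans (lam_pow_associated hζ).dvd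
  have hL : π l ^ (d k0 + 1) = 0 := by rw [← map_pow]; exact hdvd _ dvd_rfl
  have hwk0 : π (w k0) = 1 + (a : _) * π l ^ d k0 := by
    have := hdvd _ haw
    simpa [sub_eq_zero] using this
  have hother : ∀ k ≠ k0, π (w k) ^ e k = 1 := by
    intro k hk
    rcases lt_or_gt_of_ne hk with hlt | hgt
    · obtain ⟨e', he'⟩ := IH k hlt
      obtain ⟨b, -, hb⟩ := hw k
      have h1 : l ∣ (w k : 𝓞 K) - 1 := by
        have h2 : (w k : 𝓞 K) - 1 = ((w k : 𝓞 K) - (1 + b * l ^ d k)) + b * l ^ d k := by ring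
        rw [h2]
        exact dvd_add ((dvd_pow_self l (Nat.succ_ne_zero _)).trans hb)
          ((dvd_pow_self l (by have := hd1 k; omega)).mul_left _)
      have h3 := hdvd _ (hp0.trans (pow_prime_sub_one_dvd hζ _ h1))
      rw [map_sub, map_one, map_pow, sub_eq_zero] at h3
      rw [he', pow_mul, h3, one_pow]
    · obtain ⟨b, -, hb⟩ := hw k
      have hlt : d k0 + 1 ≤ d k := hd hgt
      have h2 := hdvd _ ((pow_dvd_pow l (by omega : d k0 + 1 ≤ d k + 1)).trans hb)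
      have h3 := hdvd _ ((pow_dvd_pow l hlt).mul_left (b : 𝓞 K))
      rw [map_sub, sub_eq_zero, map_add, h3, map_one, add_zero] at h2
      rw [h2, one_pow]
  have hprod : π ((∏ k, w k ^ e k : (𝓞 K)ˣ) : 𝓞 K) = 1 + ((e k0 * a : ℤ) : _) * π l ^ d k0 := by
    rw [Units.coe_prod, map_prod, Finset.prod_eq_single k0]
    · rw [Units.val_pow_eq_pow_val, map_pow, hwk0, one_add_pow_of_sq_zero]
      · push_cast; ring
      · have : π l ^ d k0 * π l ^ d k0 = 0 := by
          rw [← pow_add]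
          exact pow_eq_zero_of_le (by have := hd1 k0; omega) hL
        linear_combination ((a : _) * (a : _)) * this
    · intro b _ hb
      rw [Units.val_pow_eq_pow_val, map_pow, hother b hb]
    · exact fun h => absurd (Finset.mem_univ k0) h
  have h0 := hdvd _ (hp0.trans he)
  rw [map_sub, hprod, map_intCast] at h0
  have h4 : l ^ (d k0 + 1) ∣ 1 + ((e k0 * a : ℤ) : 𝓞 K) * l ^ d k0 - (m : 𝓞 K) := by
    rw [← mem_span_singleton, ← Ideal.Quotient.eq_zero_iff_mem]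
    simpa [π] using h0
  have h5 : l ∣ ((1 - m : ℤ) : 𝓞 K) := by
    have := (dvd_pow_self l (Nat.succ_ne_zero _)).trans h4
    have h6 := dvd_sub this
      ((dvd_pow_self l (by have := hd1 k0; omega : d k0 ≠ 0)).mul_left ((e k0 * a : ℤ) : 𝓞 K))
    push_cast at h6 ⊢
    convert h6 using 1
    ring
  have h7 : (p : 𝓞 K) ∣ ((1 - m : ℤ) : 𝓞 K) := by
    obtain ⟨t, ht⟩ := (IsCyclotomicExtension.Rat.zeta_sub_one_dvd_intCast_iff' p hζ).1 h5
    exact ⟨t, by rw [ht]; push_cast; ring⟩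
  have h8 : l ^ (d k0 + 1) ∣ ((e k0 * a : ℤ) : 𝓞 K) * l ^ d k0 := by
    have h9 := dvd_sub h4 (hp0.trans h7)
    push_cast at h9 ⊢
    convert h9 using 1
    ring
  rw [pow_succ', mul_dvd_mul_iff_right (pow_ne_zero _ hlp.ne_zero),
    IsCyclotomicExtension.Rat.zeta_sub_one_dvd_intCast_iff' p hζ,
    (Nat.prime_iff_prime_int.1 hp.out).dvd_mul] at h8
  exact Int.natCast_dvd_natCast.1 (h8.resolve_right ha)

include hζ in
theorem kummerUnits_of_independent (hodd : p ≠ 2)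
    (w : Fin (Units.rank K + 1) → (𝓞 K)ˣ)
    (hind : ∀ e : Fin (Units.rank K + 1) → ℕ,
      (∃ m : ℤ, (p : 𝓞 K) ∣ ((∏ k, w k ^ e k : (𝓞 K)ˣ) : 𝓞 K) - m) → ∀ k, p ∣ e k) :
    KummerUnits p K := by
  classical
  have : NeZero p := ⟨hp.out.ne_zero⟩
  let z : (𝓞 K)ˣ := (hζ.toInteger_isPrimitiveRoot.isUnit hp.out.ne_zero).unit
  let g : Fin (Units.rank K + 1) → (𝓞 K)ˣ := Fin.cons z (Units.fundSystem K)
  let N : Subgroup (𝓞 K)ˣ := (powMonoidHom p).range
  let q : (𝓞 K)ˣ →* (𝓞 K)ˣ ⧸ N := QuotientGroup.mk' N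
  have hqp : ∀ x, q x ^ p = 1 := fun x => by
    rw [← map_pow]
    exact (QuotientGroup.eq_one_iff _).2 ⟨x, rfl⟩
  have hzpow : ∀ (x : (𝓞 K)ˣ) (e : ℤ), q x ^ e = q x ^ ((e : ZMod p).val) := by
    intro x e
    rw [← zpow_natCast (q x) ((e : ZMod p).val), ZMod.val_intCast]
    exact zpow_eq_zpow_emod e (by rw [zpow_natCast]; exact hqp x)
  let ψ : (Fin (Units.rank K + 1) → ZMod p) → (𝓞 K)ˣ ⧸ N := fun e => ∏ k, q (g k) ^ (e k).val
  let φ : (Fin (Units.rank K + 1) → ZMod p) → (𝓞 K)ˣ ⧸ N := fun e => ∏ k, q (w k) ^ (e k).val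
  have hψ : Function.Surjective ψ := by
    intro x
    obtain ⟨u, rfl⟩ := QuotientGroup.mk'_surjective N x
    obtain ⟨⟨t, f⟩, hu, -⟩ := Units.exist_unique_eq_mul_prod K u
    obtain ⟨j, hj⟩ : ∃ j : ℤ, q (t : (𝓞 K)ˣ) = q z ^ j := by
      have h2 : (t : (𝓞 K)ˣ) ^ (2 * p) = 1 := by
        have : t ^ Units.torsionOrder K = 1 := by
          exact pow_card_eq_one'
        rw [IsCyclotomicExtension.Rat.torsionOrder_eq (n := p) (K := K),
          if_neg (Nat.not_even_iff_odd.2 (hp.out.odd_of_ne_two hodd))] at this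
        exact_mod_cast congrArg (Subtype.val) this
      have h3 : ((((t : (𝓞 K)ˣ)) ^ 2 : (𝓞 K)ˣ) : 𝓞 K) ^ p = 1 := by
        rw [← Units.val_pow_eq_pow_val, ← pow_mul, h2, Units.val_one]
      obtain ⟨i, -, hi⟩ := hζ.toInteger_isPrimitiveRoot.eq_pow_of_pow_eq_one h3
      have hi' : z ^ i = (t : (𝓞 K)ˣ) ^ 2 :=
        Units.ext (by simpa [z] using hi)
      obtain ⟨c, hc⟩ := hp.out.odd_of_ne_two hodd
      refine ⟨(i * (c + 1) : ℕ), ?_⟩
      rw [zpow_natCast, pow_mul, ← map_pow q z i, hi', map_pow, ← pow_mul,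
        show 2 * (c + 1) = p + 1 by omega, pow_succ, hqp]
      exact (one_mul (q (t : (𝓞 K)ˣ))).symm
    refine ⟨Fin.cons (j : ZMod p) (fun i => (f i : ZMod p)), ?_⟩
    simp only [ψ, g, Fin.prod_univ_succ, Fin.cons_zero, Fin.cons_succ]
    simp only [← hzpow]
    change _ = q u
    rw [hu, map_mul, map_prod, hj]
    simp [map_zpow]
  have : Finite ((𝓞 K)ˣ ⧸ N) := Finite.of_surjective ψ hψ
  have key : ∀ e : Fin (Units.rank K + 1) → ℕ, q (∏ k, w k ^ e k) = 1 → ∀ k, p ∣ e k := by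
    intro e he
    obtain ⟨v, hv⟩ := (QuotientGroup.eq_one_iff _).1 he
    obtain ⟨n, hn, -⟩ := exists_int_pow_sub hζ (v : 𝓞 K)
    refine hind e ⟨n ^ p, ?_⟩
    rw [← hv]
    push_cast
    simpa using hn
  have hφ : Function.Injective φ := by
    intro e e' h
    have hk : ∀ k, p ∣ (e k).val + (p - 1) * (e' k).val := by
      refine key _ ?_
      rw [map_prod]
      simp only [pow_add, pow_mul, map_mul, map_pow, Finset.prod_mul_distrib]
      have : ∏ k, (q (w k) ^ (p - 1)) ^ (e' k).val = (∏ k, q (w k) ^ (e' k).val) ^ (p - 1) := by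
        rw [← Finset.prod_pow]
        exact Finset.prod_congr rfl fun k _ => by rw [← pow_mul, ← pow_mul, mul_comm]
      rw [this]
      change φ e * (φ e') ^ (p - 1) = 1
      rw [← h, ← pow_succ', Nat.sub_add_cancel hp.out.one_le]
      simp only [φ, ← Finset.prod_pow]
      exact Finset.prod_eq_one fun k _ => by rw [pow_right_comm, hqp, one_pow]
    funext k
    have := (ZMod.natCast_eq_zero_iff _ p).2 (hk k)
    push_cast [Nat.cast_sub hp.out.one_le] at this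
    simp only [ZMod.natCast_val, ZMod.cast_id', id_eq, ZMod.natCast_self] at this
    linear_combination this
  have hbij : Function.Surjective φ := by
    have h1 : Nat.card ((𝓞 K)ˣ ⧸ N) ≤ Nat.card (Fin (Units.rank K + 1) → ZMod p) :=
      Nat.card_le_card_of_surjective ψ hψ
    exact (hφ.bijective_of_nat_card_le h1).2
  intro u hu
  obtain ⟨m, hm⟩ := hu
  obtain ⟨e, he⟩ := hbij (q u)
  have he' : q u = q (∏ k, w k ^ (e k).val) := by
    rw [← he, map_prod]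
    exact Finset.prod_congr rfl fun k _ => (map_pow q _ _).symm
  obtain ⟨v, hv⟩ := QuotientGroup.eq.1 he'
  change v ^ p = _ at hv
  have hu' : ∏ k, w k ^ (e k).val = u * v ^ p := by rw [hv, mul_inv_cancel_left]
  obtain ⟨n, hn, -⟩ := exists_int_pow_sub hζ (v : 𝓞 K)
  have hall : ∀ k, p ∣ (e k).val := by
    refine hind _ ⟨m * n ^ p, ?_⟩
    rw [hu']
    obtain ⟨s, hs⟩ := hm
    obtain ⟨t, ht⟩ := hn
    refine ⟨(v : 𝓞 K) ^ p * s + (m : 𝓞 K) * t, ?_⟩
    push_cast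
    linear_combination ((v : 𝓞 K) ^ p) * hs + (m : 𝓞 K) * ht
  have hzero : ∀ k, (e k).val = 0 := fun k =>
    Nat.eq_zero_of_dvd_of_lt (hall k) (ZMod.val_lt _)
  simp only [hzero, pow_zero, Finset.prod_const_one] at hu'
  exact ⟨v⁻¹, by rw [inv_pow]; exact eq_inv_of_mul_eq_one_left hu'.symm⟩

end FLTAgent.SmallLevel
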