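import Mathlib

set_option autoImplicit false

/-!
The descent for `X₀(15)`.
-/

namespace FLTAgent.SmallLevel

lemma sq_emod_eight (z : ℤ) (hz : z % 2 = 1) : z ^ 2 % 8 = 1 := by
  rw [pow_two, Int.mul_emod]
  have : z % 8 = 1 ∨ z % 8 = 3 ∨ z % 8 = 5 ∨ z % 8 = 7 := by omega
  rcases this with h | h | h | h <;> rw [h] <;> norm_num

lemma sq_emod_eight' (z : ℤ) : z ^ 2 % 8 = 0 ∨ z ^ 2 % 8 = 1 ∨ z ^ 2 % 8 = 4 := by
  rw [pow_two, Int.mul_emod]
  have : z % 8 = 0 ∨ z % 8 = 1 ∨ z % 8 = 2 ∨ z % 8 = 3 ∨ z % 8 = 4 ∨ z % 8 = 5 ∨ z % 8 = 6 ∨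
      z % 8 = 7 := by omega
  rcases this with h | h | h | h | h | h | h | h <;> rw [h] <;> norm_num

lemma sq_even_iff (z : ℤ) : z ^ 2 % 2 = z % 2 := by
  rw [pow_two, Int.mul_emod]
  rcases Int.emod_two_eq z with h | h <;> rw [h] <;> norm_num

lemma square_of_sq_mul {γ P T : ℤ} (hγ : γ ≠ 0) (h : γ ^ 2 * P = T ^ 2) :
    ∃ R : ℤ, P = R ^ 2 := by
  obtain ⟨R, rfl⟩ : γ ∣ T := (Int.pow_dvd_pow_iff two_ne_zero).1 ⟨P, h.symm⟩
  exact ⟨R, mul_left_cancel₀ (pow_ne_zero 2 hγ) (by rw [h]; ring)⟩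

/-- Square splitting when the only possible common prime is `5`. -/
lemma split_five {A B R : ℤ} (hA : 0 < A) (h : A * B = R ^ 2)
    (hq : ∀ q : ℕ, q.Prime → (q : ℤ) ∣ A → (q : ℤ) ∣ B → q = 5) :
    (∃ u v : ℤ, A = u ^ 2 ∧ B = v ^ 2) ∨ (∃ u v : ℤ, A = 5 * u ^ 2 ∧ B = 5 * v ^ 2) := by
  have hB : 0 ≤ B := nonneg_of_mul_nonneg_right (h ▸ sq_nonneg R) hA
  set g := Int.gcd A B with hg
  have hg0 : g ≠ 0 := fun e => hA.ne' (Int.gcd_eq_zero_iff.1 e).1
  obtain ⟨k, hk⟩ : ∃ k, g = 5 ^ k := ⟨_, Nat.eq_prime_pow_of_unique_prime_dvd hg0 fun {d} hd hdg =>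
    hq d hd ((Int.natCast_dvd_natCast.2 hdg).trans (Int.gcd_dvd_left _ _))
      ((Int.natCast_dvd_natCast.2 hdg).trans (Int.gcd_dvd_right _ _))⟩
  obtain ⟨g', A', B', hg', hcop, rfl, rfl⟩ := Int.exists_gcd_one (Nat.pos_of_ne_zero hg0) |>
    fun ⟨a, b, h1, h2, h3⟩ => (⟨(g : ℤ), a, b, rfl, h1, h2, h3⟩ :
      ∃ g' A' B' : ℤ, g' = (g : ℤ) ∧ Int.gcd A' B' = 1 ∧ A = A' * g' ∧ B = B' * g')
  have hgne : g' ≠ 0 := by rw [hg']; exact_mod_cast hg0
  have hgpos : 0 < g' := by rw [hg']; exact_mod_cast Nat.pos_of_ne_zero hg0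
  have hA' : 0 < A' := pos_of_mul_pos_left hA hgpos.le
  have hB' : 0 ≤ B' := nonneg_of_mul_nonneg_left hB hgpos
  obtain ⟨R', hR'⟩ := square_of_sq_mul hgne (P := A' * B') (T := R) (by rw [← h]; ring)
  have hsq : ∀ x y : ℤ, 0 ≤ x → Int.gcd x y = 1 → x * y = R' ^ 2 → ∃ u, x = u ^ 2 := by
    intro x y hx hxy he
    obtain ⟨u, hu | hu⟩ := Int.sq_of_gcd_eq_one hxy he
    · exact ⟨u, hu⟩
    · exact ⟨0, by have := sq_nonneg u; have : x = 0 := by omega
                   simp [this]⟩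
  obtain ⟨u, rfl⟩ := hsq A' B' hA'.le hcop hR'
  obtain ⟨v, rfl⟩ := hsq B' (u ^ 2) hB' (by rwa [Int.gcd_comm]) (by rw [← hR']; ring)
  rw [hk] at hg'
  push_cast at hg'
  rcases Nat.even_or_odd' k with ⟨j, rfl | rfl⟩
  · exact Or.inl ⟨u * 5 ^ j, v * 5 ^ j, by rw [hg']; ring,
      by rw [hg']; ring⟩
  · exact Or.inr ⟨u * 5 ^ j, v * 5 ^ j, by rw [hg']; ring,
      by rw [hg']; ring⟩

lemma triple_param {x y z : ℤ} (h : x * x + y * y = z * z) (hxy : IsCoprime x y) (hx : x % 2 = 1) :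
    ∃ p q : ℤ, x = p ^ 2 - q ^ 2 ∧ y = 2 * p * q ∧ |z| = p ^ 2 + q ^ 2 ∧ IsCoprime p q ∧
      (p % 2 = 0 ∧ q % 2 = 1 ∨ p % 2 = 1 ∧ q % 2 = 0) := by
  have hz : z ≠ 0 := by
    rintro rfl
    have h1 := mul_self_nonneg y
    have h2 : x ≠ 0 := by omega
    have h3 := mul_self_pos.2 h2
    linarith
  have ht : PythagoreanTriple x y |z| := by
    unfold PythagoreanTriple; rw [abs_mul_abs_self]; exact h
  obtain ⟨p, q, h1, h2, h3, h4, h5, -⟩ :=
    ht.coprime_classification' (Int.isCoprime_iff_gcd_eq_one.1 hxy) hx (abs_pos.2 hz)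
  exact ⟨p, q, h1, h2, h3, Int.isCoprime_iff_gcd_eq_one.2 h4, h5⟩

lemma four_number {a b c d : ℤ} (h : a * b = c * d) (hc : c ≠ 0) :
    ∃ α β γ δ : ℤ, a = α * β ∧ b = γ * δ ∧ c = α * γ ∧ d = β * δ := by
  obtain ⟨α, γ, ⟨β, rfl⟩, ⟨δ, rfl⟩, rfl⟩ := exists_dvd_and_dvd_of_dvd_mul ⟨d, h⟩
  exact ⟨α, β, γ, δ, rfl, rfl, rfl, mul_left_cancel₀ hc (by rw [← h]; ring)⟩

lemma coprime_factors {α β γ δ : ℤ} (h : IsCoprime (α * β) (γ * δ)) :
    IsCoprime α δ ∧ IsCoprime α γ ∧ IsCoprime β δ ∧ IsCoprime β γ :=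
  ⟨h.of_mul_left_left.of_mul_right_right, h.of_mul_left_left.of_mul_right_left,
    h.of_mul_left_right.of_mul_right_right, h.of_mul_left_right.of_mul_right_left⟩

/-- `N² + k²` and `N² + 16 k²` are both squares only trivially. -/
lemma concordant_aux : ∀ (n : ℕ) (N k g h : ℤ), N.natAbs + k.natAbs = n → IsCoprime N k →
    N ^ 2 + k ^ 2 = g ^ 2 → N ^ 2 + 16 * k ^ 2 = h ^ 2 → N * k = 0 := by
  intro n
  induction n using Nat.strong_induction_on with
  | _ n IH =>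
  intro N k g h hn hcop hg hh
  by_contra h0
  have hN : N ≠ 0 := fun e => h0 (by simp [e])
  have hk : k ≠ 0 := fun e => h0 (by simp [e])
  rcases Int.emod_two_eq N with hNev | hNodd
  · -- `N` even
    have hkodd : k % 2 = 1 := by
      rcases Int.emod_two_eq k with e | e
      · exact absurd (hcop.isUnit_of_dvd' (Int.dvd_of_emod_eq_zero hNev) (Int.dvd_of_emod_eq_zero e))
          (by decide)
      · exact e
    obtain ⟨N', rfl⟩ := Int.dvd_of_emod_eq_zero hNev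
    obtain ⟨h', rfl⟩ : (2 : ℤ) ∣ h := by
      have h1 := sq_even_iff h
      have e : h ^ 2 = 2 * (2 * N' ^ 2 + 8 * k ^ 2) := by linarith
      omega
    rcases Int.emod_two_eq N' with hN'ev | hN'odd
    · obtain ⟨N'', rfl⟩ := Int.dvd_of_emod_eq_zero hN'ev
      obtain ⟨h'', rfl⟩ : (2 : ℤ) ∣ h' := by
        have h1 := sq_even_iff h'
        have e : h' ^ 2 = 2 * (2 * N'' ^ 2 + 2 * k ^ 2) := by linarith
        omega
      have := IH (k.natAbs + N''.natAbs) (by omega) k N'' h'' g rfl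
        hcop.of_mul_left_right.of_mul_left_right.symm (by linarith) (by linarith)
      rcases mul_eq_zero.1 this with e | e
      · exact hk e
      · exact hN (by rw [e]; ring)
    · have hc2 : IsCoprime N' (2 * k) := IsCoprime.mul_right
        (Int.isCoprime_iff_gcd_eq_one.2 (by
          rw [Int.gcd_comm]
          refine Nat.coprime_two_left.2 ?_
          rw [Nat.odd_iff]; omega)) hcop.of_mul_left_right
      obtain ⟨p, q, -, e2, -, -, hpq⟩ := triple_param (z := h') (by linarith) hc2 hN'odd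
      have : k = p * q := by linarith
      have h2 : (p * q) % 2 = 0 := by
        rcases hpq with ⟨e, -⟩ | ⟨-, e⟩ <;> rw [Int.mul_emod, e] <;> simp
      omega
  · -- `N` odd
    obtain ⟨A₀, B₀, eN, ek, -, hAB₀, hpar₀⟩ :=
      triple_param (x := N) (y := k) (z := g) (by linarith) hcop hNodd
    have hc4 : IsCoprime N (4 * k) := IsCoprime.mul_right
      (Int.isCoprime_iff_gcd_eq_one.2 (by
        rw [Int.gcd_comm]
        show Nat.Coprime (2 ^ 2) N.natAbs
        refine Nat.Coprime.pow_left 2 (Nat.coprime_two_left.2 ?_)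
        rw [Nat.odd_iff]; omega)) hcop
    obtain ⟨C₀, D₀, eN', ek', -, hCD₀, hpar₀'⟩ :=
      triple_param (x := N) (y := 4 * k) (z := h) (by linarith) hc4 hNodd
    have hmin : A₀.natAbs + B₀.natAbs < n := by
      have hA : A₀ ≠ 0 := fun e => hk (by rw [ek, e]; ring)
      have hB : B₀ ≠ 0 := fun e => hk (by rw [ek, e]; ring)
      have e : k.natAbs = 2 * A₀.natAbs * B₀.natAbs := by rw [ek]; simp [Int.natAbs_mul]
      have h1 : 0 < A₀.natAbs := Int.natAbs_pos.2 hA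
      have h2 : 0 < B₀.natAbs := Int.natAbs_pos.2 hB
      have h3 : A₀.natAbs + B₀.natAbs ≤ k.natAbs := by rw [e]; nlinarith
      have := Int.natAbs_pos.2 hN
      omega
    -- normalise the parities
    obtain ⟨A, B, C, D, hAev, hBodd, hAB, hsum, eq1, eq2, hmin, hkAB⟩ : ∃ A B C D : ℤ,
        A % 2 = 0 ∧ B % 2 = 1 ∧ IsCoprime A B ∧ (C % 2 = 0 ∧ D % 2 = 1 ∨ C % 2 = 1 ∧ D % 2 = 0) ∧
        A ^ 2 - B ^ 2 = C ^ 2 - D ^ 2 ∧ 4 * (A * B) = C * D ∧ A.natAbs + B.natAbs < n ∧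
        k = 2 * (A * B) := by
      rcases hpar₀ with ⟨e1, e2⟩ | ⟨e1, e2⟩
      · exact ⟨A₀, B₀, C₀, D₀, e1, e2, hAB₀, hpar₀', by linarith, by linarith, hmin, by linarith⟩
      · refine ⟨B₀, A₀, D₀, C₀, e2, e1, hAB₀.symm, ?_, by linarith, by linarith, by omega, by linarith⟩
        exact hpar₀'.elim (fun h => Or.inr ⟨h.2, h.1⟩) (fun h => Or.inl ⟨h.2, h.1⟩)
    have hCev : C % 2 = 0 ∧ D % 2 = 1 := by
      rcases hsum with h' | ⟨hC1, hD0⟩
      · exact h'
      · exfalso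
        obtain ⟨A', rfl⟩ := Int.dvd_of_emod_eq_zero hAev
        obtain ⟨D', rfl⟩ := Int.dvd_of_emod_eq_zero hD0
        have b := sq_emod_eight B hBodd
        have c := sq_emod_eight C hC1
        have e : B ^ 2 + C ^ 2 = 4 * (A' ^ 2 + D' ^ 2) := by linarith
        omega
    obtain ⟨C', rfl⟩ : (4 : ℤ) ∣ C := by
      have : IsCoprime (4 : ℤ) D := by
        rw [Int.isCoprime_iff_gcd_eq_one]
        show Nat.Coprime (2 ^ 2) D.natAbs
        refine Nat.Coprime.pow_left 2 (Nat.coprime_two_left.2 ?_)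
        rw [Nat.odd_iff]; omega
      exact this.dvd_of_dvd_mul_right ⟨A * B, eq2.symm⟩
    have hAB0 : A * B ≠ 0 := fun e => hk (by rw [hkAB, e, mul_zero])
    have hC0 : C' ≠ 0 := fun e => hAB0 (by rw [e] at eq2; linarith)
    obtain ⟨α, β, γ, δ, rfl, rfl, rfl, rfl⟩ := four_number (a := A) (b := B) (c := C') (d := D)
      (by linarith) hC0
    obtain ⟨hαδ, hαγ, hβδ, hβγ⟩ := coprime_factors hAB
    have hmain : β ^ 2 * (α ^ 2 + δ ^ 2) = γ ^ 2 * (16 * α ^ 2 + δ ^ 2) := by linear_combination eq1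
    have hγ : γ ≠ 0 := fun e => hC0 (by rw [e]; ring)
    have hα : α ≠ 0 := fun e => hC0 (by rw [e]; ring)
    have hδ : δ ≠ 0 := by rintro rfl; simp at hBodd
    obtain ⟨R, hR⟩ := square_of_sq_mul hγ (P := (α ^ 2 + δ ^ 2) * (16 * α ^ 2 + δ ^ 2))
      (T := β * (α ^ 2 + δ ^ 2)) (by linear_combination -(α ^ 2 + δ ^ 2) * hmain)
    have hδodd : δ % 2 = 1 := by
      rcases Int.emod_two_eq δ with e | e
      · rw [Int.mul_emod, e] at hBodd; simp at hBodd
      · exact e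
    have hβodd : β % 2 = 1 := by
      rcases Int.emod_two_eq β with e | e
      · have := hCev.2; rw [Int.mul_emod, e] at this; simp at this
      · exact e
    have hαev : α % 2 = 0 := by
      rcases Int.emod_two_eq α with e | e
      · exact e
      · rw [Int.mul_emod, e, hβodd] at hAev; simp at hAev
    rcases split_five (by positivity) hR (fun q hq hqa hqb => by
      have h1 : (q : ℤ) ∣ 15 * α ^ 2 := by
        have := dvd_sub hqb hqa; ring_nf at this ⊢; exact this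
      have h2 : (q : ℤ) ∣ 15 * δ ^ 2 := by
        have := dvd_sub (hqa.mul_left 16) hqb; ring_nf at this ⊢; exact this
      have h15 : (q : ℤ) ∣ 15 := by
        obtain ⟨u, v, huv⟩ := (hαδ.pow (m := 2) (n := 2))
        have : (15 : ℤ) = u * (15 * α ^ 2) + v * (15 * δ ^ 2) := by linear_combination -15 * huv
        rw [this]; exact dvd_add (h1.mul_left u) (h2.mul_left v)
      have h15' : q ∣ 3 * 5 := Int.natCast_dvd_natCast.1 h15
      rcases hq.dvd_mul.1 h15' with h3 | h5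
      · exfalso
        have hq3 : q = 3 := (Nat.prime_dvd_prime_iff_eq hq Nat.prime_three).1 h3
        subst hq3
        have h9 : ((α ^ 2 + δ ^ 2 : ℤ) : ZMod 3) = 0 := (ZMod.intCast_zmod_eq_zero_iff_dvd _ _).2 hqa
        push_cast at h9
        have key : ∀ a d : ZMod 3, a ^ 2 + d ^ 2 = 0 → a = 0 ∧ d = 0 := by decide
        obtain ⟨ha, hd⟩ := key _ _ h9
        exact absurd (hαδ.isUnit_of_dvd' ((ZMod.intCast_zmod_eq_zero_iff_dvd _ _).1 ha)
          ((ZMod.intCast_zmod_eq_zero_iff_dvd _ _).1 hd)) (by decide)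
      · exact (Nat.prime_dvd_prime_iff_eq hq Nat.prime_five).1 h5) with
      ⟨u, v, hu, hv⟩ | ⟨u, v, hu, hv⟩
    · have hlt : δ.natAbs + α.natAbs ≤ (α * β).natAbs + (γ * δ).natAbs := by
        rw [Int.natAbs_mul, Int.natAbs_mul]
        have h1 : 1 ≤ β.natAbs := by omega
        have h2 : 1 ≤ γ.natAbs := Int.natAbs_pos.2 hγ
        have := Nat.le_mul_of_pos_right α.natAbs h1
        have := Nat.le_mul_of_pos_left δ.natAbs h2
        linarith
      have := IH _ (lt_of_le_of_lt hlt hmin) δ α u v rfl hαδ.symm (by linarith) (by linarith)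
      exact (mul_ne_zero hδ hα) this
    · obtain ⟨a', rfl⟩ := Int.dvd_of_emod_eq_zero hαev
      have d8 := sq_emod_eight δ hδodd
      have e : δ ^ 2 + 64 * a' ^ 2 = 5 * v ^ 2 := by linarith
      rcases sq_emod_eight' v with hv' | hv' | hv' <;> omega

lemma concordant (N k g h : ℤ) (hcop : IsCoprime N k) (hg : N ^ 2 + k ^ 2 = g ^ 2)
    (hh : N ^ 2 + 16 * k ^ 2 = h ^ 2) : N * k = 0 :=
  concordant_aux _ N k g h rfl hcop hg hh

lemma coprime_of_prime_dvd_false {a b : ℤ} (h : IsCoprime a b) {q : ℕ} (hq : q.Prime)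
    (ha : (q : ℤ) ∣ a) (hb : (q : ℤ) ∣ b) : False :=
  (Nat.prime_iff_prime_int.1 hq).not_isUnit (h.isUnit_of_dvd' ha hb)

lemma prime_dvd_of_dvd_mul_sq {q : ℕ} (hq : q.Prime) {c α δ : ℤ} (h : IsCoprime α δ)
    (h1 : (q : ℤ) ∣ c * α ^ 2) (h2 : (q : ℤ) ∣ c * δ ^ 2) : (q : ℤ) ∣ c := by
  obtain ⟨u, v, huv⟩ := (h.pow (m := 2) (n := 2))
  have : c = u * (c * α ^ 2) + v * (c * δ ^ 2) := by linear_combination -c * huv
  rw [this]; exact dvd_add (h1.mul_left u) (h2.mul_left v)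

/-- `r² - 16 z²`, `r² + 9 z²` squares with `r` odd and coprime to `z`. -/
lemma concordant_two {r z e f : ℤ} (hcop : IsCoprime r z) (hr : r % 2 = 1)
    (he : r ^ 2 - 16 * z ^ 2 = e ^ 2) (hf : r ^ 2 + 9 * z ^ 2 = f ^ 2) : z = 0 := by
  by_contra hz
  have heodd : e % 2 = 1 := by
    have h1 := sq_even_iff e
    have h2 := sq_even_iff r
    omega
  have h4 : IsCoprime (4 : ℤ) r := by
    rw [Int.isCoprime_iff_gcd_eq_one]
    show Nat.Coprime (2 ^ 2) r.natAbs
    refine Nat.Coprime.pow_left 2 (Nat.coprime_two_left.2 ?_)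
    rw [Nat.odd_iff]; omega
  have hez : IsCoprime e (4 * z) := by
    rw [Int.isCoprime_iff_gcd_eq_one]
    by_contra hne
    obtain ⟨q, hq, hqd⟩ := Nat.exists_prime_and_dvd hne
    have q1 := (Int.natCast_dvd_natCast.2 hqd).trans (Int.gcd_dvd_left e (4 * z))
    have q2 := (Int.natCast_dvd_natCast.2 hqd).trans (Int.gcd_dvd_right e (4 * z))
    have q3 : (q : ℤ) ∣ r ^ 2 := by
      have : r ^ 2 = e ^ 2 + (4 * z) ^ 2 := by linarith
      rw [this]; exact dvd_add (q1.pow two_ne_zero) (q2.pow two_ne_zero)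
    exact coprime_of_prime_dvd_false (h4.symm.mul_right hcop) hq
      ((Nat.prime_iff_prime_int.1 hq).dvd_of_dvd_pow q3) q2
  obtain ⟨M₀, N₀, -, eyz, ez, hMN, hpar⟩ :=
    triple_param (x := e) (y := 4 * z) (z := r) (by linarith) hez heodd
  obtain ⟨k, N, hN, hkN, ekz, er⟩ : ∃ k N : ℤ, N % 2 = 1 ∧ IsCoprime k N ∧ z = k * N ∧
      r ^ 2 = (4 * k ^ 2 + N ^ 2) ^ 2 := by
    rw [← sq_abs r]
    rcases hpar with ⟨e1, e2⟩ | ⟨e1, e2⟩
    · obtain ⟨k, rfl⟩ := Int.dvd_of_emod_eq_zero e1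
      exact ⟨k, N₀, e2, hMN.of_mul_left_right, by linarith, by rw [ez]; ring⟩
    · obtain ⟨k, rfl⟩ := Int.dvd_of_emod_eq_zero e2
      exact ⟨k, M₀, e1, hMN.symm.of_mul_left_right, by linarith, by rw [ez]; ring⟩
  have hk : k ≠ 0 := fun e0 => hz (by rw [ekz, e0, zero_mul])
  have hN0 : N ≠ 0 := by omega
  have hprod : (k ^ 2 + N ^ 2) * (16 * k ^ 2 + N ^ 2) = f ^ 2 := by
    rw [← hf, er, ekz]; ring
  rcases split_five (by positivity) hprod (fun q hq hqa hqb => by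
    have h15 : (q : ℤ) ∣ 15 := by
      refine prime_dvd_of_dvd_mul_sq hq hkN ?_ ?_
      · have := dvd_sub hqb hqa; ring_nf at this ⊢; exact this
      · have := dvd_sub (hqa.mul_left 16) hqb; ring_nf at this ⊢; exact this
    have h15' : q ∣ 3 * 5 := Int.natCast_dvd_natCast.1 h15
    rcases hq.dvd_mul.1 h15' with h3 | h5
    · exfalso
      have hq3 : q = 3 := (Nat.prime_dvd_prime_iff_eq hq Nat.prime_three).1 h3
      subst hq3
      have h9 : ((k ^ 2 + N ^ 2 : ℤ) : ZMod 3) = 0 :=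
        (ZMod.intCast_zmod_eq_zero_iff_dvd _ _).2 hqa
      push_cast at h9
      have key : ∀ a d : ZMod 3, a ^ 2 + d ^ 2 = 0 → a = 0 ∧ d = 0 := by decide
      obtain ⟨ha, hd⟩ := key _ _ h9
      exact coprime_of_prime_dvd_false hkN hq ((ZMod.intCast_zmod_eq_zero_iff_dvd _ _).1 ha)
        ((ZMod.intCast_zmod_eq_zero_iff_dvd _ _).1 hd)
    · exact (Nat.prime_dvd_prime_iff_eq hq Nat.prime_five).1 h5) with
    ⟨u, v, hu, hv⟩ | ⟨u, v, hu, hv⟩
  · exact mul_ne_zero hN0 hk (concordant N k u v hkN.symm (by linarith) (by linarith))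
  · have n8 := sq_emod_eight N hN
    rcases Int.emod_two_eq k with e0 | e0
    · obtain ⟨k', rfl⟩ := Int.dvd_of_emod_eq_zero e0
      have : N ^ 2 + 64 * k' ^ 2 = 5 * v ^ 2 := by linarith
      rcases sq_emod_eight' v with h | h | h <;> omega
    · have k8 := sq_emod_eight k e0
      rcases sq_emod_eight' u with h | h | h <;> omega

lemma concordant_two' {r z e f : ℤ} (hr : r % 2 = 1)
    (he : r ^ 2 - 16 * z ^ 2 = e ^ 2) (hf : r ^ 2 + 9 * z ^ 2 = f ^ 2) : z = 0 := by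
  have hr0 : r ≠ 0 := by omega
  obtain ⟨g, r', z', hg0, hcop, rfl, rfl⟩ :=
    Int.exists_gcd_one' (Nat.pos_of_ne_zero (fun e0 => hr0 (Int.gcd_eq_zero_iff.1 e0).1) :
      0 < Int.gcd r z)
  have hgne : (g : ℤ) ≠ 0 := Int.natCast_ne_zero.2 hg0.ne'
  obtain ⟨e', he'⟩ := square_of_sq_mul hgne (P := r' ^ 2 - 16 * z' ^ 2) (T := e)
    (by rw [← he]; ring)
  obtain ⟨f', hf'⟩ := square_of_sq_mul hgne (P := r' ^ 2 + 9 * z' ^ 2) (T := f)
    (by rw [← hf]; ring)
  have hr' : r' % 2 = 1 := by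
    rcases Int.emod_two_eq r' with e0 | e0
    · rw [Int.mul_emod, e0] at hr; simp at hr
    · exact e0
  rw [concordant_two (Int.isCoprime_iff_gcd_eq_one.2 hcop) hr' he' hf', zero_mul]

/-- The system with both forms squares has only degenerate solutions. -/
lemma pair_one {α δ x y : ℤ} (hcop : IsCoprime α δ) (h1 : 9 * α ^ 2 - 4 * δ ^ 2 = x ^ 2)
    (h2 : 4 * α ^ 2 + δ ^ 2 = y ^ 2) : δ = 0 ∨ (α ^ 2 = 4 ∧ δ ^ 2 = 9) := by
  rcases Int.emod_two_eq α with hα | hα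
  · right
    have hδ : δ % 2 = 1 := by
      rcases Int.emod_two_eq δ with e | e
      · exact absurd (hcop.isUnit_of_dvd' (Int.dvd_of_emod_eq_zero hα) (Int.dvd_of_emod_eq_zero e))
          (by decide)
      · exact e
    obtain ⟨a, rfl⟩ := Int.dvd_of_emod_eq_zero hα
    obtain ⟨x', rfl⟩ : (2 : ℤ) ∣ x := by
      have := sq_even_iff x
      have : x ^ 2 = 2 * (18 * a ^ 2 - 2 * δ ^ 2) := by linarith
      omega
    have e1 : x' ^ 2 + δ ^ 2 = 9 * a ^ 2 := by linarith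
    have ha : a % 2 = 1 := by
      rcases Int.emod_two_eq a with e | e
      · exfalso
        obtain ⟨b, rfl⟩ := Int.dvd_of_emod_eq_zero e
        have d8 := sq_emod_eight δ hδ
        have : x' ^ 2 + δ ^ 2 = 36 * b ^ 2 := by linarith
        rcases sq_emod_eight' x' with h | h | h <;> omega
      · exact e
    have e3 : ((x' : ZMod 3)) = 0 ∧ ((δ : ZMod 3)) = 0 := by
      have : ((x' ^ 2 + δ ^ 2 : ℤ) : ZMod 3) = ((9 * a ^ 2 : ℤ) : ZMod 3) := by rw [e1]
      push_cast at this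
      have key : ∀ p q r : ZMod 3, p ^ 2 + q ^ 2 = 9 * r ^ 2 → p = 0 ∧ q = 0 := by decide
      exact key _ _ _ this
    obtain ⟨x'', rfl⟩ := (ZMod.intCast_zmod_eq_zero_iff_dvd _ 3).1 e3.1
    obtain ⟨d, rfl⟩ := (ZMod.intCast_zmod_eq_zero_iff_dvd _ 3).1 e3.2
    push_cast at *
    have hyodd : y % 2 = 1 := by
      have := sq_even_iff y
      have : y ^ 2 = 2 * (8 * a ^ 2) + (3 * d) ^ 2 := by linarith
      have := sq_even_iff (3 * d)
      omega
    have hx0 : x'' = 0 :=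
      concordant_two' (r := y) (z := x'') (e := 5 * d) (f := 5 * a) hyodd
        (by linarith)
        (by linarith)
    subst hx0
    have had : IsCoprime (a ^ 2) (d ^ 2) := hcop.of_mul_left_right.of_mul_right_right.pow
    have e4 : a ^ 2 = d ^ 2 := by linarith
    rw [← e4] at had
    have e5 : a ^ 2 = 1 := by
      rcases Int.isUnit_iff.1 (isCoprime_self.1 had) with h | h
      · exact h
      · nlinarith
    constructor <;> linarith
  · left
    have hδ : δ % 2 = 0 := by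
      rcases Int.emod_two_eq δ with e | e
      · exact e
      · exfalso
        have a8 := sq_emod_eight α hα
        have d8 := sq_emod_eight δ e
        rcases sq_emod_eight' y with h | h | h <;> omega
    obtain ⟨d, rfl⟩ := Int.dvd_of_emod_eq_zero hδ
    obtain ⟨y', rfl⟩ : (2 : ℤ) ∣ y := by
      have := sq_even_iff y
      have : y ^ 2 = 2 * (2 * α ^ 2 + 2 * d ^ 2) := by linarith
      omega
    have h3 : d = 0 := concordant_two' (r := 3 * α) (z := d) (e := x) (f := 3 * y')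
      (by omega) (by linarith) (by linarith)
    rw [h3, mul_zero]

lemma form_mod_two : ∀ p r : ZMod 2, p ^ 2 - p * r - r ^ 2 = 0 → p = 0 ∧ r = 0 := by decide

lemma form_mod_three : ∀ p r : ZMod 3, p ^ 2 - p * r - r ^ 2 = 0 → p = 0 ∧ r = 0 := by decide

lemma coprime_forms {P Q : ℤ} (hPQ : IsCoprime P Q) :
    IsCoprime (P ^ 2 - P * Q - Q ^ 2) (P ^ 2 + 11 * P * Q - Q ^ 2) := by
  rw [Int.isCoprime_iff_gcd_eq_one]
  by_contra hne
  obtain ⟨q, hq, hqd⟩ := Nat.exists_prime_and_dvd hne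
  have q1 := (Int.natCast_dvd_natCast.2 hqd).trans
    (Int.gcd_dvd_left (P ^ 2 - P * Q - Q ^ 2) (P ^ 2 + 11 * P * Q - Q ^ 2))
  have q2 := (Int.natCast_dvd_natCast.2 hqd).trans
    (Int.gcd_dvd_right (P ^ 2 - P * Q - Q ^ 2) (P ^ 2 + 11 * P * Q - Q ^ 2))
  have : Fact q.Prime := ⟨hq⟩
  have c1 := (ZMod.intCast_zmod_eq_zero_iff_dvd _ q).2 q1
  have c2 := (ZMod.intCast_zmod_eq_zero_iff_dvd _ q).2 q2
  push_cast at c1 c2
  have e12 : ((12 : ℕ) : ZMod q) * ((P : ZMod q) * Q) = 0 := by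
    push_cast; linear_combination c2 - c1
  rcases mul_eq_zero.1 e12 with e | e
  · have h12 : q ∣ 2 ^ 2 * 3 := (ZMod.natCast_eq_zero_iff _ _).1 e
    rcases hq.dvd_mul.1 h12 with h | h
    · have h2 := (Nat.prime_dvd_prime_iff_eq hq Nat.prime_two).1 (hq.dvd_of_dvd_pow h)
      subst h2
      have key := form_mod_two
      obtain ⟨a1, a2⟩ := key _ _ c1
      exact coprime_of_prime_dvd_false hPQ hq ((ZMod.intCast_zmod_eq_zero_iff_dvd _ _).1 a1)
        ((ZMod.intCast_zmod_eq_zero_iff_dvd _ _).1 a2)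
    · have h3 := (Nat.prime_dvd_prime_iff_eq hq Nat.prime_three).1 h
      subst h3
      have key := form_mod_three
      obtain ⟨a1, a2⟩ := key _ _ c1
      exact coprime_of_prime_dvd_false hPQ hq ((ZMod.intCast_zmod_eq_zero_iff_dvd _ _).1 a1)
        ((ZMod.intCast_zmod_eq_zero_iff_dvd _ _).1 a2)
  · rcases mul_eq_zero.1 e with e | e
    · rw [e] at c1
      have : (Q : ZMod q) = 0 := eq_zero_of_pow_eq_zero (n := 2) (by linear_combination -c1)
      exact coprime_of_prime_dvd_false hPQ hq ((ZMod.intCast_zmod_eq_zero_iff_dvd _ _).1 e)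
        ((ZMod.intCast_zmod_eq_zero_iff_dvd _ _).1 this)
    · rw [e] at c1
      have : (P : ZMod q) = 0 := eq_zero_of_pow_eq_zero (n := 2) (by linear_combination c1)
      exact coprime_of_prime_dvd_false hPQ hq ((ZMod.intCast_zmod_eq_zero_iff_dvd _ _).1 this)
        ((ZMod.intCast_zmod_eq_zero_iff_dvd _ _).1 e)

lemma orient {X y P Q u w E : ℤ} (hX : X = P ^ 2 - Q ^ 2) (hy : y = P * Q) (hPQ : IsCoprime P Q)
    (hP : P ≠ 0) (hQ : Q ≠ 0)
    (hu : P ^ 2 - P * Q - Q ^ 2 = u ^ 2 ∨ P ^ 2 - P * Q - Q ^ 2 = -u ^ 2)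
    (hw : P ^ 2 + 11 * P * Q - Q ^ 2 = w ^ 2 ∨ P ^ 2 + 11 * P * Q - Q ^ 2 = -w ^ 2)
    (hE : (P ^ 2 - P * Q - Q ^ 2) * (P ^ 2 + 11 * P * Q - Q ^ 2) = E ^ 2) :
    ∃ P' Q' u' w' : ℤ,
      (X = P' ^ 2 - Q' ^ 2 ∧ y = P' * Q' ∨ X = -(P' ^ 2 - Q' ^ 2) ∧ y = -(P' * Q')) ∧
      IsCoprime P' Q' ∧ P' ≠ 0 ∧ Q' ≠ 0 ∧ P' ^ 2 - P' * Q' - Q' ^ 2 = u' ^ 2 ∧
      P' ^ 2 + 11 * P' * Q' - Q' ^ 2 = w' ^ 2 ∧
      P'.natAbs ^ 2 + Q'.natAbs ^ 2 = P.natAbs ^ 2 + Q.natAbs ^ 2 := by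
  set F1 := P ^ 2 - P * Q - Q ^ 2 with hF1
  set F2 := P ^ 2 + 11 * P * Q - Q ^ 2 with hF2
  rcases le_or_gt 0 F1 with h1 | h1
  · rcases le_or_gt 0 F2 with h2 | h2
    · refine ⟨P, Q, u, w, Or.inl ⟨hX, hy⟩, hPQ, hP, hQ, ?_, ?_, rfl⟩
      · rcases hu with h | h <;> rw [h] at h1 <;> have := sq_nonneg u <;> linarith
      · rcases hw with h | h <;> rw [h] at h2 <;> have := sq_nonneg w <;> linarith
    · have h0 : F1 = 0 := by
        by_contra h
        have : F1 * F2 < 0 := mul_neg_of_pos_of_neg (lt_of_le_of_ne h1 (Ne.symm h)) h2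
        have := sq_nonneg E
        linarith
      refine ⟨Q, -P, 0, w, Or.inr ⟨by rw [hX]; ring, by rw [hy]; ring⟩, hPQ.symm.neg_right, hQ,
        neg_ne_zero.2 hP, by linarith, ?_, by rw [Int.natAbs_neg]; ring⟩
      rcases hw with h | h
      · have := sq_nonneg w; linarith
      · linarith
  · have h2 : F2 ≤ 0 := by
      by_contra h
      push Not at h
      have := mul_neg_of_neg_of_pos h1 h
      have := sq_nonneg E
      linarith
    refine ⟨Q, -P, u, w, Or.inr ⟨by rw [hX]; ring, by rw [hy]; ring⟩, hPQ.symm.neg_right, hQ,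
      neg_ne_zero.2 hP, ?_, ?_, by rw [Int.natAbs_neg]; ring⟩
    · rcases hu with h | h
      · have := sq_nonneg u; linarith
      · linarith
    · rcases hw with h | h
      · have := sq_nonneg w; linarith
      · linarith

/-- The descent: rational points of `X₀(15)`. -/
lemma descent15_aux : ∀ (n : ℕ) (m k a b : ℤ), m.natAbs ^ 2 + k.natAbs ^ 2 = n → IsCoprime m k →
    m ≠ 0 → k ≠ 0 → m ^ 2 - m * k - k ^ 2 = a ^ 2 → m ^ 2 + 11 * m * k - k ^ 2 = b ^ 2 →
    m = 2 ∧ k = 1 ∨ m = -2 ∧ k = -1 := by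
  intro n
  induction n using Nat.strong_induction_on with
  | _ n IH =>
  intro m k a b hn hcop hm hk ha hb
  have haodd : a % 2 = 1 := by
    have h1 := sq_even_iff a
    have h2 := sq_even_iff m
    have h3 := sq_even_iff k
    have h4 := Int.mul_emod m k 2
    rcases Int.emod_two_eq m with e1 | e1 <;> rcases Int.emod_two_eq k with e2 | e2
    · exact absurd (hcop.isUnit_of_dvd' (Int.dvd_of_emod_eq_zero e1) (Int.dvd_of_emod_eq_zero e2))
        (by decide)
    all_goals rw [e1, e2] at h4; omega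
  have hbodd : b % 2 = 1 := by
    have h1 := sq_even_iff a
    have h2 := sq_even_iff b
    have : b ^ 2 = a ^ 2 + 2 * (6 * (m * k)) := by linarith
    omega
  obtain ⟨kk, ll, hkl, hal⟩ : ∃ kk ll : ℤ, kk * ll = m * k ∧ (ll - 3 * kk) ^ 2 = a ^ 2 := by
    obtain ⟨u, hu⟩ : (2 : ℤ) ∣ b - a := by omega
    have huv : u * (u + a) = 3 * (m * k) := by
      have hb' : b = 2 * u + a := by omega
      subst hb'
      linarith
    rcases Int.prime_three.dvd_or_dvd (Dvd.intro _ huv.symm : (3 : ℤ) ∣ u * (u + a)) with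
      ⟨w, rfl⟩ | ⟨w, hw⟩
    · exact ⟨w, 3 * w + a, by linarith, by ring⟩
    · refine ⟨w, u, ?_, ?_⟩
      · rw [hw] at huv; linarith
      · have : a = 3 * w - u := by linarith
        rw [this]; ring
  have hkk : kk ≠ 0 := fun e => mul_ne_zero hm hk (by rw [← hkl, e, zero_mul])
  obtain ⟨α, β, γ, δ, rfl, rfl, rfl, rfl⟩ := four_number hkl.symm hkk
  obtain ⟨hαδ, hαγ, hβδ, hβγ⟩ := coprime_factors hcop
  have hα : α ≠ 0 := left_ne_zero_of_mul hm
  have hβ : β ≠ 0 := right_ne_zero_of_mul hm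
  have hγ : γ ≠ 0 := left_ne_zero_of_mul hk
  have hδ : δ ≠ 0 := right_ne_zero_of_mul hk
  have hquad : β ^ 2 * (α ^ 2 - δ ^ 2) + 5 * (α * β * γ * δ) - γ ^ 2 * (δ ^ 2 + 9 * α ^ 2) = 0 := by
    linear_combination ha - hal
  obtain ⟨R, hR⟩ := square_of_sq_mul hγ (P := (4 * α ^ 2 + δ ^ 2) * (9 * α ^ 2 - 4 * δ ^ 2))
    (T := 2 * (α ^ 2 - δ ^ 2) * β + 5 * α * δ * γ)
    (by linear_combination -4 * (α ^ 2 - δ ^ 2) * hquad)
  have hpos : 0 < 4 * α ^ 2 + δ ^ 2 := by positivity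
  rcases split_five hpos hR (fun q hq hqa hqb => by
    have h25 : (q : ℤ) ∣ 25 := by
      refine prime_dvd_of_dvd_mul_sq hq hαδ ?_ ?_
      · have := dvd_add (hqa.mul_left 4) hqb; ring_nf at this ⊢; exact this
      · have := dvd_sub (hqa.mul_left 9) (hqb.mul_left 4); ring_nf at this ⊢; exact this
    have h5 : q ∣ 5 ^ 2 := Int.natCast_dvd_natCast.1 h25
    exact (Nat.prime_dvd_prime_iff_eq hq Nat.prime_five).1 (hq.dvd_of_dvd_pow h5)) with
    ⟨y, x, hy, hx⟩ | ⟨G, E, hG, hE⟩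
  · exfalso
    rcases pair_one hαδ hx hy with h | ⟨h4, h9⟩
    · exact hδ h
    · have hq2 : (2 * β * γ) * 0 = 0 := mul_zero _
      have e1 : (5 * β) ^ 2 * γ ^ 2 * 36 = (5 * β ^ 2 + 45 * γ ^ 2) ^ 2 := by
        have e0 : 5 * (α * δ) * (β * γ) = 5 * β ^ 2 + 45 * γ ^ 2 := by
          rw [h4, h9] at hquad; linarith
        rw [← e0]
        have : (α * δ) ^ 2 = 36 := by rw [mul_pow, h4, h9]; norm_num
        linear_combination -25 * (β * γ) ^ 2 * this
      have e2 : (β ^ 2 - 9 * γ ^ 2) ^ 2 = 0 := by linarith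
      have e3 : β ^ 2 = 9 * γ ^ 2 := by
        have := sq_eq_zero_iff.1 e2; linarith
      have hγ1 : γ ^ 2 = 1 := by
        have hu : IsUnit (γ ^ 2) :=
          (hβγ.pow (m := 2) (n := 2)).isUnit_of_dvd' ⟨9, by rw [e3]; ring⟩ dvd_rfl
        rcases Int.isUnit_iff.1 hu with h | h
        · exact h
        · nlinarith
      rw [hγ1] at e3
      have d3 : (3 : ℤ) ∣ α * β := by
        have : (3 : ℤ) ∣ β := Int.prime_three.dvd_of_dvd_pow (n := 2) (by rw [e3]; norm_num)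
        exact this.mul_left α
      have d3' : (3 : ℤ) ∣ γ * δ := by
        have : (3 : ℤ) ∣ δ := Int.prime_three.dvd_of_dvd_pow (n := 2) (by rw [h9]; norm_num)
        exact this.mul_left γ
      exact Int.prime_three.not_isUnit (hcop.isUnit_of_dvd' d3 d3')
  · have hαodd : α % 2 = 1 := by
      rcases Int.emod_two_eq α with e | e
      · exfalso
        have hd : δ % 2 = 1 := by
          rcases Int.emod_two_eq δ with e' | e'
          · exact absurd (hαδ.isUnit_of_dvd' (Int.dvd_of_emod_eq_zero e)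
              (Int.dvd_of_emod_eq_zero e')) (by decide)
          · exact e'
        obtain ⟨a', rfl⟩ := Int.dvd_of_emod_eq_zero e
        have d8 := sq_emod_eight δ hd
        have : δ ^ 2 + 16 * a' ^ 2 = 5 * G ^ 2 := by linarith
        rcases sq_emod_eight' G with h | h | h <;> omega
      · exact e
    have hδodd : δ % 2 = 1 := by
      rcases Int.emod_two_eq δ with e | e
      · exfalso
        obtain ⟨d, rfl⟩ := Int.dvd_of_emod_eq_zero e
        have a8 := sq_emod_eight α hαodd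
        have : 9 * α ^ 2 - 16 * d ^ 2 = 5 * E ^ 2 := by linarith
        rcases sq_emod_eight' E with h | h | h <;> omega
      · exact e
    -- choose the sign of `δ`
    obtain ⟨s, hs, y, hy⟩ : ∃ s : ℤ, (s = 1 ∨ s = -1) ∧ (5 : ℤ) ∣ α - s * δ := by
      have h5 : (5 : ℤ) ∣ (α - δ) * (α + δ) := ⟨α ^ 2 - G ^ 2, by linarith⟩
      rcases (by norm_num : Prime (5 : ℤ)).dvd_or_dvd h5 with h | h
      · exact ⟨1, Or.inl rfl, by simpa using h⟩
      · exact ⟨-1, Or.inr rfl, by simpa using h⟩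
    have hs2 : s ^ 2 = 1 := by rcases hs with rfl | rfl <;> norm_num
    set δ' := s * δ with hδ'
    have hαδ' : IsCoprime α δ' := by
      rcases hs with rfl | rfl
      · simpa [hδ'] using hαδ
      · simpa [hδ'] using hαδ.neg_right
    have hδ'odd : δ' % 2 = 1 := by rcases hs with rfl | rfl <;> omega
    have hG' : 4 * α ^ 2 + δ' ^ 2 = 5 * G ^ 2 := by rw [hδ', mul_pow, hs2]; linarith
    have hE' : 9 * α ^ 2 - 4 * δ' ^ 2 = 5 * E ^ 2 := by rw [hδ', mul_pow, hs2]; linarith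
    set X := α - y with hX
    have hδX : δ' = X - 4 * y := by linarith
    have hXodd : X % 2 = 1 := by omega
    have hXy : IsCoprime X (2 * y) := by
      refine IsCoprime.mul_right (Int.isCoprime_iff_gcd_eq_one.2 ?_) ?_
      · rw [Int.gcd_comm]
        refine Nat.coprime_two_left.2 ?_
        rw [Nat.odd_iff]; omega
      · rw [Int.isCoprime_iff_gcd_eq_one]
        by_contra hne
        obtain ⟨q, hq, hqd⟩ := Nat.exists_prime_and_dvd hne
        have q1 := (Int.natCast_dvd_natCast.2 hqd).trans (Int.gcd_dvd_left X y)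
        have q2 := (Int.natCast_dvd_natCast.2 hqd).trans (Int.gcd_dvd_right X y)
        refine coprime_of_prime_dvd_false hαδ' hq ?_ ?_
        · have : α = X + y := by linarith
          rw [this]; exact dvd_add q1 q2
        · rw [hδX]; exact dvd_sub q1 (q2.mul_left 4)
    have hGe : X * X + (2 * y) * (2 * y) = G * G := by
      have : α = X + y := by linarith
      rw [this, hδX] at hG'
      linarith
    obtain ⟨P, Q, eX, ey, eG, hPQ, -⟩ := triple_param hGe hXy hXodd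
    have hEe : (P ^ 2 - P * Q - Q ^ 2) * (P ^ 2 + 11 * P * Q - Q ^ 2) = E ^ 2 := by
      have h1 : α = X + y := by linarith
      rw [h1, hδX] at hE'
      have h2 : y = P * Q := by linarith
      subst h2
      have h3 : 5 * E ^ 2 = 5 * ((X - P * Q) * (X + 11 * (P * Q))) := by linarith
      rw [eX] at h3
      linarith
    by_cases hy0 : y = 0
    · have hunit : IsUnit α := hαδ'.isUnit_of_dvd' dvd_rfl (by
        have : δ' = α := by rw [hδX, hX, hy0]; ring
        rw [this])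
      have hα2 : α ^ 2 = 1 := by rcases Int.isUnit_iff.1 hunit with h | h <;> rw [h] <;> norm_num
      have hδ2 : δ ^ 2 = 1 := by
        have : δ' = α := by rw [hδX, hX, hy0]; ring
        have h2 : δ' ^ 2 = 1 := by rw [this, hα2]
        rw [hδ', mul_pow, hs2, one_mul] at h2; exact h2
      rw [hα2, hδ2] at hquad
      have hb2 : α * β * δ = 2 * γ := by
        have : γ * (α * β * δ - 2 * γ) = 0 := by linarith
        rcases mul_eq_zero.1 this with h | h
        · exact absurd h hγ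
        · linarith
      have hg : IsUnit γ := by
        have hd : γ ∣ α * β * δ := ⟨2, by rw [hb2]; ring⟩
        have hd' : IsCoprime γ (α * β * δ) := by
          refine IsCoprime.mul_right (IsCoprime.mul_right hαγ.symm hβγ.symm) ?_
          exact isCoprime_one_right.of_isCoprime_of_dvd_right
            ((IsUnit.of_mul_eq_one δ (by rw [← pow_two]; exact hδ2)).dvd)
        exact hd'.isUnit_of_dvd' dvd_rfl hd
      rcases Int.isUnit_iff.1 hunit with rfl | rfl <;>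
        rcases Int.isUnit_iff.1 (IsUnit.of_mul_eq_one δ (by rw [← pow_two]; exact hδ2) : IsUnit δ)
          with rfl | rfl <;>
        rcases Int.isUnit_iff.1 hg with rfl | rfl <;> omega
    exfalso
    have hP : P ≠ 0 := fun e => hy0 (by rw [e] at ey; linarith)
    have hQ : Q ≠ 0 := fun e => hy0 (by rw [e] at ey; linarith)
    have hcopf := coprime_forms hPQ
    obtain ⟨u, hu⟩ := Int.sq_of_gcd_eq_one (Int.isCoprime_iff_gcd_eq_one.1 hcopf) hEe
    obtain ⟨w, hw⟩ := Int.sq_of_gcd_eq_one (Int.isCoprime_iff_gcd_eq_one.1 hcopf.symm)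
      (by rw [mul_comm]; exact hEe)
    have hlt : P.natAbs ^ 2 + Q.natAbs ^ 2 < n := by
      rw [← hn]
      have hineq : (P ^ 2 + Q ^ 2) < (α * β) ^ 2 + (γ * δ) ^ 2 := by
        rw [← eG]
        refine lt_of_pow_lt_pow_left₀ 2 (by positivity) ?_
        rw [sq_abs]
        have hE0 : 0 ≤ E ^ 2 := sq_nonneg E
        have h4G : 4 * G ^ 2 ≤ 5 * α ^ 2 := by linarith
        have hb1 : 1 ≤ β ^ 2 := pow_two_pos_of_ne_zero hβ
        have ha1 : 1 ≤ α ^ 2 := pow_two_pos_of_ne_zero hα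
        have hk1 : 1 ≤ (γ * δ) ^ 2 := pow_two_pos_of_ne_zero hk
        have hm1 : α ^ 2 ≤ (α * β) ^ 2 := by rw [mul_pow]; exact le_mul_of_one_le_right (sq_nonneg α) hb1
        have hS : ((α * β) ^ 2 + 1) ^ 2 ≤ ((α * β) ^ 2 + (γ * δ) ^ 2) ^ 2 := by
          apply pow_le_pow_left₀ <;> linarith
        have hS' : ((α * β) ^ 2) ^ 2 + 2 * (α * β) ^ 2 + 1 ≤ ((α * β) ^ 2 + (γ * δ) ^ 2) ^ 2 :=
          le_trans (le_of_eq (by ring)) hS
        have := sq_nonneg ((α * β) ^ 2)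
        have := sq_nonneg (α * β)
        linarith only [h4G, hm1, hS', this, sq_nonneg ((α * β) ^ 2)]
      zify
      simpa [sq_abs, Int.natCast_natAbs, mul_pow] using hineq
    -- orient the smaller solution
    obtain ⟨P', Q', u', w', hX', hcop', hne1, hne2, hu', hw', heq'⟩ :=
      orient eX (show y = P * Q by linarith) hPQ hP hQ hu hw hEe
    have hlt' : P'.natAbs ^ 2 + Q'.natAbs ^ 2 < n := heq' ▸ hlt
    have := IH _ hlt' P' Q' u' w' rfl hcop' hne1 hne2 hu' hw'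
    have hdiv : (5 : ℤ) ∣ α ∧ (5 : ℤ) ∣ δ' := by
      rcases this with ⟨rfl, rfl⟩ | ⟨rfl, rfl⟩ <;> rcases hX' with ⟨h1, h2⟩ | ⟨h1, h2⟩ <;>
        constructor <;> omega
    exact (by norm_num : Prime (5 : ℤ)).not_isUnit (hαδ'.isUnit_of_dvd' hdiv.1 hdiv.2)

lemma descent15 {m k a b : ℤ} (hcop : IsCoprime m k) (hm : m ≠ 0) (hk : k ≠ 0)
    (ha : m ^ 2 - m * k - k ^ 2 = a ^ 2) (hb : m ^ 2 + 11 * m * k - k ^ 2 = b ^ 2) :
    m = 2 ∧ k = 1 ∨ m = -2 ∧ k = -1 :=
  descent15_aux _ m k a b rfl hcop hm hk ha hb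

end FLTAgent.SmallLevel
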